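import Mathlib
import Fermat.Prelude.Def_ModularForm_HeckeOperator
import Fermat.Prelude.Sol.S_ModularForm_heckeT_slash_eq_self_of_mem_Gamma0
import Fermat.Prelude.Sol.S_ModularFormClass_isBoundedAt_heckeT
import Fermat.Prelude.Thm_CongruenceSubgroup_one_mem_strictPeriods_Gamma0

set_option autoImplicit false

/-!
# S23, slice (3) (insurance implementation): a primitive element `θ` for `Γ₀(N) ⊆ SL₂(ℤ)`

`θ := E₁₂ ∣[12] diag(N,1)`, i.e. `θ(τ) = N¹¹ E₁₂(Nτ)`, is a modular form of weight `12` on `Γ₀(N)`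
with rational `q`-expansion, and `θ ∣[12] γ ≠ θ` for every `γ ∈ SL₂(ℤ)` outside `Γ₀(N)`
(compare the values at `i∞`, using the Hermite normal form of `diag(N,1) γ`).
-/

open UpperHalfPlane CongruenceSubgroup Matrix.SpecialLinearGroup ModularForm Filter Topology
open scoped MatrixGroups ModularForm Manifold

noncomputable section

namespace Fermat.Agent.S23.ThetaE12

/-- The weight `12` level one Eisenstein series. -/
abbrev E12 : ModularForm 𝒮ℒ 12 := ModularForm.E (by norm_num : 3 ≤ 12)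

theorem det_eq' (g : SL(2, ℤ)) : g 0 0 * g 1 1 - g 0 1 * g 1 0 = 1 := by
  have h := g.det_coe
  rwa [Matrix.det_fin_two] at h

theorem mapGL_apply' (g : SL(2, ℤ)) (i j : Fin 2) :
    (mapGL ℝ g : GL (Fin 2) ℝ) i j = ((g i j : ℤ) : ℝ) := by
  simp

theorem exists_SL_of_entries (x y z w : ℤ) (h : x * w - y * z = 1) :
    ∃ δ : SL(2, ℤ), δ 0 0 = x ∧ δ 0 1 = y ∧ δ 1 0 = z ∧ δ 1 1 = w :=
  ⟨⟨!![x, y; z, w], by rw [Matrix.det_fin_two_of]; exact h⟩, rfl, rfl, rfl, rfl⟩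

/-- Hermite normal form of `diag(N,1) * γ`. -/
theorem exists_hermite {N : ℕ} (hN : N ≠ 0) (γ : SL(2, ℤ)) :
    ∃ (δ : SL(2, ℤ)) (A B D : ℤ) (hAD : (A : ℝ) * (D : ℝ) ≠ 0), 0 < A ∧ 0 < D ∧ A * D = N ∧
      γ 1 0 = δ 1 0 * A ∧
      heckeDiagMatrix N * mapGL ℝ γ = mapGL ℝ δ * upperTriangularGL A B D hAD := by
  have hdet := det_eq' γ
  obtain ⟨a, ha⟩ : ∃ a : ℤ, a = γ 0 0 := ⟨_, rfl⟩
  obtain ⟨b, hb⟩ : ∃ b : ℤ, b = γ 0 1 := ⟨_, rfl⟩
  obtain ⟨c, hc⟩ : ∃ c : ℤ, c = γ 1 0 := ⟨_, rfl⟩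
  obtain ⟨d, hd⟩ : ∃ d : ℤ, d = γ 1 1 := ⟨_, rfl⟩
  rw [← ha, ← hb, ← hc, ← hd] at hdet
  -- the gcd of the first column
  obtain ⟨g, hg⟩ : ∃ g : ℤ, g = (Int.gcd ((N : ℤ) * a) c : ℤ) := ⟨_, rfl⟩
  have hg0 : g ≠ 0 := by
    intro h0
    rw [hg] at h0
    have h0' : Int.gcd ((N : ℤ) * a) c = 0 := by exact_mod_cast h0
    rw [Int.gcd_eq_zero_iff] at h0'
    obtain ⟨h1, h2⟩ := h0'
    have hN' : (N : ℤ) ≠ 0 := by exact_mod_cast hN
    have ha0 : a = 0 := by
      rcases mul_eq_zero.mp h1 with h | h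
      · exact absurd h hN'
      · exact h
    rw [ha0, h2] at hdet
    simp at hdet
  have hgpos : 0 < g := lt_of_le_of_ne (by rw [hg]; positivity) (Ne.symm hg0)
  obtain ⟨x, hx⟩ : g ∣ (N : ℤ) * a := hg ▸ Int.gcd_dvd_left _ _
  obtain ⟨y, hy⟩ : g ∣ c := hg ▸ Int.gcd_dvd_right _ _
  have hbez := Int.gcd_eq_gcd_ab ((N : ℤ) * a) c
  obtain ⟨s, hs⟩ : ∃ s : ℤ, s = Int.gcdA ((N : ℤ) * a) c := ⟨_, rfl⟩
  obtain ⟨t, ht⟩ : ∃ t : ℤ, t = Int.gcdB ((N : ℤ) * a) c := ⟨_, rfl⟩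
  rw [← hg, ← hs, ← ht] at hbez
  have hxy : x * s + y * t = 1 := by
    have : g * (x * s + y * t) = g * 1 := by
      calc g * (x * s + y * t) = (g * x) * s + (g * y) * t := by ring
        _ = (N : ℤ) * a * s + c * t := by rw [← hx, ← hy]
        _ = g := hbez.symm
        _ = g * 1 := (mul_one g).symm
    exact mul_left_cancel₀ hg0 this
  -- D := x * d - y * N * b
  obtain ⟨D, hD⟩ : ∃ D : ℤ, D = x * d - y * ((N : ℤ) * b) := ⟨_, rfl⟩
  have hgD : g * D = N := by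
    have : g * D = (g * x) * d - (g * y) * ((N : ℤ) * b) := by rw [hD]; ring
    rw [this, ← hx, ← hy]
    linear_combination (N : ℤ) * hdet
  have hDpos : 0 < D := by
    have hNpos : (0 : ℤ) < N := by exact_mod_cast Nat.pos_of_ne_zero hN
    by_contra hcon
    have hcon' : D ≤ 0 := not_lt.mp hcon
    have : g * D ≤ 0 := mul_nonpos_of_nonneg_of_nonpos hgpos.le hcon'
    omega
  obtain ⟨B, hB⟩ : ∃ B : ℤ, B = s * ((N : ℤ) * b) + t * d := ⟨_, rfl⟩
  have hAD : (g : ℝ) * (D : ℝ) ≠ 0 := by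
    have : ((g * D : ℤ) : ℝ) = (N : ℝ) := by rw [hgD]; simp
    push_cast at this
    rw [this]
    exact_mod_cast hN
  obtain ⟨δ, h00, h01, h10, h11⟩ := exists_SL_of_entries x (-t) y s (by linear_combination hxy)
  refine ⟨δ, g, B, D, hAD, hgpos, hDpos, hgD, ?_, ?_⟩
  · rw [h10, ← hc, hy]; ring
  · have hxR : ((N : ℝ) * (a : ℝ)) = (g : ℝ) * (x : ℝ) := by exact_mod_cast hx
    have hyR : (c : ℝ) = (g : ℝ) * (y : ℝ) := by exact_mod_cast hy
    have hxyR : (x : ℝ) * s + y * t = 1 := by exact_mod_cast hxy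
    have hDR : (D : ℝ) = x * d - y * ((N : ℝ) * b) := by rw [hD]; push_cast; ring
    have hBR : (B : ℝ) = s * ((N : ℝ) * b) + t * d := by rw [hB]; push_cast; ring
    ext i j
    fin_cases i <;> fin_cases j <;>
      simp [hN, Matrix.mul_apply, Fin.sum_univ_two, ← ha, ← hb, ← hc, ← hd,
        h00, h01, h10, h11]
    · linear_combination hxR
    · rw [hBR, hDR]; linear_combination (-(N : ℝ) * b) * hxyR
    · linear_combination hyR
    · rw [hBR, hDR]; linear_combination (-(d : ℝ)) * hxyR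

/-- `θ = E₁₂ ∣[12] diag(N,1)`, as a function. -/
def thetaFun (N : ℕ) : ℍ → ℂ := (⇑E12) ∣[(12 : ℤ)] (heckeDiagMatrix N)

theorem thetaFun_slash_Gamma0 (N : ℕ) [NeZero N] (γ : GL (Fin 2) ℝ)
    (hγ : γ ∈ (Gamma0 N : Subgroup (GL (Fin 2) ℝ))) :
    thetaFun N ∣[(12 : ℤ)] γ = thetaFun N := by
  obtain ⟨g, hg, rfl⟩ := hγ
  have hg2 : g ∈ Gamma0 N := hg
  rw [Gamma0_mem] at hg2
  have hdvd : (N : ℤ) ∣ g 1 0 := (ZMod.intCast_zmod_eq_zero_iff_dvd _ N).mp hg2
  obtain ⟨e, he⟩ := hdvd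
  obtain ⟨g', -, hg'⟩ :=
    P2MW.S_ModularForm_heckeT_slash_eq_self_of_mem_Gamma0.ModularForm.HeckeSlashInvariance.heckeDiagMatrix_mul_of_eq'
      (NeZero.ne N) g e he
  rw [thetaFun, ← SlashAction.slash_mul, hg', SlashAction.slash_mul]
  congr 1
  exact SlashInvariantFormClass.slash_action_eq E12 _ ⟨g', rfl⟩

theorem mdiff_thetaFun (N : ℕ) : MDiff (thetaFun N) :=
  (ModularFormClass.holo E12).slash 12 _

/-- `θ` as a modular form of weight 12 on `Γ₀(N)`. -/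
def theta (N : ℕ) [NeZero N] : ModularForm (Gamma0 N : Subgroup (GL (Fin 2) ℝ)) 12 where
  toFun := thetaFun N
  slash_action_eq' γ hγ := thetaFun_slash_Gamma0 N γ hγ
  holo' := mdiff_thetaFun N
  bdd_at_cusps' {c} hc := by
    obtain ⟨g, hg⟩ :=
      P2MW.S_ModularFormClass_isBoundedAt_heckeT.ModularForm.S06W2.exists_heckeDiagMatrix_eq_map N
    have hc' : IsCusp c 𝒮ℒ := by
      rw [Subgroup.IsArithmetic.isCusp_iff_isCusp_SL2Z] at hc ⊢
      exact hc
    have := P2MW.S_ModularFormClass_isBoundedAt_heckeT.ModularForm.S06W2.isBoundedAt_slash_ratCast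
      E12 g hc'
    rw [← hg] at this
    exact this

theorem tendsto_E12 : Tendsto (⇑E12) atImInfty (𝓝 1) := by
  have hper := SlashInvariantFormClass.periodic_comp_ofComplex E12
    (one_mem_strictPeriods_SL)
  have han : AnalyticAt ℂ (cuspFunction 1 E12) 0 :=
    ModularFormClass.analyticAt_cuspFunction_zero E12 one_pos one_mem_strictPeriods_SL
  have h0 : cuspFunction 1 E12 0 = 1 := by
    have h1 := EisensteinSeries.E_qExpansion_coeff_zero (by norm_num : 3 ≤ 12) ⟨6, rfl⟩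
    rw [qExpansion_coeff] at h1
    simpa using h1
  have hcomp : (cuspFunction 1 E12 ∘ fun τ : ℍ ↦ Function.Periodic.qParam 1 τ : ℍ → ℂ) = E12 := by
    funext τ
    simpa using eq_cuspFunction τ one_ne_zero hper
  have := han.continuousAt.tendsto.comp (qParam_tendsto_atImInfty one_pos)
  rw [hcomp, h0] at this
  exact this

theorem det_upperTriangularGL (a b d : ℝ) (had : a * d ≠ 0) :
    ((upperTriangularGL a b d had).det : ℝ) = a * d := by
  rw [Matrix.GeneralLinearGroup.val_det_apply, val_upperTriangularGL, Matrix.det_fin_two_of]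
  ring

theorem denom_upperTriangularGL (a b d : ℝ) (had : a * d ≠ 0) (τ : ℍ) :
    denom (upperTriangularGL a b d had) τ = d := by
  simp [denom, val_upperTriangularGL]

theorem σ_upperTriangularGL (a b d : ℝ) (had : a * d ≠ 0) (hpos : 0 < a * d) :
    UpperHalfPlane.σ (upperTriangularGL a b d had) = .refl ℝ ℂ := by
  rw [UpperHalfPlane.σ, if_pos (by rw [det_upperTriangularGL]; exact hpos)]

theorem slash_upperTriangularGL_apply (k : ℤ) (a b d : ℝ) (had : a * d ≠ 0) (hpos : 0 < a * d)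
    (f : ℍ → ℂ) (τ : ℍ) :
    (f ∣[k] upperTriangularGL a b d had) τ =
      f (upperTriangularGL a b d had • τ) * ((a * d : ℝ) : ℂ) ^ (k - 1) * (d : ℂ) ^ (-k) := by
  rw [ModularForm.slash_apply, σ_upperTriangularGL a b d had hpos, det_upperTriangularGL,
    denom_upperTriangularGL, abs_of_pos hpos]
  simp

theorem im_upperTriangularGL_smul (a b d : ℝ) (had : a * d ≠ 0) (ha : 0 < a) (hd : 0 < d) (τ : ℍ) :
    (upperTriangularGL a b d had • τ).im = a / d * τ.im := by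
  rw [im_smul_eq_div_normSq, det_upperTriangularGL, denom_upperTriangularGL,
    abs_of_pos (mul_pos ha hd)]
  simp only [Complex.normSq_ofReal]
  field_simp

theorem tendsto_upperTriangularGL_smul (a b d : ℝ) (had : a * d ≠ 0) (ha : 0 < a) (hd : 0 < d) :
    Tendsto (fun τ : ℍ => upperTriangularGL a b d had • τ) atImInfty atImInfty := by
  rw [atImInfty, tendsto_comap_iff]
  have : (im ∘ fun τ : ℍ => upperTriangularGL a b d had • τ) = fun τ : ℍ => a / d * τ.im := by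
    funext τ
    exact im_upperTriangularGL_smul a b d had ha hd τ
  rw [this]
  exact Tendsto.const_mul_atTop (div_pos ha hd) tendsto_comap

theorem tendsto_slash_upperTriangularGL (a b d : ℝ) (had : a * d ≠ 0) (ha : 0 < a) (hd : 0 < d) :
    Tendsto ((⇑E12) ∣[(12 : ℤ)] upperTriangularGL a b d had) atImInfty
      (𝓝 (((a * d : ℝ) : ℂ) ^ (11 : ℤ) * (d : ℂ) ^ (-12 : ℤ))) := by
  have h1 : ((⇑E12) ∣[(12 : ℤ)] upperTriangularGL a b d had) = fun τ =>
      E12 (upperTriangularGL a b d had • τ) * ((a * d : ℝ) : ℂ) ^ (11 : ℤ) * (d : ℂ) ^ (-12 : ℤ) := by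
    funext τ
    rw [slash_upperTriangularGL_apply 12 a b d had (mul_pos ha hd)]
    norm_num
  rw [h1]
  have h2 := tendsto_E12.comp (tendsto_upperTriangularGL_smul a b d had ha hd)
  have h3 := (h2.mul_const (((a * d : ℝ) : ℂ) ^ (11 : ℤ))).mul_const ((d : ℂ) ^ (-12 : ℤ))
  simpa [mul_assoc] using h3


theorem heckeDiagMatrix_eq_upperTriangularGL {N : ℕ} (hN : N ≠ 0) :
    heckeDiagMatrix N = upperTriangularGL N 0 1 (by rw [mul_one]; exact_mod_cast hN) := by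
  simp [heckeDiagMatrix, hN]

theorem tendsto_thetaFun (N : ℕ) [NeZero N] :
    Tendsto (thetaFun N) atImInfty (𝓝 ((N : ℂ) ^ (11 : ℤ))) := by
  have hN : N ≠ 0 := NeZero.ne N
  have hNpos : (0 : ℝ) < N := by exact_mod_cast Nat.pos_of_ne_zero hN
  have h := tendsto_slash_upperTriangularGL (N : ℝ) 0 1 (by rw [mul_one]; exact_mod_cast hN)
    hNpos one_pos
  rw [← heckeDiagMatrix_eq_upperTriangularGL hN] at h
  simpa [thetaFun] using h

/-- `θ ∣ γ ≠ θ` for `γ ∈ SL₂(ℤ)` outside `Γ₀(N)`. -/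
theorem theta_slash_ne (N : ℕ) [NeZero N] (γ : SL(2, ℤ)) (hγ : γ ∉ Gamma0 N) :
    (⇑(theta N)) ∣[(12 : ℤ)] γ ≠ ⇑(theta N) := by
  intro heq
  have hN : N ≠ 0 := NeZero.ne N
  have hNpos : (0 : ℝ) < N := by exact_mod_cast Nat.pos_of_ne_zero hN
  obtain ⟨δ, A, B, D, hAD, hA, hD, hADN, h10, hmat⟩ := exists_hermite hN γ
  have hAR : (0 : ℝ) < A := by exact_mod_cast hA
  have hDR : (0 : ℝ) < D := by exact_mod_cast hD
  have hcoe : (⇑(theta N) : ℍ → ℂ) = thetaFun N := rfl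
  rw [hcoe, ModularForm.SL_slash] at heq
  have h1 : thetaFun N ∣[(12 : ℤ)] (mapGL ℝ γ) =
      (⇑E12) ∣[(12 : ℤ)] upperTriangularGL A B D hAD := by
    rw [thetaFun, ← SlashAction.slash_mul, hmat, SlashAction.slash_mul]
    congr 1
    exact SlashInvariantFormClass.slash_action_eq E12 _ ⟨δ, rfl⟩
  have h2 := tendsto_slash_upperTriangularGL (A : ℝ) B D hAD hAR hDR
  rw [← h1] at h2
  have h2' : Tendsto (thetaFun N) atImInfty
      (𝓝 ((((A : ℝ) * (D : ℝ) : ℝ) : ℂ) ^ (11 : ℤ) * ((D : ℝ) : ℂ) ^ (-12 : ℤ))) := by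
    have : (thetaFun N ∣[(12 : ℤ)] (mapGL ℝ γ)) = thetaFun N := heq
    rw [this] at h2
    exact h2
  have h3 := tendsto_nhds_unique h2' (tendsto_thetaFun N)
  -- now `N^11 * D^(-12) = N^11`
  have hADR : ((A : ℝ) * (D : ℝ) : ℝ) = (N : ℝ) := by exact_mod_cast hADN
  rw [hADR] at h3
  have hNC : ((N : ℝ) : ℂ) = (N : ℂ) := by simp
  rw [hNC] at h3
  have hN11 : (N : ℂ) ^ (11 : ℤ) ≠ 0 := zpow_ne_zero _ (by exact_mod_cast hN)
  have h4 : ((D : ℝ) : ℂ) ^ (-12 : ℤ) = 1 := by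
    have := mul_left_cancel₀ hN11 (h3.trans (mul_one _).symm)
    exact this
  have h5 : ((D : ℝ)) ^ (12 : ℕ) = 1 := by
    have hD0 : ((D : ℝ) : ℂ) ≠ 0 := by
      have : (D : ℝ) ≠ 0 := ne_of_gt hDR
      exact_mod_cast this
    have h6 : ((D : ℝ) : ℂ) ^ (12 : ℕ) = 1 := by
      have h7 : ((D : ℝ) : ℂ) ^ (12 : ℤ) * ((D : ℝ) : ℂ) ^ (-12 : ℤ) = 1 := by
        rw [← zpow_add₀ hD0]; norm_num
      rw [h4, mul_one] at h7
      exact_mod_cast h7
    exact_mod_cast h6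
  have hD1 : D = 1 := by
    have h8 : (D : ℝ) = 1 := by
      have := pow_eq_one_iff_of_nonneg hDR.le (n := 12) (by norm_num)
      exact this.mp h5
    exact_mod_cast h8
  have hAN : A = N := by rw [hD1, mul_one] at hADN; exact hADN
  apply hγ
  rw [Gamma0_mem, h10, hAN]
  simp

theorem thetaFun_apply (N : ℕ) [NeZero N] (τ : ℍ) :
    thetaFun N τ = (N : ℂ) ^ (11 : ℤ) * E12 (heckeDiagMatrix N • τ) := by
  rw [thetaFun, slash_heckeDiagMatrix_apply 12 (NeZero.ne N)]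
  norm_num

theorem qParam_heckeDiagMatrix_smul (N : ℕ) [NeZero N] (τ : ℍ) :
    Function.Periodic.qParam 1 (heckeDiagMatrix N • τ : ℍ) = Function.Periodic.qParam 1 τ ^ N := by
  rw [coe_heckeDiagMatrix_smul (NeZero.ne N)]
  simp only [Function.Periodic.qParam, ← Complex.exp_nat_mul]
  congr 1
  push_cast
  ring

/-- The coefficients of the `q`-expansion of `θ`. -/
def thetaCoeff (N : ℕ) (n : ℕ) : ℂ :=
  if N ∣ n then (N : ℂ) ^ (11 : ℤ) * (qExpansion 1 E12).coeff (n / N) else 0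

theorem hasSum_thetaFun (N : ℕ) [NeZero N] (τ : ℍ) :
    HasSum (fun n => thetaCoeff N n • Function.Periodic.qParam 1 τ ^ n) (thetaFun N τ) := by
  have hN : N ≠ 0 := NeZero.ne N
  have h1 : HasSum (fun m => (qExpansion 1 E12).coeff m • Function.Periodic.qParam 1
      (heckeDiagMatrix N • τ : ℍ) ^ m) (E12 (heckeDiagMatrix N • τ)) :=
    UpperHalfPlane.hasSum_qExpansion one_pos
      (SlashInvariantFormClass.periodic_comp_ofComplex E12 one_mem_strictPeriods_SL)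
      (ModularFormClass.holo E12) (ModularFormClass.bdd_at_infty E12) _
  have h2 := h1.mul_left ((N : ℂ) ^ (11 : ℤ))
  rw [← thetaFun_apply] at h2
  have hinj : Function.Injective (fun m : ℕ => N * m) :=
    fun a b h => Nat.eq_of_mul_eq_mul_left (Nat.pos_of_ne_zero hN) h
  have h3 : ((fun n => thetaCoeff N n • Function.Periodic.qParam 1 τ ^ n) ∘ fun m : ℕ => N * m) =
      fun i => (N : ℂ) ^ (11 : ℤ) * ((qExpansion 1 E12).coeff i • Function.Periodic.qParam 1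
        (heckeDiagMatrix N • τ : ℍ) ^ i) := by
    funext m
    simp only [Function.comp, thetaCoeff, Nat.mul_div_cancel_left _ (Nat.pos_of_ne_zero hN),
      dvd_mul_right, if_true, qParam_heckeDiagMatrix_smul, smul_eq_mul, pow_mul]
    ring
  rw [← hinj.hasSum_iff, h3]
  · exact h2
  · intro n hn
    have : ¬ N ∣ n := by
      rintro ⟨m, rfl⟩
      exact hn ⟨m, rfl⟩
    simp [thetaCoeff, this]

theorem theta_qExpansion_coeff (N : ℕ) [NeZero N] (n : ℕ) :
    (qExpansion 1 (theta N)).coeff n = thetaCoeff N n := by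
  have := ModularFormClass.qExpansion_coeff_unique (f := theta N) (c := thetaCoeff N) one_pos
    (CongruenceSubgroup.one_mem_strictPeriods_Gamma0 N) (fun τ => hasSum_thetaFun N τ) n
  exact this.symm

theorem E12_qExpansion_rat (m : ℕ) : ∃ r : ℚ, (qExpansion 1 E12).coeff m = (r : ℂ) := by
  rw [EisensteinSeries.E_qExpansion_coeff (by norm_num : 3 ≤ 12) ⟨6, rfl⟩ m]
  split_ifs
  · exact ⟨1, by simp⟩
  · exact ⟨-(2 * 12 / bernoulli 12) * (ArithmeticFunction.sigma 11 m : ℚ), by push_cast; ring⟩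

theorem theta_qExpansion_rat (N : ℕ) [NeZero N] (n : ℕ) :
    ∃ r : ℚ, (qExpansion 1 (theta N)).coeff n = (r : ℂ) := by
  rw [theta_qExpansion_coeff, thetaCoeff]
  split_ifs
  · obtain ⟨r, hr⟩ := E12_qExpansion_rat (n / N)
    exact ⟨(N : ℚ) ^ (11 : ℤ) * r, by rw [hr]; push_cast; ring⟩
  · exact ⟨0, by simp⟩


theorem theta_ne_zero (N : ℕ) [NeZero N] : theta N ≠ 0 := by
  intro h
  have h1 := tendsto_thetaFun N
  have h2 : thetaFun N = 0 := by
    have : (⇑(theta N) : ℍ → ℂ) = 0 := by rw [h]; rfl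
    exact this
  rw [h2] at h1
  have h3 : Tendsto (0 : ℍ → ℂ) atImInfty (𝓝 0) := tendsto_const_nhds
  have h4 := tendsto_nhds_unique h1 h3
  exact zpow_ne_zero _ (by exact_mod_cast NeZero.ne N) h4

end Fermat.Agent.S23.ThetaE12
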