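import Mathlib
import Fermat.Prelude.Def_FLTPrelim_Modularity
import Fermat.Prelude.Thm_CongruenceSubgroup_one_mem_strictPeriods_Gamma0

set_option autoImplicit false

/-!
# S23: the ring of `1`-periodic holomorphic functions on the upper half plane bounded at `i∞`,
and the `q`-expansion as an injective algebra homomorphism on it.
-/

namespace Fermat.Agent.S23.QRing

open UpperHalfPlane Function ModularFormClass CongruenceSubgroup
open scoped Manifold ModularForm MatrixGroups

/-- `F` is `1`-periodic, holomorphic and bounded at `i∞`. -/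
structure IsQ (F : ℍ → ℂ) : Prop where
  periodic : Periodic (F ∘ ofComplex) 1
  holo : MDiff F
  bdd : IsBoundedAtImInfty F

namespace IsQ

variable {F G : ℍ → ℂ}

theorem analyticAt (hF : IsQ F) : AnalyticAt ℂ (cuspFunction 1 F) 0 :=
  analyticAt_cuspFunction_zero one_pos hF.periodic hF.holo hF.bdd

theorem const (c : ℂ) : IsQ (fun _ => c) where
  periodic := fun _ => rfl
  holo := mdifferentiable_const
  bdd := Filter.const_boundedAtFilter _ c

theorem zero : IsQ (0 : ℍ → ℂ) := const 0

theorem one : IsQ (1 : ℍ → ℂ) := const 1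

theorem add (hF : IsQ F) (hG : IsQ G) : IsQ (F + G) where
  periodic := fun z => by
    have h1 := hF.periodic z
    have h2 := hG.periodic z
    simp only [comp_apply, Pi.add_apply] at h1 h2 ⊢
    rw [h1, h2]
  holo := hF.holo.add hG.holo
  bdd := hF.bdd.add hG.bdd

theorem mul (hF : IsQ F) (hG : IsQ G) : IsQ (F * G) where
  periodic := fun z => by
    have h1 := hF.periodic z
    have h2 := hG.periodic z
    simp only [comp_apply, Pi.mul_apply] at h1 h2 ⊢
    rw [h1, h2]
  holo := hF.holo.mul hG.holo
  bdd := hF.bdd.mul hG.bdd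

theorem smul (c : ℂ) (hF : IsQ F) : IsQ (c • F) := by
  have : c • F = (fun _ => c) * F := by ext z; simp
  rw [this]
  exact (const c).mul hF

theorem neg (hF : IsQ F) : IsQ (-F) := by
  have : -F = (-1 : ℂ) • F := by ext z; simp
  rw [this]
  exact hF.smul _

theorem sub (hF : IsQ F) (hG : IsQ G) : IsQ (F - G) := by
  rw [sub_eq_add_neg]
  exact hF.add hG.neg

theorem pow (hF : IsQ F) (n : ℕ) : IsQ (F ^ n) := by
  induction n with
  | zero => simpa using one
  | succ n ih => rw [pow_succ]; exact ih.mul hF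

theorem sum {ι : Type*} (s : Finset ι) {F : ι → ℍ → ℂ} (h : ∀ i ∈ s, IsQ (F i)) :
    IsQ (∑ i ∈ s, F i) := by
  classical
  induction s using Finset.induction_on with
  | empty => simpa using zero
  | insert a s ha ih =>
    rw [Finset.sum_insert ha]
    exact (h a (Finset.mem_insert_self a s)).add
      (ih fun i hi => h i (Finset.mem_insert_of_mem hi))

theorem prod {ι : Type*} (s : Finset ι) {F : ι → ℍ → ℂ} (h : ∀ i ∈ s, IsQ (F i)) :
    IsQ (∏ i ∈ s, F i) := by
  classical
  induction s using Finset.induction_on with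
  | empty => simpa using one
  | insert a s ha ih =>
    rw [Finset.prod_insert ha]
    exact (h a (Finset.mem_insert_self a s)).mul
      (ih fun i hi => h i (Finset.mem_insert_of_mem hi))

end IsQ

/-- The subalgebra of functions satisfying `IsQ`. -/
def qRing : Subalgebra ℂ (ℍ → ℂ) where
  carrier := {F | IsQ F}
  mul_mem' := IsQ.mul
  add_mem' := IsQ.add
  algebraMap_mem' c := IsQ.const c

theorem mem_qRing {F : ℍ → ℂ} : F ∈ qRing ↔ IsQ F := Iff.rfl

/-- `q`-expansion on functions (period `1`). -/
noncomputable def qx (F : ℍ → ℂ) : PowerSeries ℂ := qExpansion 1 F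

theorem qx_coeff (F : ℍ → ℂ) (n : ℕ) : (qx F).coeff n = ModularFormClass.qCoeff F n := rfl

section qx
variable {F G : ℍ → ℂ}

theorem qx_add (hF : IsQ F) (hG : IsQ G) : qx (F + G) = qx F + qx G :=
  qExpansion_add hF.analyticAt hG.analyticAt

theorem qx_mul (hF : IsQ F) (hG : IsQ G) : qx (F * G) = qx F * qx G :=
  qExpansion_mul hF.analyticAt hG.analyticAt

theorem qx_smul (c : ℂ) (hF : IsQ F) : qx (c • F) = c • qx F :=
  qExpansion_smul hF.analyticAt c

theorem qx_neg (hF : IsQ F) : qx (-F) = -qx F := qExpansion_neg hF.analyticAt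

theorem qx_sub (hF : IsQ F) (hG : IsQ G) : qx (F - G) = qx F - qx G :=
  qExpansion_sub hF.analyticAt hG.analyticAt

theorem qx_zero : qx (0 : ℍ → ℂ) = 0 := qExpansion_zero 1

theorem qx_one : qx (1 : ℍ → ℂ) = 1 := qExpansion_one 1

theorem qx_const (c : ℂ) : qx (fun _ => c) = PowerSeries.C c := by
  have h : (fun _ : ℍ => c) = c • (1 : ℍ → ℂ) := by ext z; simp
  rw [h, qx_smul c IsQ.one, qx_one]
  ext n
  simp [PowerSeries.coeff_C, PowerSeries.coeff_one]

theorem qx_pow (hF : IsQ F) (n : ℕ) : qx (F ^ n) = qx F ^ n := by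
  induction n with
  | zero => simpa using qx_one
  | succ n ih => rw [pow_succ, pow_succ, qx_mul (hF.pow n) hF, ih]

theorem qx_sum {ι : Type*} (s : Finset ι) {F : ι → ℍ → ℂ} (h : ∀ i ∈ s, IsQ (F i)) :
    qx (∑ i ∈ s, F i) = ∑ i ∈ s, qx (F i) := by
  classical
  induction s using Finset.induction_on with
  | empty => simpa using qx_zero
  | insert a s ha ih =>
    rw [Finset.sum_insert ha, Finset.sum_insert ha,
      qx_add (h a (Finset.mem_insert_self a s))
        (IsQ.sum s fun i hi => h i (Finset.mem_insert_of_mem hi)),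
      ih fun i hi => h i (Finset.mem_insert_of_mem hi)]

theorem qx_prod {ι : Type*} (s : Finset ι) {F : ι → ℍ → ℂ} (h : ∀ i ∈ s, IsQ (F i)) :
    qx (∏ i ∈ s, F i) = ∏ i ∈ s, qx (F i) := by
  classical
  induction s using Finset.induction_on with
  | empty => simpa using qx_one
  | insert a s ha ih =>
    rw [Finset.prod_insert ha, Finset.prod_insert ha,
      qx_mul (h a (Finset.mem_insert_self a s))
        (IsQ.prod s fun i hi => h i (Finset.mem_insert_of_mem hi)),
      ih fun i hi => h i (Finset.mem_insert_of_mem hi)]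

theorem qx_eq_zero_iff (hF : IsQ F) : qx F = 0 ↔ F = 0 :=
  qExpansion_eq_zero_iff one_pos hF.periodic hF.holo hF.bdd

theorem qx_injective (hF : IsQ F) (hG : IsQ G) (h : qx F = qx G) : F = G := by
  have h1 : qx (F - G) = 0 := by rw [qx_sub hF hG, h, sub_self]
  have h2 := (qx_eq_zero_iff (hF.sub hG)).mp h1
  exact sub_eq_zero.mp h2

end qx

/-- The `q`-expansion as an algebra homomorphism on `qRing`. -/
noncomputable def qxHom : qRing →ₐ[ℂ] PowerSeries ℂ where
  toFun F := qx F.1
  map_one' := qx_one
  map_mul' F G := qx_mul F.2 G.2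
  map_zero' := qx_zero
  map_add' F G := qx_add F.2 G.2
  commutes' c := by
    show qx (fun _ => c) = _
    rw [qx_const]
    rfl

theorem qxHom_injective : Function.Injective qxHom := fun F G h =>
  Subtype.ext (qx_injective F.2 G.2 h)

/-- Modular forms of level `Γ₀(N)` satisfy `IsQ`. -/
theorem isQ_of_modularForm {N : ℕ} [NeZero N] {k : ℤ}
    (f : ModularForm (CongruenceSubgroup.Gamma0 N) k) : IsQ f where
  periodic := SlashInvariantFormClass.periodic_comp_ofComplex f
    (CongruenceSubgroup.one_mem_strictPeriods_Gamma0 N)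
  holo := ModularFormClass.holo f
  bdd := ModularFormClass.bdd_at_infty f

theorem isQ_of_cuspForm {N : ℕ} [NeZero N] {k : ℤ}
    (f : CuspForm (CongruenceSubgroup.Gamma0 N) k) : IsQ f where
  periodic := SlashInvariantFormClass.periodic_comp_ofComplex f
    (CongruenceSubgroup.one_mem_strictPeriods_Gamma0 N)
  holo := CuspFormClass.holo f
  bdd := (CuspFormClass.zero_at_infty f).isBoundedAtImInfty

theorem isQ_of_levelOne {k : ℤ} (f : ModularForm 𝒮ℒ k) : IsQ f where
  periodic := SlashInvariantFormClass.periodic_comp_ofComplex f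
    one_mem_strictPeriods_SL
  holo := ModularFormClass.holo f
  bdd := ModularFormClass.bdd_at_infty f

end Fermat.Agent.S23.QRing
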