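import Mathlib

/-!
# S23, slice (4): the characteristic polynomial of a modular form over a bigger group

For subgroups `𝒢, ℋ` of `GL(2, ℝ)` with `𝒢 ⊓ ℋ` of finite index in `ℋ` and a modular form `f`
for `𝒢`, the elementary symmetric functions of the translates `quotientFunc f q`
(`q : ℋ ⧸ 𝒢 ⊓ ℋ`) are modular forms for `ℋ`, and `f` is a root of the monic polynomial
`∏ q, (X - quotientFunc f q)` whose coefficients they are.
-/

set_option autoImplicit false

open UpperHalfPlane SlashInvariantForm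

open scoped ModularForm Topology Filter Manifold MatrixGroups

namespace Fermat.Agent.S23.CharPoly

variable {𝒢 ℋ : Subgroup (GL (Fin 2) ℝ)} {F : Type*} (f : F) [FunLike F ℍ ℂ] {k : ℤ}

local notation "𝒬" => ℋ ⧸ (𝒢.subgroupOf ℋ)

section SIF

variable [SlashInvariantFormClass F 𝒢 k] (ℋ) [𝒢.IsFiniteRelIndex ℋ]

/-- The `i`-th elementary symmetric function of the translates of `f`. -/
noncomputable def esymmFun (i : ℕ) : ℍ → ℂ :=
  let := Fintype.ofFinite 𝒬
  ∑ T ∈ Finset.powersetCard i (Finset.univ : Finset 𝒬), ∏ q ∈ T, quotientFunc f q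

theorem esymmFun_slash [ℋ.HasDetPlusMinusOne] (i : ℕ) {h : GL (Fin 2) ℝ} (hh : h ∈ ℋ) :
    esymmFun ℋ f i ∣[k * i] h = esymmFun ℋ f i := by
  classical
  let := Fintype.ofFinite 𝒬
  unfold esymmFun
  rw [SlashAction.sum_slash]
  have key : ∀ T ∈ Finset.powersetCard i (Finset.univ : Finset 𝒬),
      (∏ q ∈ T, quotientFunc f q) ∣[k * i] h =
        ∏ q ∈ T.map (MulAction.toPerm ((⟨h, hh⟩ : ℋ)⁻¹) : 𝒬 ≃ 𝒬).toEmbedding,
          quotientFunc f q := by
    intro T hT
    have hc : T.card = i := (Finset.mem_powersetCard.1 hT).2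
    rw [← hc, ModularForm.prod_slash, Subgroup.HasDetPlusMinusOne.abs_det hh, one_zpow, one_smul,
      Finset.prod_map]
    refine Finset.prod_congr rfl fun q _ => ?_
    rw [quotientFunc_smul f hh]
    rfl
  rw [Finset.sum_congr rfl key]
  refine Finset.sum_bij' (fun T _ => T.map (MulAction.toPerm ((⟨h, hh⟩ : ℋ)⁻¹) : 𝒬 ≃ 𝒬).toEmbedding)
    (fun T _ => T.map (MulAction.toPerm ((⟨h, hh⟩ : ℋ)⁻¹) : 𝒬 ≃ 𝒬).symm.toEmbedding) ?_ ?_ ?_ ?_ ?_
  · intro T hT
    rw [Finset.mem_powersetCard] at hT ⊢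
    exact ⟨Finset.subset_univ _, by rw [Finset.card_map]; exact hT.2⟩
  · intro T hT
    rw [Finset.mem_powersetCard] at hT ⊢
    exact ⟨Finset.subset_univ _, by rw [Finset.card_map]; exact hT.2⟩
  · intro T _
    ext q
    simp
  · intro T _
    ext q
    simp
  · intro T _
    rfl

theorem esymmFun_apply (i : ℕ) (τ : ℍ) :
    esymmFun ℋ f i τ =
      letI := Fintype.ofFinite 𝒬
      ((Finset.univ : Finset 𝒬).val.map fun q => quotientFunc f q τ).esymm i := by
  let := Fintype.ofFinite 𝒬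
  rw [Finset.esymm_map_val]
  unfold esymmFun
  rw [Finset.sum_apply]
  refine Finset.sum_congr rfl fun T _ => ?_
  rw [Finset.prod_apply]

open Polynomial in
/-- The characteristic polynomial of `f` over `ℋ`, pointwise. -/
theorem prod_X_sub_C_quotientFunc (τ : ℍ) :
    letI := Fintype.ofFinite 𝒬
    ∏ q : 𝒬, (X - C (quotientFunc f q τ)) =
      ∑ i ∈ Finset.range (Nat.card 𝒬 + 1),
        (-1) ^ i * (C (esymmFun ℋ f i τ) * X ^ (Nat.card 𝒬 - i)) := by
  let := Fintype.ofFinite 𝒬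
  have h := Multiset.prod_X_sub_X_eq_sum_esymm
    ((Finset.univ : Finset 𝒬).val.map fun q => quotientFunc f q τ)
  rw [Multiset.map_map, Multiset.card_map] at h
  have hcard : Multiset.card (Finset.univ : Finset 𝒬).val = Nat.card 𝒬 := by
    rw [Finset.card_val, Finset.card_univ, Nat.card_eq_fintype_card]
  rw [hcard] at h
  rw [Finset.prod_eq_multiset_prod]
  refine h.trans (Finset.sum_congr rfl fun i _ => ?_)
  rw [esymmFun_apply]

/-- Every translate of `f` is a root of the characteristic polynomial. -/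
theorem charpoly_root_quotientFunc (q : 𝒬) (τ : ℍ) :
    ∑ i ∈ Finset.range (Nat.card 𝒬 + 1),
      (-1) ^ i * (esymmFun ℋ f i τ * quotientFunc f q τ ^ (Nat.card 𝒬 - i)) = 0 := by
  let := Fintype.ofFinite 𝒬
  have h := congrArg (Polynomial.eval (quotientFunc f q τ)) (prod_X_sub_C_quotientFunc ℋ f τ)
  rw [Polynomial.eval_prod, Polynomial.eval_finsetSum] at h
  rw [Finset.prod_eq_zero (Finset.mem_univ q) (by simp)] at h
  rw [h]
  refine Finset.sum_congr rfl fun i _ => ?_
  simp

/-- `f` is a root of its characteristic polynomial. -/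
theorem charpoly_root (hℋ : ∀ τ : ℍ, quotientFunc f (⟦1⟧ : 𝒬) τ = f τ) (τ : ℍ) :
    ∑ i ∈ Finset.range (Nat.card 𝒬 + 1),
      (-1) ^ i * (esymmFun ℋ f i τ * (f τ) ^ (Nat.card 𝒬 - i)) = 0 := by
  have := charpoly_root_quotientFunc ℋ f (⟦1⟧ : 𝒬) τ
  rwa [hℋ τ] at this

/-- The `i`-th elementary symmetric function of the translates, as a slash invariant form. -/
noncomputable def esymmSIF [ℋ.HasDetPlusMinusOne] (i : ℕ) : SlashInvariantForm ℋ (k * i) where
  toFun := esymmFun ℋ f i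
  slash_action_eq' _ hh := esymmFun_slash ℋ f i hh

end SIF

section MF

variable (ℋ) [𝒢.IsFiniteRelIndex ℋ] [ℋ.HasDetPlusMinusOne]

omit [𝒢.IsFiniteRelIndex ℋ] [ℋ.HasDetPlusMinusOne] in
theorem mdifferentiable_quotientFunc [ModularFormClass F 𝒢 k] (q : 𝒬) :
    MDiff (quotientFunc f q) := by
  induction q using Quotient.inductionOn with
  | h r => exact (ModularForm.translate f (r : GL (Fin 2) ℝ)⁻¹).holo'

/-- The `i`-th elementary symmetric function of the translates of a modular form, as a modular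
form of weight `k * i` for the bigger group. -/
noncomputable def esymmForm [ModularFormClass F 𝒢 k] (i : ℕ) : ModularForm ℋ (k * i) where
  __ := esymmSIF ℋ f i
  holo' := by
    let := Fintype.ofFinite 𝒬
    change MDiff (esymmFun ℋ f i)
    unfold esymmFun
    exact .sum fun T _ => .prod fun q _ => mdifferentiable_quotientFunc ℋ f q
  bdd_at_cusps' h γ := by
    classical
    rintro rfl
    let := Fintype.ofFinite 𝒬
    change IsBoundedAtImInfty (esymmFun ℋ f i ∣[k * i] γ)
    unfold esymmFun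
    simp_rw [IsBoundedAtImInfty, Filter.BoundedAtFilter]
    rw [SlashAction.sum_slash, Finset.sum_fn]
    refine .fun_sum fun T hT => ?_
    have hc : T.card = i := (Finset.mem_powersetCard.1 hT).2
    rw [← hc, ModularForm.prod_slash]
    apply Asymptotics.IsBigO.const_smul_left
    rw [show (1 : ℍ → ℝ) = (fun x ↦ ∏ _i ∈ T, 1) by ext; simp, Finset.prod_fn]
    refine .finsetProd (Quotient.forall.mpr fun ⟨r, hr⟩ _ ↦
      (ModularForm.translate f _).bdd_at_cusps' ?_ γ rfl)
    simpa using h.of_isFiniteRelIndex_conj hr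

@[simp] theorem esymmForm_apply [ModularFormClass F 𝒢 k] (i : ℕ) (τ : ℍ) :
    esymmForm ℋ f i τ = esymmFun ℋ f i τ := rfl

/-- For a cusp form and `0 < i` the elementary symmetric functions are cusp forms. -/
noncomputable def esymmCuspForm [CuspFormClass F 𝒢 k] (i : ℕ) (hi : 0 < i) :
    CuspForm ℋ (k * i) where
  __ := esymmForm ℋ f i
  zero_at_cusps' h γ := by
    classical
    rintro rfl
    let := Fintype.ofFinite 𝒬
    change IsZeroAtImInfty (esymmFun ℋ f i ∣[k * i] γ)
    unfold esymmFun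
    simp_rw [IsZeroAtImInfty, Filter.ZeroAtFilter]
    rw [SlashAction.sum_slash, Finset.sum_fn]
    rw [show (0 : ℂ) = ∑ _T ∈ Finset.powersetCard i (Finset.univ : Finset 𝒬), 0 by simp]
    refine tendsto_finsetSum _ fun T hT => ?_
    have hc : T.card = i := (Finset.mem_powersetCard.1 hT).2
    rw [← hc, ModularForm.prod_slash]
    have h0 : (0 : ℂ) = |γ.det.val| ^ ((T.card : ℤ) - 1) • ∏ _q ∈ T, (0 : ℂ) := by
      rw [Finset.prod_const, zero_pow (by omega), smul_zero]
    rw [h0]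
    refine Filter.Tendsto.const_smul ?_ _
    rw [Finset.prod_fn]
    refine tendsto_finsetProd _ (Quotient.forall.mpr fun ⟨r, hr⟩ _ ↦ ?_)
    refine (CuspForm.translate f _).zero_at_cusps' ?_ γ rfl
    simpa using h.of_isFiniteRelIndex_conj hr

@[simp] theorem esymmCuspForm_apply [CuspFormClass F 𝒢 k] (i : ℕ) (hi : 0 < i) (τ : ℍ) :
    esymmCuspForm ℋ f i hi τ = esymmFun ℋ f i τ := rfl

theorem coe_esymmCuspForm [CuspFormClass F 𝒢 k] (i : ℕ) (hi : 0 < i) :
    (esymmCuspForm ℋ f i hi : ℍ → ℂ) = (esymmForm ℋ f i : ℍ → ℂ) := rfl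

end MF

section Gamma0

open CongruenceSubgroup

variable (N : ℕ) [NeZero N]

/-- The index of `Γ₀(N)` in `SL(2, ℤ)` (as the cardinality of the coset space used by
`quotientFunc`). -/
noncomputable def index : ℕ :=
  Nat.card (𝒮ℒ ⧸ ((Gamma0 N : Subgroup (GL (Fin 2) ℝ)).subgroupOf 𝒮ℒ))

theorem index_pos : 0 < index N := Nat.card_pos

/-- A modular form for `Γ₀(N)` is a root of a monic polynomial of degree `index N` whose
`i`-th coefficient is (up to sign) a level one modular form of weight `k * i`. -/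
theorem charpoly_root_Gamma0 {k : ℤ} {F : Type*} [FunLike F ℍ ℂ]
    [ModularFormClass F (Gamma0 N : Subgroup (GL (Fin 2) ℝ)) k] (f : F) (τ : ℍ) :
    ∑ i ∈ Finset.range (index N + 1),
      (-1) ^ i * (esymmForm 𝒮ℒ f i τ * (f τ) ^ (index N - i)) = 0 := by
  refine charpoly_root 𝒮ℒ f (fun τ => ?_) τ
  rw [quotientFunc_mk]
  simp

theorem esymmForm_zero_apply {k : ℤ} {F : Type*} [FunLike F ℍ ℂ]
    [ModularFormClass F (Gamma0 N : Subgroup (GL (Fin 2) ℝ)) k] (f : F) (τ : ℍ) :
    esymmForm 𝒮ℒ f 0 τ = 1 := by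
  rw [esymmForm_apply]
  unfold esymmFun
  simp

/-- For a cusp form and `0 < i`, the level one form `esymmForm 𝒮ℒ f i` vanishes at `i∞`. -/
theorem isZeroAtImInfty_esymmForm {k : ℤ} {F : Type*} [FunLike F ℍ ℂ]
    [CuspFormClass F (Gamma0 N : Subgroup (GL (Fin 2) ℝ)) k] (f : F) (i : ℕ) (hi : 0 < i) :
    IsZeroAtImInfty (esymmForm 𝒮ℒ f i : ℍ → ℂ) := by
  rw [← coe_esymmCuspForm 𝒮ℒ f i hi]
  exact CuspFormClass.zero_at_infty (esymmCuspForm 𝒮ℒ f i hi)

end Gamma0

end Fermat.Agent.S23.CharPoly
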