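import Mathlib
import Fermat.Prelude.Thm_ModularForm_sturm_bound_Gamma0
import Fermat.Agent.S23.QRing

set_option autoImplicit false

namespace Fermat.Agent.S23.FinDim

open UpperHalfPlane ModularFormClass CongruenceSubgroup Fermat.Agent.S23.QRing
open scoped MatrixGroups ModularForm

variable (N : ℕ) [NeZero N] (k : ℤ)

/-- The Sturm bound for `Γ₀(N)` in weight `k`. -/
noncomputable def sturm : ℕ := (k * (CongruenceSubgroup.Gamma0 N).index).toNat / 12

/-- The first `sturm + 1` q-expansion coefficients, as a linear map. -/
noncomputable def coeffMap :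
    ModularForm (Gamma0 N) k →ₗ[ℂ] (Fin (sturm N k + 1) → ℂ) where
  toFun f n := (qExpansion 1 f).coeff n
  map_add' f g := by
    ext n
    have := qx_add (isQ_of_modularForm f) (isQ_of_modularForm g)
    have h2 : qx (⇑(f + g)) = qx (⇑f) + qx (⇑g) := by
      rw [← this]; rfl
    simpa [qx] using congrArg (fun p => PowerSeries.coeff (n : ℕ) p) h2
  map_smul' c f := by
    ext n
    have := qx_smul c (isQ_of_modularForm f)
    have h2 : qx (⇑(c • f)) = c • qx (⇑f) := by
      rw [← this]; rfl
    simpa [qx] using congrArg (fun p => PowerSeries.coeff (n : ℕ) p) h2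

theorem coeffMap_injective : Function.Injective (coeffMap N k) := by
  rw [← LinearMap.ker_eq_bot, LinearMap.ker_eq_bot']
  intro f hf
  apply ModularForm.sturm_bound_Gamma0 N f
  intro n hn
  have := congrFun hf ⟨n, Nat.lt_succ_of_le hn⟩
  simpa [coeffMap] using this

/-- Modular forms of level `Γ₀(N)` form a finite dimensional space. -/
theorem finiteDimensional_modularForm : FiniteDimensional ℂ (ModularForm (Gamma0 N) k) :=
  FiniteDimensional.of_injective (coeffMap N k) (coeffMap_injective N k)

/-- Cusp forms of level `Γ₀(N)` form a finite dimensional space. -/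
theorem finiteDimensional_cuspForm : FiniteDimensional ℂ (CuspForm (Gamma0 N) k) :=
  have := finiteDimensional_modularForm N k
  FiniteDimensional.of_injective (CuspForm.toModularFormₗ) CuspForm.toModularFormₗ_injective

end Fermat.Agent.S23.FinDim
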