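import Mathlib

set_option autoImplicit false

/-!
# S23: division of holomorphic functions with locally bounded quotient
-/

namespace Fermat.Agent.S23.Division

open Filter Topology Function Set

/-- Local statement: if `D` is analytic near `z₀`, not identically zero near `z₀`, and `w / D` is
bounded near `z₀` off the zeros of `D`, then `z ↦ limUnder (𝓝[≠] z) (w / D)` is differentiable at
`z₀` and agrees with `w / D` on a punctured neighbourhood. -/
theorem local_div {U : Set ℂ} (hU : IsOpen U) {w D : ℂ → ℂ}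
    (hw : DifferentiableOn ℂ w U) (hD : DifferentiableOn ℂ D U)
    (B : ℂ → ℝ) (hB : ContinuousOn B U)
    (hbdd : ∀ z ∈ U, D z ≠ 0 → ‖w z / D z‖ ≤ B z)
    {z₀ : ℂ} (hz₀ : z₀ ∈ U) (hne : ∀ᶠ z in 𝓝[≠] z₀, D z ≠ 0) :
    DifferentiableAt ℂ (fun z => limUnder (𝓝[≠] z) (fun u => w u / D u)) z₀ ∧
      ∀ᶠ z in 𝓝[≠] z₀, limUnder (𝓝[≠] z) (fun u => w u / D u) = w z / D z ∧ D z ≠ 0 := by
  set g : ℂ → ℂ := fun u => w u / D u with hg
  have hcont : ∀ z ∈ U, D z ≠ 0 → limUnder (𝓝[≠] z) g = g z := by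
    intro z hz hDz
    have hwz : DifferentiableAt ℂ w z := (hw z hz).differentiableAt (hU.mem_nhds hz)
    have hDz' : DifferentiableAt ℂ D z := (hD z hz).differentiableAt (hU.mem_nhds hz)
    have hc : ContinuousAt g z := (hwz.div hDz' hDz).continuousAt
    exact (hc.tendsto.mono_left nhdsWithin_le_nhds).limUnder_eq
  have h1 : ∀ᶠ z in 𝓝 z₀, z ∈ ({z₀}ᶜ : Set ℂ) → D z ≠ 0 := eventually_nhdsWithin_iff.mp hne
  have h2 : ∀ᶠ z in 𝓝 z₀, B z < B z₀ + 1 :=
    (hB.continuousAt (hU.mem_nhds hz₀)).eventually (gt_mem_nhds (lt_add_one _))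
  have h3 : ∀ᶠ z in 𝓝 z₀, z ∈ U := hU.mem_nhds hz₀
  obtain ⟨ε, hε, hball⟩ := Metric.mem_nhds_iff.mp (h1.and (h2.and h3))
  set s : Set ℂ := Metric.ball z₀ ε with hs
  have hsU : s ⊆ U := fun z hz => (hball hz).2.2
  have hsD : ∀ z ∈ s \ {z₀}, D z ≠ 0 := fun z hz => (hball hz.1).1 hz.2
  have hd : DifferentiableOn ℂ g (s \ {z₀}) := by
    intro z hz
    have hzU := hsU hz.1
    have hwz : DifferentiableAt ℂ w z := (hw z hzU).differentiableAt (hU.mem_nhds hzU)
    have hDz' : DifferentiableAt ℂ D z := (hD z hzU).differentiableAt (hU.mem_nhds hzU)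
    exact (hwz.div hDz' (hsD z hz)).differentiableWithinAt
  have hb : BddAbove (norm ∘ g '' (s \ {z₀})) := by
    refine ⟨B z₀ + 1, ?_⟩
    rintro _ ⟨z, hz, rfl⟩
    exact (hbdd z (hsU hz.1) (hsD z hz)).trans (hball hz.1).2.1.le
  have key := Complex.differentiableOn_update_limUnder_of_bddAbove
    (Metric.ball_mem_nhds z₀ hε) hd hb
  have heq : ∀ z ∈ s, limUnder (𝓝[≠] z) g = update g z₀ (limUnder (𝓝[≠] z₀) g) z := by
    intro z hz
    by_cases hzz : z = z₀
    · subst hzz; simp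
    · rw [update_of_ne hzz]
      exact hcont z (hsU hz) (hsD z ⟨hz, hzz⟩)
  refine ⟨?_, ?_⟩
  · have : DifferentiableOn ℂ (fun z => limUnder (𝓝[≠] z) g) s := key.congr heq
    exact (this z₀ (Metric.mem_ball_self hε)).differentiableAt (Metric.ball_mem_nhds z₀ hε)
  · rw [eventually_nhdsWithin_iff]
    filter_upwards [Metric.ball_mem_nhds z₀ hε] with z hz hzz
    exact ⟨hcont z (hsU hz) (hsD z ⟨hz, hzz⟩), hsD z ⟨hz, hzz⟩⟩

/-- Division of holomorphic functions on a connected open set, given a continuous bound for the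
quotient off the zeros of the denominator. -/
theorem exists_differentiableOn_div {U : Set ℂ} (hU : IsOpen U) (hUc : IsPreconnected U)
    {w D : ℂ → ℂ} (hw : DifferentiableOn ℂ w U) (hD : DifferentiableOn ℂ D U)
    (hD0 : ∃ z ∈ U, D z ≠ 0) (B : ℂ → ℝ) (hB : ContinuousOn B U)
    (hbdd : ∀ z ∈ U, D z ≠ 0 → ‖w z / D z‖ ≤ B z) :
    ∃ H : ℂ → ℂ, DifferentiableOn ℂ H U ∧ ∀ z ∈ U, H z * D z = w z := by
  have hne : ∀ z₀ ∈ U, ∀ᶠ z in 𝓝[≠] z₀, D z ≠ 0 := by
    intro z₀ hz₀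
    have hAn : AnalyticAt ℂ D z₀ := (hD.analyticOnNhd hU) z₀ hz₀
    rcases hAn.eventually_eq_zero_or_eventually_ne_zero with h0 | hne
    · exfalso
      obtain ⟨z, hz, hDz⟩ := hD0
      exact hDz ((hD.analyticOnNhd hU).eqOn_zero_of_preconnected_of_eventuallyEq_zero hUc hz₀ h0 hz)
    · exact hne
  refine ⟨fun z => limUnder (𝓝[≠] z) (fun u => w u / D u), ?_, ?_⟩
  · intro z₀ hz₀
    exact (local_div hU hw hD B hB hbdd hz₀ (hne z₀ hz₀)).1.differentiableWithinAt
  · intro z₀ hz₀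
    obtain ⟨hdiff, hev⟩ := local_div hU hw hD B hB hbdd hz₀ (hne z₀ hz₀)
    set H : ℂ → ℂ := fun z => limUnder (𝓝[≠] z) (fun u => w u / D u) with hH
    have hwz : DifferentiableAt ℂ w z₀ := (hw z₀ hz₀).differentiableAt (hU.mem_nhds hz₀)
    have hDz : DifferentiableAt ℂ D z₀ := (hD z₀ hz₀).differentiableAt (hU.mem_nhds hz₀)
    have hc : ContinuousAt (fun z => H z * D z - w z) z₀ :=
      ((hdiff.mul hDz).sub hwz).continuousAt
    have ht1 : Tendsto (fun z => H z * D z - w z) (𝓝[≠] z₀) (𝓝 (H z₀ * D z₀ - w z₀)) :=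
      hc.tendsto.mono_left nhdsWithin_le_nhds
    have ht2 : Tendsto (fun z => H z * D z - w z) (𝓝[≠] z₀) (𝓝 0) := by
      refine tendsto_const_nhds.congr' ?_
      filter_upwards [hev] with z hz
      have hHz : H z = w z / D z := hz.1
      rw [hHz, div_mul_cancel₀ _ hz.2, sub_self]
    have := tendsto_nhds_unique ht1 ht2
    exact sub_eq_zero.mp this

end Fermat.Agent.S23.Division
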