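import Mathlib
import Fermat.Agent.S23.QRing
import Fermat.Agent.S23.Division

set_option autoImplicit false

/-!
# S23: a quotient of modular forms which is integral over the level one forms is a modular form
-/

namespace Fermat.Agent.S23.Integral

open UpperHalfPlane ModularForm CongruenceSubgroup Filter Topology Finset
open scoped MatrixGroups ModularForm Manifold

/-! ### Root bounds for monic polynomials -/

theorem norm_pow_le_of_monic_root {μ : ℕ} (a : ℕ → ℂ) (x : ℂ)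
    (h : x ^ μ + ∑ i ∈ range μ, a (i + 1) * x ^ (μ - (i + 1)) = 0) :
    ‖x‖ ^ μ ≤ (∑ i ∈ range μ, ‖a (i + 1)‖) * (max 1 ‖x‖) ^ (μ - 1) := by
  have h1 : x ^ μ = -∑ i ∈ range μ, a (i + 1) * x ^ (μ - (i + 1)) := eq_neg_of_add_eq_zero_left h
  have h2 : ‖x‖ ^ μ = ‖∑ i ∈ range μ, a (i + 1) * x ^ (μ - (i + 1))‖ := by
    rw [← norm_pow, h1, norm_neg]
  rw [h2, Finset.sum_mul]
  refine (norm_sum_le _ _).trans (Finset.sum_le_sum fun i hi => ?_)
  rw [norm_mul, norm_pow]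
  have hi' : i < μ := Finset.mem_range.mp hi
  have hx1 : ‖x‖ ≤ max 1 ‖x‖ := le_max_right _ _
  have h1x : (1 : ℝ) ≤ max 1 ‖x‖ := le_max_left _ _
  have : ‖x‖ ^ (μ - (i + 1)) ≤ (max 1 ‖x‖) ^ (μ - 1) :=
    (pow_le_pow_left₀ (norm_nonneg _) hx1 _).trans
      (pow_le_pow_right₀ h1x (by omega))
  exact mul_le_mul_of_nonneg_left this (norm_nonneg _)

theorem norm_le_of_monic_root {μ : ℕ} (a : ℕ → ℂ) (x : ℂ)
    (h : x ^ μ + ∑ i ∈ range μ, a (i + 1) * x ^ (μ - (i + 1)) = 0) :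
    ‖x‖ ≤ max 1 (∑ i ∈ range μ, ‖a (i + 1)‖) := by
  rcases le_or_gt ‖x‖ 1 with hx | hx
  · exact hx.trans (le_max_left _ _)
  · refine le_trans ?_ (le_max_right _ _)
    have hμ : μ ≠ 0 := by
      rintro rfl
      simp at h
    have hpow := norm_pow_le_of_monic_root a x h
    rw [max_eq_right hx.le] at hpow
    have hpos : 0 < ‖x‖ ^ (μ - 1) := pow_pos (lt_trans one_pos hx) _
    have : ‖x‖ ^ μ = ‖x‖ * ‖x‖ ^ (μ - 1) := by
      rw [← pow_succ']
      congr 1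
      omega
    rw [this] at hpow
    exact le_of_mul_le_mul_right hpow hpos

/-! ### The monic relation is preserved by the slash action of `SL(2,ℤ)` -/

theorem levelOne_apply_smul {j : ℤ} (R : ModularForm 𝒮ℒ j) (σ : SL(2, ℤ)) (τ : ℍ) :
    R (σ • τ) = denom σ τ ^ j * R τ := by
  have hmem : (Matrix.SpecialLinearGroup.mapGL ℝ σ) ∈ 𝒮ℒ := ⟨σ, rfl⟩
  exact SlashInvariantForm.slash_action_eqn'' R hmem τ

theorem slash_relation {k : ℤ} {μ : ℕ} (h : ℍ → ℂ) (r : ℕ → ℍ → ℂ)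
    (hr : ∀ i, 1 ≤ i → i ≤ μ → ∃ R : ModularForm 𝒮ℒ (k * i), ⇑R = r i)
    (hrel : ∀ τ, h τ ^ μ + ∑ i ∈ range μ, r (i + 1) τ * h τ ^ (μ - (i + 1)) = 0)
    (σ : SL(2, ℤ)) (τ : ℍ) :
    (h ∣[k] σ) τ ^ μ + ∑ i ∈ range μ, r (i + 1) τ * (h ∣[k] σ) τ ^ (μ - (i + 1)) = 0 := by
  set J : ℂ := denom σ τ with hJ
  have hJ0 : J ≠ 0 := denom_ne_zero _ _
  set x : ℂ := h (σ • τ) with hx
  have hslash : (h ∣[k] σ) τ = x * J ^ (-k) := ModularForm.SL_slash_apply (f := h) (k := k) σ τ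
  have hrσ : ∀ i ∈ range μ, r (i + 1) (σ • τ) = J ^ (k * ((i + 1 : ℕ) : ℤ)) * r (i + 1) τ := by
    intro i hi
    obtain ⟨R, hR⟩ := hr (i + 1) (by omega) (Nat.succ_le_of_lt (Finset.mem_range.mp hi))
    rw [← hR]
    exact levelOne_apply_smul R σ τ
  have key := hrel (σ • τ)
  rw [hslash]
  have hgoal : (x * J ^ (-k)) ^ μ + ∑ i ∈ range μ, r (i + 1) τ * (x * J ^ (-k)) ^ (μ - (i + 1))
      = J ^ (-(k * (μ : ℤ))) *
        (x ^ μ + ∑ i ∈ range μ, r (i + 1) (σ • τ) * x ^ (μ - (i + 1))) := by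
    rw [mul_add, Finset.mul_sum]
    congr 1
    · rw [mul_pow, ← zpow_natCast (J ^ (-k)) μ, ← zpow_mul, mul_comm, neg_mul]
    · refine Finset.sum_congr rfl fun i hi => ?_
      have hi' : i < μ := Finset.mem_range.mp hi
      rw [hrσ i hi, mul_pow, ← zpow_natCast (J ^ (-k)) (μ - (i + 1)), ← zpow_mul]
      have hexp : J ^ (-(k * (μ : ℤ))) * J ^ (k * ((i + 1 : ℕ) : ℤ))
          = J ^ (-k * ((μ - (i + 1) : ℕ) : ℤ)) := by
        rw [← zpow_add₀ hJ0]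
        congr 1
        have : ((μ - (i + 1) : ℕ) : ℤ) = (μ : ℤ) - ((i + 1 : ℕ) : ℤ) := by
          rw [Nat.cast_sub (by omega)]
        rw [this]
        ring
      calc r (i + 1) τ * (x ^ (μ - (i + 1)) * J ^ (-k * ((μ - (i + 1) : ℕ) : ℤ)))
          = (J ^ (-(k * (μ : ℤ))) * J ^ (k * ((i + 1 : ℕ) : ℤ))) *
              (r (i + 1) τ * x ^ (μ - (i + 1))) := by rw [hexp]; ring
        _ = J ^ (-(k * (μ : ℤ))) *
              (J ^ (k * ((i + 1 : ℕ) : ℤ)) * r (i + 1) τ * x ^ (μ - (i + 1))) := by ring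
  rw [hgoal, key, mul_zero]

/-! ### Division -/

/-- The quotient `w / D` as a holomorphic function on `ℍ`, together with the monic relation. -/
theorem exists_quotient {μ : ℕ} {w D : ℍ → ℂ} (hw : MDiff w) (hD : MDiff D) (hD0 : D ≠ 0)
    (r : ℕ → ℍ → ℂ) (hr : ∀ i, 1 ≤ i → i ≤ μ → MDiff (r i))
    (hrel : ∀ τ, w τ ^ μ +
      ∑ i ∈ range μ, r (i + 1) τ * D τ ^ (i + 1) * w τ ^ (μ - (i + 1)) = 0) :
    ∃ h : ℍ → ℂ, MDiff h ∧ (∀ τ, h τ * D τ = w τ) ∧
      ∀ τ, h τ ^ μ + ∑ i ∈ range μ, r (i + 1) τ * h τ ^ (μ - (i + 1)) = 0 := by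
  have hU : IsOpen {z : ℂ | 0 < z.im} := isOpen_upperHalfPlaneSet
  have hUc : IsPreconnected {z : ℂ | 0 < z.im} :=
    (Complex.isConnected_of_upperHalfPlane subset_rfl (by grind)).isPreconnected
  have hw' := UpperHalfPlane.mdifferentiable_iff.mp hw
  have hD' := UpperHalfPlane.mdifferentiable_iff.mp hD
  -- the bound
  set B : ℂ → ℝ := fun z => max 1 (∑ i ∈ range μ, ‖(r (i + 1) ∘ ofComplex) z‖) with hB
  have hBc : ContinuousOn B {z : ℂ | 0 < z.im} := by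
    refine ContinuousOn.sup continuousOn_const (continuousOn_finsetSum _ fun i hi => ?_)
    have hi' : i < μ := Finset.mem_range.mp hi
    exact (UpperHalfPlane.mdifferentiable_iff.mp
      (hr (i + 1) (by omega) (by omega))).continuousOn.norm
  have hD0' : ∃ z ∈ {z : ℂ | 0 < z.im}, (D ∘ ofComplex) z ≠ 0 := by
    by_contra hcon
    simp only [not_exists, not_and, not_not] at hcon
    apply hD0
    funext τ
    have := hcon (τ : ℂ) τ.2
    simpa [Function.comp, ofComplex_apply] using this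
  have hquot : ∀ τ : ℍ, D τ ≠ 0 →
      (w τ / D τ) ^ μ + ∑ i ∈ range μ, r (i + 1) τ * (w τ / D τ) ^ (μ - (i + 1)) = 0 := by
    intro τ hDτ
    have hDμ : D τ ^ μ ≠ 0 := pow_ne_zero _ hDτ
    have h1 := hrel τ
    have h2 : (w τ / D τ) ^ μ + ∑ i ∈ range μ, r (i + 1) τ * (w τ / D τ) ^ (μ - (i + 1))
        = (w τ ^ μ + ∑ i ∈ range μ, r (i + 1) τ * D τ ^ (i + 1) * w τ ^ (μ - (i + 1)))
          / D τ ^ μ := by
      rw [add_div, Finset.sum_div, div_pow]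
      congr 1
      refine Finset.sum_congr rfl fun i hi => ?_
      have hi' : i < μ := Finset.mem_range.mp hi
      have hsplit : D τ ^ μ = D τ ^ (i + 1) * D τ ^ (μ - (i + 1)) := by
        rw [← pow_add]; congr 1; omega
      rw [div_pow, hsplit]
      have h3 : D τ ^ (i + 1) ≠ 0 := pow_ne_zero _ hDτ
      have h4 : D τ ^ (μ - (i + 1)) ≠ 0 := pow_ne_zero _ hDτ
      field_simp
    rw [h2, h1, zero_div]
  have hbdd : ∀ z ∈ {z : ℂ | 0 < z.im}, (D ∘ ofComplex) z ≠ 0 →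
      ‖(w ∘ ofComplex) z / (D ∘ ofComplex) z‖ ≤ B z := by
    intro z hz hDz
    exact norm_le_of_monic_root (fun i => (r i ∘ ofComplex) z) _ (hquot (ofComplex z) hDz)
  obtain ⟨H, hHd, hHmul⟩ :=
    Division.exists_differentiableOn_div hU hUc hw' hD' hD0' B hBc hbdd
  refine ⟨fun τ => H (τ : ℂ), ?_, ?_, ?_⟩
  · rw [UpperHalfPlane.mdifferentiable_iff]
    refine hHd.congr fun z hz => ?_
    simp only [Function.comp, ofComplex_apply_of_im_pos hz, coe_mk]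
  · intro τ
    have := hHmul (τ : ℂ) τ.2
    simpa [Function.comp, ofComplex_apply] using this
  · have hmul : ∀ τ : ℍ, H (τ : ℂ) * D τ = w τ := by
      intro τ
      have := hHmul (τ : ℂ) τ.2
      simpa [Function.comp, ofComplex_apply] using this
    set hf : ℍ → ℂ := fun τ : ℍ => H (τ : ℂ) with hhf
    have hhol : MDiff hf := by
      rw [UpperHalfPlane.mdifferentiable_iff]
      refine hHd.congr fun z hz => ?_
      simp only [hhf, Function.comp, ofComplex_apply_of_im_pos hz]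
    set Φ : ℍ → ℂ := hf ^ μ + ∑ i ∈ range μ, r (i + 1) * hf ^ (μ - (i + 1)) with hΦ
    have hΦhol : MDiff Φ := by
      refine (hhol.pow μ).add (MDifferentiable.sum fun i hi => ?_)
      have hi' : i < μ := Finset.mem_range.mp hi
      exact (hr (i + 1) (by omega) (by omega)).mul (hhol.pow _)
    have hΦapp : ∀ τ, Φ τ = H (τ : ℂ) ^ μ +
        ∑ i ∈ range μ, r (i + 1) τ * H (τ : ℂ) ^ (μ - (i + 1)) := by
      intro τ
      simp only [hΦ, hhf, Pi.add_apply, Pi.pow_apply, Finset.sum_apply, Pi.mul_apply]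
    have hprod : Φ * (D ^ μ) = 0 := by
      funext τ
      simp only [Pi.mul_apply, Pi.pow_apply, Pi.zero_apply, hΦapp]
      rw [add_mul, Finset.sum_mul, ← hrel τ, ← hmul τ]
      congr 1
      · ring
      · refine Finset.sum_congr rfl fun i hi => ?_
        have hi' : i < μ := Finset.mem_range.mp hi
        have hsplit : D τ ^ μ = D τ ^ (i + 1) * D τ ^ (μ - (i + 1)) := by
          rw [← pow_add]; congr 1; omega
        rw [hsplit, mul_pow]
        ring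
    rcases (UpperHalfPlane.mul_eq_zero_iff hΦhol (hD.pow μ)).mp hprod with h0 | h0
    · intro τ
      have := congrFun h0 τ
      rw [hΦapp] at this
      exact this
    · exfalso
      apply hD0
      funext τ
      have hμ : μ ≠ 0 := by
        rintro rfl
        simpa using hrel τ
      have := congrFun h0 τ
      simp only [Pi.pow_apply, Pi.zero_apply] at this
      exact (pow_eq_zero_iff hμ).mp this

/-! ### Packaging as modular forms -/

theorem slash_eq_of_mem_map {N : ℕ} {k : ℤ} (G : ℍ → ℂ)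
    (hinv : ∀ γ ∈ Gamma0 N, G ∣[k] γ = G)
    (γ : GL (Fin 2) ℝ) (hγ : γ ∈ (Gamma0 N : Subgroup (GL (Fin 2) ℝ))) : G ∣[k] γ = G := by
  obtain ⟨γ', hγ', rfl⟩ := hγ
  exact hinv γ' hγ'

theorem exists_modularForm_of_bdd {N : ℕ} [NeZero N] {k : ℤ} (G : ℍ → ℂ) (hol : MDiff G)
    (hinv : ∀ γ ∈ Gamma0 N, G ∣[k] γ = G)
    (hbdd : ∀ σ : SL(2, ℤ), IsBoundedAtImInfty (G ∣[k] σ)) :
    ∃ F : ModularForm (Gamma0 N) k, ⇑F = G := by
  refine ⟨{ toFun := G
            slash_action_eq' := slash_eq_of_mem_map G hinv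
            holo' := hol
            bdd_at_cusps' := fun {c} hc => ?_ }, rfl⟩
  have hc' : IsCusp c 𝒮ℒ := (Subgroup.IsArithmetic.isCusp_iff_isCusp_SL2Z _).mp hc
  rw [OnePoint.isBoundedAt_iff_exists_SL2Z hc']
  obtain ⟨γ, rfl⟩ := isCusp_SL2Z_iff'.mp hc'
  exact ⟨γ, rfl, hbdd γ⟩

theorem exists_cuspForm_of_zero {N : ℕ} [NeZero N] {k : ℤ} (G : ℍ → ℂ) (hol : MDiff G)
    (hinv : ∀ γ ∈ Gamma0 N, G ∣[k] γ = G)
    (hzero : ∀ σ : SL(2, ℤ), IsZeroAtImInfty (G ∣[k] σ)) :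
    ∃ F : CuspForm (Gamma0 N) k, ⇑F = G := by
  refine ⟨{ toFun := G
            slash_action_eq' := slash_eq_of_mem_map G hinv
            holo' := hol
            zero_at_cusps' := fun {c} hc => ?_ }, rfl⟩
  have hc' : IsCusp c 𝒮ℒ := (Subgroup.IsArithmetic.isCusp_iff_isCusp_SL2Z _).mp hc
  rw [OnePoint.isZeroAt_iff_exists_SL2Z hc']
  obtain ⟨γ, rfl⟩ := isCusp_SL2Z_iff'.mp hc'
  exact ⟨γ, rfl, hzero γ⟩

/-! ### Boundedness / vanishing at `i∞` from the monic relation -/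

theorem isBoundedAtImInfty_of_relation {μ : ℕ} (x : ℍ → ℂ) (r : ℕ → ℍ → ℂ)
    (hr : ∀ i, 1 ≤ i → i ≤ μ → IsBoundedAtImInfty (r i))
    (hrel : ∀ τ, x τ ^ μ + ∑ i ∈ range μ, r (i + 1) τ * x τ ^ (μ - (i + 1)) = 0) :
    IsBoundedAtImInfty x := by
  have h1 : x =O[atImInfty] (fun τ => 1 + ∑ i ∈ range μ, ‖r (i + 1) τ‖) := by
    refine Asymptotics.IsBigO.of_bound 1 (Eventually.of_forall fun τ => ?_)
    have hb := norm_le_of_monic_root (fun i => r i τ) (x τ) (hrel τ)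
    have hs : 0 ≤ ∑ i ∈ range μ, ‖r (i + 1) τ‖ := Finset.sum_nonneg fun i _ => norm_nonneg _
    rw [one_mul, Real.norm_of_nonneg (by positivity)]
    refine hb.trans (max_le (by linarith) (by linarith))
  have h2 : (fun τ : ℍ => 1 + ∑ i ∈ range μ, ‖r (i + 1) τ‖) =O[atImInfty] (1 : ℍ → ℝ) := by
    refine Asymptotics.IsBigO.add ?_ (Asymptotics.IsBigO.fun_sum fun i hi => ?_)
    · exact Asymptotics.isBigO_of_le _ fun τ => by simp
    · have hi' : i < μ := Finset.mem_range.mp hi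
      exact (hr (i + 1) (by omega) (by omega)).norm_left
  exact h1.trans h2

theorem isZeroAtImInfty_of_relation {μ : ℕ} (x : ℍ → ℂ) (r : ℕ → ℍ → ℂ)
    (hr : ∀ i, 1 ≤ i → i ≤ μ → IsZeroAtImInfty (r i))
    (hrel : ∀ τ, x τ ^ μ + ∑ i ∈ range μ, r (i + 1) τ * x τ ^ (μ - (i + 1)) = 0) :
    IsZeroAtImInfty x := by
  have hμ : μ ≠ 0 := by
    rintro rfl
    simpa using hrel UpperHalfPlane.I
  have hS : Tendsto (fun τ : ℍ => ∑ i ∈ range μ, ‖r (i + 1) τ‖) atImInfty (𝓝 0) := by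
    have : Tendsto (fun τ : ℍ => ∑ i ∈ range μ, ‖r (i + 1) τ‖) atImInfty
        (𝓝 (∑ i ∈ range μ, (0 : ℝ))) := by
      refine tendsto_finsetSum _ fun i hi => ?_
      have hi' : i < μ := Finset.mem_range.mp hi
      have := hr (i + 1) (by omega) (by omega)
      exact tendsto_zero_iff_norm_tendsto_zero.mp this
    simpa using this
  show Tendsto x atImInfty (𝓝 0)
  rw [tendsto_zero_iff_norm_tendsto_zero, Metric.tendsto_nhds]
  intro ε hε
  have hε' : 0 < min 1 (ε ^ μ) := lt_min one_pos (pow_pos hε _)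
  filter_upwards [(Metric.tendsto_nhds.mp hS) _ hε'] with τ hτ
  have hs : 0 ≤ ∑ i ∈ range μ, ‖r (i + 1) τ‖ := Finset.sum_nonneg fun i _ => norm_nonneg _
  rw [Real.dist_eq, sub_zero, abs_of_nonneg hs] at hτ
  have hS1 : ∑ i ∈ range μ, ‖r (i + 1) τ‖ < 1 := hτ.trans_le (min_le_left _ _)
  have hSε : ∑ i ∈ range μ, ‖r (i + 1) τ‖ < ε ^ μ := hτ.trans_le (min_le_right _ _)
  have hb := norm_le_of_monic_root (fun i => r i τ) (x τ) (hrel τ)
  have hx1 : ‖x τ‖ ≤ 1 := by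
    refine hb.trans (max_le le_rfl hS1.le)
  have hp := norm_pow_le_of_monic_root (fun i => r i τ) (x τ) (hrel τ)
  rw [max_eq_left hx1, one_pow, mul_one] at hp
  have : ‖x τ‖ ^ μ < ε ^ μ := hp.trans_lt hSε
  rw [Real.dist_eq, sub_zero, abs_of_nonneg (norm_nonneg _)]
  exact lt_of_pow_lt_pow_left₀ μ hε.le this

/-! ### Main theorem -/

theorem exists_form_of_integral {N : ℕ} [NeZero N] {k K : ℤ}
    (w : ModularForm (Gamma0 N) (k + K)) (D : ModularForm (Gamma0 N) K) (hD : D ≠ 0)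
    (μ : ℕ) (r : ℕ → ℍ → ℂ)
    (hr : ∀ i, 1 ≤ i → i ≤ μ → ∃ R : ModularForm 𝒮ℒ (k * i), ⇑R = r i)
    (hrel : ∀ τ, w τ ^ μ +
      ∑ i ∈ range μ, r (i + 1) τ * D τ ^ (i + 1) * w τ ^ (μ - (i + 1)) = 0) :
    (∃ h : ModularForm (Gamma0 N) k, ∀ τ, h τ * D τ = w τ) ∧
      ((∀ i, 1 ≤ i → i ≤ μ → IsZeroAtImInfty (r i)) →
        ∃ h : CuspForm (Gamma0 N) k, ∀ τ, h τ * D τ = w τ) := by
  have hD0 : (⇑D : ℍ → ℂ) ≠ 0 := by
    intro h0
    apply hD
    ext τ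
    exact congrFun h0 τ
  have hrhol : ∀ i, 1 ≤ i → i ≤ μ → MDiff (r i) := by
    intro i h1 h2
    obtain ⟨R, hR⟩ := hr i h1 h2
    rw [← hR]
    exact ModularFormClass.holo R
  obtain ⟨h, hhol, hmul, hrelh⟩ :=
    exists_quotient (ModularFormClass.holo w) (ModularFormClass.holo D) hD0 r hrhol hrel
  have hinv : ∀ γ ∈ Gamma0 N, h ∣[k] γ = h := by
    intro γ hγ
    have hγ' : (Matrix.SpecialLinearGroup.mapGL ℝ γ) ∈ (Gamma0 N : Subgroup (GL (Fin 2) ℝ)) :=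
      ⟨γ, hγ, rfl⟩
    have e1 : (h * ⇑D) ∣[k + K] γ = (h ∣[k] γ) * (⇑D ∣[K] γ) := ModularForm.mul_slash_SL2 k K γ h D
    have e2 : (⇑D : ℍ → ℂ) ∣[K] γ = ⇑D := SlashInvariantFormClass.slash_action_eq D _ hγ'
    have e3 : (⇑w : ℍ → ℂ) ∣[k + K] γ = ⇑w := SlashInvariantFormClass.slash_action_eq w _ hγ'
    have e4 : h * ⇑D = ⇑w := funext hmul
    rw [e4, e3, e2, ← e4] at e1
    have e5 : (h ∣[k] γ - h) * ⇑D = 0 := by rw [sub_mul, ← e1, sub_self]
    have hholγ : MDiff (h ∣[k] γ) := hhol.slash k _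
    rcases (UpperHalfPlane.mul_eq_zero_iff (hholγ.sub hhol) (ModularFormClass.holo D)).mp e5
      with h0 | h0
    · exact sub_eq_zero.mp h0
    · exact absurd h0 hD0
  have hrels : ∀ σ : SL(2, ℤ), ∀ τ, (h ∣[k] σ) τ ^ μ +
      ∑ i ∈ range μ, r (i + 1) τ * (h ∣[k] σ) τ ^ (μ - (i + 1)) = 0 :=
    fun σ τ => slash_relation h r hr hrelh σ τ
  refine ⟨?_, fun hr0 => ?_⟩
  · have hbdd : ∀ σ : SL(2, ℤ), IsBoundedAtImInfty (h ∣[k] σ) := by
      intro σ
      refine isBoundedAtImInfty_of_relation _ r (fun i h1 h2 => ?_) (hrels σ)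
      obtain ⟨R, hR⟩ := hr i h1 h2
      rw [← hR]
      exact ModularFormClass.bdd_at_infty R
    obtain ⟨F, hF⟩ := exists_modularForm_of_bdd h hhol hinv hbdd
    exact ⟨F, fun τ => by rw [hF]; exact hmul τ⟩
  · have hzero : ∀ σ : SL(2, ℤ), IsZeroAtImInfty (h ∣[k] σ) := fun σ =>
      isZeroAtImInfty_of_relation _ r hr0 (hrels σ)
    obtain ⟨F, hF⟩ := exists_cuspForm_of_zero h hhol hinv hzero
    exact ⟨F, fun τ => by rw [hF]; exact hmul τ⟩

end Fermat.Agent.S23.Integral
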