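import Mathlib

/-!
# Quotients of holomorphic functions which are integral over holomorphic functions

Analytic input for step (6) of the S23 project: if `w`, `D` are holomorphic on the upper half
plane, `D` is not identically zero, and `w / D` satisfies (where `D ≠ 0`) a monic polynomial
equation with continuous coefficients, then `w / D` extends to a holomorphic function `G` with
`G * D = w`, satisfying the same equation everywhere; growth conditions on the coefficients are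
inherited by `G` (Cauchy root bound).
-/

set_option autoImplicit false

namespace Fermat.Agent.S23.Removable

open Filter Topology Complex

section RootBound

/-- **Cauchy root bound.** A root of a monic polynomial is bounded by `max 1 (∑ ‖cᵢ‖)`. -/
theorem norm_le_max_of_monic_root {μ : ℕ} (c : ℕ → ℂ) (z : ℂ)
    (h : z ^ μ + ∑ i ∈ Finset.range μ, c i * z ^ i = 0) :
    ‖z‖ ≤ max 1 (∑ i ∈ Finset.range μ, ‖c i‖) := by
  by_cases hz : ‖z‖ ≤ 1
  · exact hz.trans (le_max_left _ _)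
  · push Not at hz
    refine le_trans ?_ (le_max_right _ _)
    rcases Nat.eq_zero_or_pos μ with rfl | hμ
    · simp at h
    have h1 : z ^ μ = -∑ i ∈ Finset.range μ, c i * z ^ i := eq_neg_of_add_eq_zero_left h
    have h2 : ‖z‖ ^ μ ≤ (∑ i ∈ Finset.range μ, ‖c i‖) * ‖z‖ ^ (μ - 1) := by
      calc ‖z‖ ^ μ = ‖z ^ μ‖ := (norm_pow z μ).symm
        _ = ‖∑ i ∈ Finset.range μ, c i * z ^ i‖ := by rw [h1, norm_neg]
        _ ≤ ∑ i ∈ Finset.range μ, ‖c i * z ^ i‖ := norm_sum_le _ _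
        _ ≤ ∑ i ∈ Finset.range μ, ‖c i‖ * ‖z‖ ^ (μ - 1) := by
            refine Finset.sum_le_sum fun i hi => ?_
            rw [norm_mul, norm_pow]
            refine mul_le_mul_of_nonneg_left ?_ (norm_nonneg _)
            exact pow_le_pow_right₀ hz.le (by have := Finset.mem_range.mp hi; omega)
        _ = (∑ i ∈ Finset.range μ, ‖c i‖) * ‖z‖ ^ (μ - 1) := by rw [Finset.sum_mul]
    have h3 : ‖z‖ ^ μ = ‖z‖ * ‖z‖ ^ (μ - 1) := by
      rw [← pow_succ']
      congr 1
      omega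
    rw [h3] at h2
    have hpos : 0 < ‖z‖ ^ (μ - 1) := pow_pos (lt_trans one_pos hz) _
    exact le_of_mul_le_mul_right h2 hpos

/-- **Cauchy root bound**, additive form. -/
theorem norm_le_of_monic_root {μ : ℕ} (c : ℕ → ℂ) (z : ℂ)
    (h : z ^ μ + ∑ i ∈ Finset.range μ, c i * z ^ i = 0) :
    ‖z‖ ≤ 1 + ∑ i ∈ Finset.range μ, ‖c i‖ := by
  refine (norm_le_max_of_monic_root c z h).trans (max_le ?_ ?_)
  · have : 0 ≤ ∑ i ∈ Finset.range μ, ‖c i‖ := Finset.sum_nonneg fun _ _ => norm_nonneg _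
    linarith
  · linarith

/-- **Cauchy root bound**, small coefficients: if all coefficients are small, so is the root. -/
theorem norm_le_of_monic_root_of_small {μ : ℕ} (c : ℕ → ℂ) (z : ℂ)
    (h : z ^ μ + ∑ i ∈ Finset.range μ, c i * z ^ i = 0) {ε : ℝ} (hε0 : 0 < ε) (hε1 : ε ≤ 1)
    (hc : ∀ i < μ, ‖c i‖ * μ ≤ ε ^ μ) : ‖z‖ ≤ ε := by
  rcases Nat.eq_zero_or_pos μ with rfl | hμ
  · simp at h
  have hεne : (ε : ℂ) ≠ 0 := by exact_mod_cast hε0.ne'
  -- rescale: `z / ε` is a root of the monic polynomial with coefficients `cᵢ ε ^ i / ε ^ μ`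
  have h1 : (z / ε) ^ μ + ∑ i ∈ Finset.range μ, (c i * (ε : ℂ) ^ i / (ε : ℂ) ^ μ) * (z / ε) ^ i
      = 0 := by
    have h2 : ∀ i ∈ Finset.range μ, (c i * (ε : ℂ) ^ i / (ε : ℂ) ^ μ) * (z / ε) ^ i =
        (c i * z ^ i) / (ε : ℂ) ^ μ := by
      intro i _
      rw [div_pow]
      field_simp
    rw [Finset.sum_congr rfl h2, ← Finset.sum_div, div_pow, ← add_div, h, zero_div]
  have h3 := norm_le_max_of_monic_root _ _ h1
  have h4 : ∑ i ∈ Finset.range μ, ‖c i * (ε : ℂ) ^ i / (ε : ℂ) ^ μ‖ ≤ 1 := by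
    have h5 : ∀ i ∈ Finset.range μ, ‖c i * (ε : ℂ) ^ i / (ε : ℂ) ^ μ‖ ≤ 1 / μ := by
      intro i hi
      have hi' := Finset.mem_range.mp hi
      rw [norm_div, norm_mul, norm_pow, norm_pow, Complex.norm_real, Real.norm_of_nonneg hε0.le]
      rw [div_le_div_iff₀ (pow_pos hε0 _) (by exact_mod_cast hμ), one_mul]
      have h6 : ε ^ i ≤ 1 := pow_le_one₀ hε0.le hε1
      calc ‖c i‖ * ε ^ i * μ = (‖c i‖ * μ) * ε ^ i := by ring
        _ ≤ (‖c i‖ * μ) * 1 :=
            mul_le_mul_of_nonneg_left h6 (mul_nonneg (norm_nonneg _) (Nat.cast_nonneg _))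
        _ = ‖c i‖ * μ := mul_one _
        _ ≤ ε ^ μ := hc i hi'
    calc ∑ i ∈ Finset.range μ, ‖c i * (ε : ℂ) ^ i / (ε : ℂ) ^ μ‖
        ≤ ∑ _i ∈ Finset.range μ, (1 / μ : ℝ) := Finset.sum_le_sum h5
      _ = 1 := by
          rw [Finset.sum_const, Finset.card_range, nsmul_eq_mul]
          field_simp
  have h7 : ‖z / ε‖ ≤ 1 := h3.trans (max_le le_rfl h4)
  rw [norm_div, Complex.norm_real, Real.norm_of_nonneg hε0.le, div_le_one hε0] at h7
  exact h7

end RootBound

section Plane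

variable {U : Set ℂ}

/-- A holomorphic function on a preconnected open set which is not identically zero has isolated
zeros. -/
theorem eventually_ne_zero_of_differentiableOn (hU : IsOpen U) (hUc : IsPreconnected U)
    {D : ℂ → ℂ} (hD : DifferentiableOn ℂ D U) {z₀ : ℂ} (hz₀ : z₀ ∈ U) (hDz₀ : D z₀ ≠ 0)
    {z : ℂ} (hz : z ∈ U) : ∀ᶠ y in 𝓝[≠] z, D y ≠ 0 := by
  have hDa : AnalyticOnNhd ℂ D U := hD.analyticOnNhd hU
  rcases (hDa z hz).eventually_eq_zero_or_eventually_ne_zero with h | h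
  · exact absurd (hDa.eqOn_zero_of_preconnected_of_eventuallyEq_zero hUc hz h hz₀) hDz₀
  · exact h

/-- **Quotient extension.** If `w`, `D` are holomorphic on a preconnected open set `U`, `D` is
not identically zero, and `w / D` satisfies a monic polynomial equation with continuous
coefficients wherever `D ≠ 0`, then `w / D` extends to a holomorphic function `G` on `U` with
`G * D = w`, satisfying the same polynomial equation on all of `U`. -/
theorem exists_quotient_of_monic_root (hU : IsOpen U) (hUc : IsPreconnected U) {w D : ℂ → ℂ}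
    (hw : DifferentiableOn ℂ w U) (hD : DifferentiableOn ℂ D U) {z₀ : ℂ} (hz₀ : z₀ ∈ U)
    (hDz₀ : D z₀ ≠ 0) {μ : ℕ} (c : ℕ → ℂ → ℂ) (hc : ∀ i < μ, ContinuousOn (c i) U)
    (hroot : ∀ z ∈ U, D z ≠ 0 →
      (w z / D z) ^ μ + ∑ i ∈ Finset.range μ, c i z * (w z / D z) ^ i = 0) :
    ∃ G : ℂ → ℂ, DifferentiableOn ℂ G U ∧ (∀ z ∈ U, G z * D z = w z) ∧
      ∀ z ∈ U, G z ^ μ + ∑ i ∈ Finset.range μ, c i z * G z ^ i = 0 := by
  classical
  set g : ℂ → ℂ := fun z => w z / D z with hg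
  have hne : ∀ z ∈ U, ∀ᶠ y in 𝓝[≠] z, D y ≠ 0 := fun z hz =>
    eventually_ne_zero_of_differentiableOn hU hUc hD hz₀ hDz₀ hz
  have hUev : ∀ z ∈ U, ∀ᶠ y in 𝓝[≠] z, y ∈ U := fun z hz =>
    eventually_nhdsWithin_of_eventually_nhds (hU.mem_nhds hz)
  -- `g` is differentiable wherever `D ≠ 0`
  have hgd : ∀ y ∈ U, D y ≠ 0 → DifferentiableAt ℂ g y := fun y hy hDy =>
    ((hw.differentiableAt (hU.mem_nhds hy)).div (hD.differentiableAt (hU.mem_nhds hy)) hDy)
  -- `g` is bounded near every point of `U`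
  have hbdd : ∀ z ∈ U, ∃ C : ℝ, ∀ᶠ y in 𝓝[≠] z, ‖g y‖ ≤ C := by
    intro z hz
    refine ⟨1 + ∑ i ∈ Finset.range μ, (‖c i z‖ + 1), ?_⟩
    have hci : ∀ i ∈ Finset.range μ, ∀ᶠ y in 𝓝[≠] z, ‖c i y‖ ≤ ‖c i z‖ + 1 := by
      intro i hi
      have hcont : ContinuousAt (c i) z :=
        (hc i (Finset.mem_range.mp hi)).continuousAt (hU.mem_nhds hz)
      have : ∀ᶠ y in 𝓝 z, ‖c i y‖ < ‖c i z‖ + 1 :=
        hcont.norm.eventually_lt continuousAt_const (by simp)
      exact eventually_nhdsWithin_of_eventually_nhds (this.mono fun y hy => hy.le)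
    have hall : ∀ᶠ y in 𝓝[≠] z, ∀ i ∈ Finset.range μ, ‖c i y‖ ≤ ‖c i z‖ + 1 :=
      (Finset.eventually_all _).mpr hci
    filter_upwards [hne z hz, hUev z hz, hall] with y hy1 hy2 hy3
    refine (norm_le_of_monic_root (fun i => c i y) (g y) (hroot y hy2 hy1)).trans ?_
    exact add_le_add_right (Finset.sum_le_sum hy3) _
  -- hence `g` has a limit at every point of `U`
  have hlim : ∀ z ∈ U, Tendsto g (𝓝[≠] z) (𝓝 (limUnder (𝓝[≠] z) g)) := by
    intro z hz
    refine tendsto_limUnder_of_differentiable_on_punctured_nhds_of_bounded_under ?_ ?_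
    · filter_upwards [hne z hz, hUev z hz] with y hy1 hy2 using hgd y hy2 hy1
    · obtain ⟨C, hC⟩ := hbdd z hz
      refine ⟨C + ‖g z‖, ?_⟩
      rw [eventually_map]
      filter_upwards [hC] with y hy
      have := norm_sub_le (g y) (g z)
      linarith
  set G : ℂ → ℂ := fun z => limUnder (𝓝[≠] z) g with hG
  -- `G = g` where `D ≠ 0`
  have hGg : ∀ y ∈ U, D y ≠ 0 → G y = g y := by
    intro y hy hDy
    have h1 : Tendsto g (𝓝[≠] y) (𝓝 (g y)) :=
      ((hgd y hy hDy).continuousAt.tendsto).mono_left nhdsWithin_le_nhds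
    exact tendsto_nhds_unique (hlim y hy) h1
  have hGev : ∀ z ∈ U, ∀ᶠ y in 𝓝[≠] z, G y = g y := by
    intro z hz
    filter_upwards [hne z hz, hUev z hz] with y hy1 hy2 using hGg y hy2 hy1
  have hGtend : ∀ z ∈ U, Tendsto G (𝓝[≠] z) (𝓝 (G z)) := by
    intro z hz
    exact (hlim z hz).congr' ((hGev z hz).mono fun y hy => hy.symm)
  have hGcont : ∀ z ∈ U, ContinuousAt G z := by
    intro z hz
    exact continuousWithinAt_compl_self.mp (hGtend z hz)
  have hGdiff : DifferentiableOn ℂ G U := by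
    intro z hz
    refine (analyticAt_of_differentiable_on_punctured_nhds_of_continuousAt ?_
      (hGcont z hz)).differentiableAt.differentiableWithinAt
    -- on a punctured neighbourhood `G` agrees with `g` on an open set
    have hopen : ∀ᶠ y in 𝓝[≠] z, ∀ᶠ x in 𝓝 y, x ∈ U ∧ D x ≠ 0 := by
      have h1 : ∀ᶠ y in 𝓝[≠] z, y ∈ U ∧ D y ≠ 0 := (hUev z hz).and (hne z hz)
      filter_upwards [h1] with y hy
      have hDc : ContinuousAt D y := (hD.differentiableAt (hU.mem_nhds hy.1)).continuousAt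
      exact (hU.eventually_mem hy.1).and (hDc.eventually_ne hy.2)
    filter_upwards [hopen, hUev z hz, hne z hz] with y hy hyU hyD
    have heq : G =ᶠ[𝓝 y] g := hy.mono fun x hx => hGg x hx.1 hx.2
    exact (heq.differentiableAt_iff).mpr (hgd y hyU hyD)
  refine ⟨G, hGdiff, ?_, ?_⟩
  · intro z hz
    by_cases hDz : D z = 0
    · -- `w = g * D` tends to `0`
      rw [hDz, mul_zero]
      have h1 : Tendsto (fun y => g y * D y) (𝓝[≠] z) (𝓝 (G z * D z)) :=
        (hlim z hz).mul (((hD.differentiableAt (hU.mem_nhds hz)).continuousAt.tendsto).mono_left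
          nhdsWithin_le_nhds)
      have h2 : Tendsto w (𝓝[≠] z) (𝓝 (w z)) :=
        ((hw.differentiableAt (hU.mem_nhds hz)).continuousAt.tendsto).mono_left nhdsWithin_le_nhds
      have h3 : Tendsto w (𝓝[≠] z) (𝓝 (G z * D z)) := by
        refine h1.congr' ?_
        filter_upwards [hne z hz] with y hy
        simp only [hg]
        field_simp
      have := tendsto_nhds_unique h2 h3
      rw [this, hDz, mul_zero]
    · rw [hGg z hz hDz]
      simp only [hg]
      field_simp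
  · intro z hz
    -- the polynomial expression in `G` is continuous and vanishes on a punctured neighbourhood
    have hcont : Tendsto (fun y => G y ^ μ + ∑ i ∈ Finset.range μ, c i y * G y ^ i) (𝓝[≠] z)
        (𝓝 (G z ^ μ + ∑ i ∈ Finset.range μ, c i z * G z ^ i)) := by
      refine ((hGtend z hz).pow μ).add (tendsto_finsetSum _ fun i hi => ?_)
      have hci : Tendsto (c i) (𝓝[≠] z) (𝓝 (c i z)) :=
        (((hc i (Finset.mem_range.mp hi)).continuousAt (hU.mem_nhds hz)).tendsto).mono_left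
          nhdsWithin_le_nhds
      exact hci.mul ((hGtend z hz).pow i)
    have hzero : Tendsto (fun y => G y ^ μ + ∑ i ∈ Finset.range μ, c i y * G y ^ i) (𝓝[≠] z)
        (𝓝 0) := by
      refine tendsto_const_nhds.congr' ?_
      filter_upwards [hne z hz, hUev z hz] with y hy1 hy2
      rw [hGg y hy2 hy1]
      exact (hroot y hy2 hy1).symm
    exact tendsto_nhds_unique hcont hzero

end Plane

section UpperHalfPlane

open UpperHalfPlane
open scoped Manifold

/-- `ofComplex` is continuous at points of the upper half plane. -/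
theorem continuousAt_ofComplex {z : ℂ} (hz : 0 < z.im) : ContinuousAt ofComplex z :=
  (contMDiffAt_ofComplex (n := 0) hz).continuousAt

/-- A continuous function on `ℍ` composed with `ofComplex` is continuous on the upper half
plane set. -/
theorem continuousOn_comp_ofComplex {c : ℍ → ℂ} (hc : Continuous c) :
    ContinuousOn (c ∘ ofComplex) {z : ℂ | 0 < z.im} := fun _ hz =>
  (hc.continuousAt.comp (continuousAt_ofComplex hz)).continuousWithinAt

/-- **Quotient extension on the upper half plane.** If `w`, `D : ℍ → ℂ` are holomorphic, `D` is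
not identically zero, and `w / D` satisfies a monic polynomial equation with continuous
coefficients wherever `D ≠ 0`, then there is a holomorphic `G` with `G * D = w`, satisfying the
same polynomial equation everywhere. -/
theorem exists_quotient {w D : ℍ → ℂ} (hw : MDifferentiable 𝓘(ℂ) 𝓘(ℂ) w)
    (hD : MDifferentiable 𝓘(ℂ) 𝓘(ℂ) D) {τ₀ : ℍ} (hDτ₀ : D τ₀ ≠ 0) {μ : ℕ} (c : ℕ → ℍ → ℂ)
    (hc : ∀ i < μ, Continuous (c i))
    (hroot : ∀ τ, D τ ≠ 0 →
      (w τ / D τ) ^ μ + ∑ i ∈ Finset.range μ, c i τ * (w τ / D τ) ^ i = 0) :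
    ∃ G : ℍ → ℂ, MDifferentiable 𝓘(ℂ) 𝓘(ℂ) G ∧ (∀ τ, G τ * D τ = w τ) ∧
      ∀ τ, G τ ^ μ + ∑ i ∈ Finset.range μ, c i τ * G τ ^ i = 0 := by
  have hU : IsOpen {z : ℂ | 0 < z.im} := isOpen_upperHalfPlaneSet
  have hUc : IsPreconnected {z : ℂ | 0 < z.im} := (convex_halfSpace_im_gt 0).isPreconnected
  have hval : ∀ (F : ℍ → ℂ) (z : ℂ) (hz : 0 < z.im), (F ∘ ofComplex) z = F ⟨z, hz⟩ :=
    fun F z hz => comp_ofComplex_of_im_pos F z hz
  obtain ⟨G', hG'd, hG'mul, hG'root⟩ := exists_quotient_of_monic_root hU hUc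
    (w := w ∘ ofComplex) (D := D ∘ ofComplex) (mdifferentiable_iff.mp hw)
    (mdifferentiable_iff.mp hD) (z₀ := (τ₀ : ℂ)) τ₀.im_pos
    (by rw [comp_ofComplex]; exact hDτ₀) (μ := μ) (fun i => c i ∘ ofComplex)
    (fun i hi => continuousOn_comp_ofComplex (hc i hi))
    (by
      intro z hz hDz
      rw [hval _ z hz] at hDz
      have := hroot ⟨z, hz⟩ hDz
      simp only [hval _ z hz]
      exact this)
  refine ⟨fun τ => G' (τ : ℂ), ?_, fun τ => ?_, fun τ => ?_⟩
  · rw [mdifferentiable_iff]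
    refine hG'd.congr fun z hz => ?_
    exact hval (fun τ : ℍ => G' (τ : ℂ)) z hz
  · have := hG'mul (τ : ℂ) τ.im_pos
    rwa [comp_ofComplex, comp_ofComplex] at this
  · have := hG'root (τ : ℂ) τ.im_pos
    simpa only [comp_ofComplex] using this

/-- **Uniqueness of quotients.** Two continuous functions on `ℍ` which agree after multiplication
by a holomorphic function which is not identically zero are equal. -/
theorem eq_of_mul_eq_mul {G H D : ℍ → ℂ} (hG : Continuous G) (hH : Continuous H)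
    (hD : MDifferentiable 𝓘(ℂ) 𝓘(ℂ) D) {τ₀ : ℍ} (hDτ₀ : D τ₀ ≠ 0)
    (h : ∀ τ, G τ * D τ = H τ * D τ) : G = H := by
  have hU : IsOpen {z : ℂ | 0 < z.im} := isOpen_upperHalfPlaneSet
  have hUc : IsPreconnected {z : ℂ | 0 < z.im} := (convex_halfSpace_im_gt 0).isPreconnected
  funext τ
  have hne : ∀ᶠ y in 𝓝[≠] (τ : ℂ), (D ∘ ofComplex) y ≠ 0 :=
    eventually_ne_zero_of_differentiableOn hU hUc (mdifferentiable_iff.mp hD)
      (z₀ := (τ₀ : ℂ)) τ₀.im_pos (by rw [comp_ofComplex]; exact hDτ₀) τ.im_pos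
  have hUev : ∀ᶠ y in 𝓝[≠] (τ : ℂ), y ∈ {z : ℂ | 0 < z.im} :=
    eventually_nhdsWithin_of_eventually_nhds (hU.mem_nhds τ.im_pos)
  have hGt : Tendsto (G ∘ ofComplex) (𝓝[≠] (τ : ℂ)) (𝓝 (G τ)) := by
    have := (hG.continuousAt.comp (continuousAt_ofComplex τ.im_pos)).tendsto
    rw [Function.comp_apply, ofComplex_apply] at this
    exact this.mono_left nhdsWithin_le_nhds
  have hHt : Tendsto (H ∘ ofComplex) (𝓝[≠] (τ : ℂ)) (𝓝 (H τ)) := by
    have := (hH.continuousAt.comp (continuousAt_ofComplex τ.im_pos)).tendsto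
    rw [Function.comp_apply, ofComplex_apply] at this
    exact this.mono_left nhdsWithin_le_nhds
  refine tendsto_nhds_unique hGt (hHt.congr' ?_)
  filter_upwards [hne, hUev] with y hy1 hy2
  have := h (ofComplex y)
  simp only [Function.comp_apply] at hy1 ⊢
  exact (mul_right_cancel₀ hy1 this).symm

/-- If the coefficients of a monic polynomial equation satisfied by `G` are bounded at `i∞`, so
is `G`. -/
theorem isBoundedAtImInfty_of_monic_root {μ : ℕ} (c : ℕ → ℍ → ℂ) (G : ℍ → ℂ)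
    (hroot : ∀ τ, G τ ^ μ + ∑ i ∈ Finset.range μ, c i τ * G τ ^ i = 0)
    (hc : ∀ i < μ, IsBoundedAtImInfty (c i)) : IsBoundedAtImInfty G := by
  have hall : ∀ i ∈ Finset.range μ, ∃ M : ℝ, ∀ᶠ τ in atImInfty, ‖c i τ‖ ≤ M := by
    intro i hi
    have := hc i (Finset.mem_range.mp hi)
    rw [IsBoundedAtImInfty, BoundedAtFilter, Asymptotics.isBigO_iff] at this
    obtain ⟨M, hM⟩ := this
    exact ⟨M, hM.mono fun τ hτ => by simpa using hτ⟩
  choose! M hM using hall
  rw [IsBoundedAtImInfty, BoundedAtFilter, Asymptotics.isBigO_iff]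
  refine ⟨1 + ∑ i ∈ Finset.range μ, M i, ?_⟩
  have hev : ∀ᶠ τ in atImInfty, ∀ i ∈ Finset.range μ, ‖c i τ‖ ≤ M i :=
    (Finset.eventually_all _).mpr hM
  filter_upwards [hev] with τ hτ
  have h1 := norm_le_of_monic_root (fun i => c i τ) (G τ) (hroot τ)
  have h2 : ∑ i ∈ Finset.range μ, ‖c i τ‖ ≤ ∑ i ∈ Finset.range μ, M i := Finset.sum_le_sum hτ
  simp only [Pi.one_apply, norm_one, mul_one]
  linarith

/-- If the coefficients of a monic polynomial equation satisfied by `G` vanish at `i∞`, so does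
`G`. -/
theorem isZeroAtImInfty_of_monic_root {μ : ℕ} (c : ℕ → ℍ → ℂ) (G : ℍ → ℂ)
    (hroot : ∀ τ, G τ ^ μ + ∑ i ∈ Finset.range μ, c i τ * G τ ^ i = 0)
    (hc : ∀ i < μ, IsZeroAtImInfty (c i)) : IsZeroAtImInfty G := by
  rw [IsZeroAtImInfty, ZeroAtFilter, Metric.tendsto_nhds]
  intro ε hε
  set δ : ℝ := min (ε / 2) 1 with hδ
  have hδ0 : 0 < δ := lt_min (half_pos hε) one_pos
  have hδ1 : δ ≤ 1 := min_le_right _ _
  have hδε : δ < ε := lt_of_le_of_lt (min_le_left _ _) (half_lt_self hε)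
  have hall : ∀ i ∈ Finset.range μ, ∀ᶠ τ in atImInfty, ‖c i τ‖ * μ ≤ δ ^ μ := by
    intro i hi
    have hci := hc i (Finset.mem_range.mp hi)
    rw [IsZeroAtImInfty, ZeroAtFilter] at hci
    have h1 : Tendsto (fun τ => ‖c i τ‖ * μ) atImInfty (𝓝 (‖(0 : ℂ)‖ * μ)) :=
      (hci.norm).mul_const _
    rw [norm_zero, zero_mul] at h1
    exact (h1.eventually_lt tendsto_const_nhds (pow_pos hδ0 μ)).mono fun τ hτ => hτ.le
  have hev : ∀ᶠ τ in atImInfty, ∀ i ∈ Finset.range μ, ‖c i τ‖ * μ ≤ δ ^ μ :=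
    (Finset.eventually_all _).mpr hall
  filter_upwards [hev] with τ hτ
  rw [dist_zero_right]
  refine lt_of_le_of_lt ?_ hδε
  exact norm_le_of_monic_root_of_small (fun i => c i τ) (G τ) (hroot τ) hδ0 hδ1
    fun i hi => hτ i (Finset.mem_range.mpr hi)

end UpperHalfPlane

end Fermat.Agent.S23.Removable
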