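import Mathlib

/-!
# Elementary symmetric functions of the conjugates of a modular form

For subgroups `𝒢, ℋ` of `GL(2, ℝ)` with `𝒢 ⊓ ℋ` of finite index in `ℋ`, and a modular form `f` of
weight `k` for `𝒢`, the elementary symmetric functions of the translates of `f` by `ℋ` are modular
forms for `ℋ` (generalising Mathlib's `ModularForm.trace` and `ModularForm.norm`).  Consequences:
the characteristic polynomial of `f` and Lagrange interpolation with respect to a second form `θ`.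
-/

set_option autoImplicit false

open UpperHalfPlane SlashInvariantForm

open scoped ModularForm Topology Filter Manifold MatrixGroups

noncomputable section

namespace Fermat.Agent.S23.SymmForms

variable {𝒢 ℋ : Subgroup (GL (Fin 2) ℝ)} {F : Type*} (f : F) [FunLike F ℍ ℂ] {k : ℤ}

local notation "𝒬" => ℋ ⧸ (𝒢.subgroupOf ℋ)

section Algebra

open Polynomial Finset


lemma prod_sub_eq_sum_esymm {ι R : Type*} [CommRing R] (s : Finset ι) (r : ι → R) (x : R) :
    ∏ i ∈ s, (x - r i) = ∑ j ∈ Finset.range (#s + 1),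
      (-1) ^ j * ((∑ t ∈ s.powersetCard j, ∏ i ∈ t, r i) * x ^ (#s - j)) := by
  have h := congrArg (Polynomial.eval x) (Multiset.prod_X_sub_X_eq_sum_esymm (s.val.map r))
  rw [Multiset.map_map, Polynomial.eval_multiset_prod, Multiset.map_map] at h
  simp only [Function.comp_def, eval_sub, eval_X, eval_C, Multiset.card_map, Finset.card_val,
    eval_finsetSum, eval_mul, eval_pow, eval_neg, eval_one, Finset.esymm_map_val] at h
  exact h

/-- Lagrange interpolation: only the term `a₀` survives at `x = r a₀`. -/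
lemma lagrange_eval {ι R : Type*} [CommRing R] [DecidableEq ι] (s : Finset ι) (v r : ι → R)
    {a₀ : ι} (ha₀ : a₀ ∈ s) :
    ∑ a ∈ s, v a * ∏ b ∈ s.erase a, (r a₀ - r b) = v a₀ * ∏ b ∈ s.erase a₀, (r a₀ - r b) := by
  refine Finset.sum_eq_single_of_mem a₀ ha₀ fun a _ hne => ?_
  rw [Finset.prod_eq_zero (i := a₀) (Finset.mem_erase.mpr ⟨hne.symm, ha₀⟩) (sub_self _), mul_zero]

/-- Expansion of the Lagrange numerator in powers of `x`. -/
lemma lagrange_expand {ι R : Type*} [CommRing R] [DecidableEq ι] (s : Finset ι) (v r : ι → R)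
    (x : R) :
    ∑ a ∈ s, v a * ∏ b ∈ s.erase a, (x - r b) =
      ∑ j ∈ Finset.range #s, (-1) ^ j *
        (∑ a ∈ s, v a * ∑ T ∈ (s.erase a).powersetCard j, ∏ b ∈ T, r b) * x ^ (#s - 1 - j) := by
  have h1 : ∀ a ∈ s, v a * ∏ b ∈ s.erase a, (x - r b) =
      ∑ j ∈ Finset.range #s, (-1) ^ j *
        (v a * ∑ T ∈ (s.erase a).powersetCard j, ∏ b ∈ T, r b) * x ^ (#s - 1 - j) := by
    intro a ha
    have hc : #(s.erase a) = #s - 1 := Finset.card_erase_of_mem ha
    have hpos : 0 < #s := Finset.card_pos.mpr ⟨a, ha⟩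
    rw [prod_sub_eq_sum_esymm, hc, Nat.sub_add_cancel hpos, Finset.mul_sum]
    refine Finset.sum_congr rfl fun j _ => ?_
    ring
  rw [Finset.sum_congr rfl h1, Finset.sum_comm]
  refine Finset.sum_congr rfl fun j _ => ?_
  rw [Finset.mul_sum, Finset.sum_mul]

/-- The derivative of `∏ (X - r b)` at the root `r a₀`, in terms of elementary symmetric
functions. -/
lemma deriv_eval {ι R : Type*} [CommRing R] [DecidableEq ι] (s : Finset ι) (r : ι → R)
    {a₀ : ι} (ha₀ : a₀ ∈ s) :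
    ∏ b ∈ s.erase a₀, (r a₀ - r b) =
      ∑ i ∈ Finset.range #s, (-1) ^ i * ((#s - i : ℕ) : R) *
        (∑ T ∈ s.powersetCard i, ∏ b ∈ T, r b) * r a₀ ^ (#s - 1 - i) := by
  have hV := Multiset.prod_X_sub_X_eq_sum_esymm (s.val.map r)
  rw [Multiset.map_map] at hV
  have hP : ∏ b ∈ s, (X - C (r b)) = ∑ j ∈ Finset.range (#s + 1),
      (-1) ^ j * (C (∑ T ∈ s.powersetCard j, ∏ b ∈ T, r b) * X ^ (#s - j)) := by
    rw [Finset.prod]
    simpa [Function.comp_def, Finset.esymm_map_val] using hV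
  have hD := congrArg (fun P => Polynomial.eval (r a₀) (derivative P)) hP
  simp only [derivative_prod_finset, derivative_X_sub_C, mul_one, eval_finsetSum, eval_prod,
    eval_sub, eval_X, eval_C, derivative_sum, derivative_mul, derivative_C, zero_mul, zero_add,
    eval_mul, eval_pow, eval_neg, eval_one, eval_natCast, derivative_pow,
    derivative_neg, derivative_one, neg_zero, mul_zero, map_natCast, derivative_X] at hD
  rw [Finset.sum_eq_single_of_mem a₀ ha₀ (fun a _ hne => Finset.prod_eq_zero (i := a₀)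
    (Finset.mem_erase.mpr ⟨hne.symm, ha₀⟩) (sub_self _))] at hD
  rw [hD, Finset.sum_range_succ]
  simp only [Nat.sub_self, Nat.cast_zero, mul_zero, zero_mul, add_zero]
  refine Finset.sum_congr rfl fun i hi => ?_
  have h2 : #s - i - 1 = #s - 1 - i := by omega
  rw [h2]
  ring

/-- Reindexing a sum over the `i`-element subsets of a finset along an embedding. -/
lemma sum_powersetCard_map {α M : Type*} [AddCommMonoid M] (e : α ↪ α) (s : Finset α) (i : ℕ)
    (G : Finset α → M) :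
    ∑ T ∈ s.powersetCard i, G (T.map e) = ∑ T ∈ (s.map e).powersetCard i, G T := by
  rw [Finset.powersetCard_map, Finset.sum_map]
  rfl

end Algebra

section Fun

variable [SlashInvariantFormClass F 𝒢 k] (ℋ) [𝒢.IsFiniteRelIndex ℋ]

/-- The `i`-th elementary symmetric function of the translates of `f`. -/
def esymmFun (i : ℕ) : ℍ → ℂ :=
  let := Fintype.ofFinite 𝒬
  ∑ T ∈ (Finset.univ : Finset 𝒬).powersetCard i, ∏ q ∈ T, quotientFunc f q

lemma esymmFun_apply (i : ℕ) (τ : ℍ) :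
    esymmFun ℋ f i τ =
      let := Fintype.ofFinite 𝒬
      ∑ T ∈ (Finset.univ : Finset 𝒬).powersetCard i, ∏ q ∈ T, quotientFunc f q τ := by
  simp [esymmFun, Finset.sum_apply, Finset.prod_apply]

/-- Reindexing a sum over the `i`-element subsets of a fintype along a permutation. -/
lemma sum_powersetCard_univ_map {α M : Type*} [Fintype α] [AddCommMonoid M] (e : α ≃ α) (i : ℕ)
    (G : Finset α → M) :
    ∑ T ∈ (Finset.univ : Finset α).powersetCard i, G (T.map e.toEmbedding) =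
      ∑ T ∈ (Finset.univ : Finset α).powersetCard i, G T := by
  conv_rhs => rw [← Finset.map_univ_equiv e, Finset.powersetCard_map, Finset.sum_map]
  rfl

variable [ℋ.HasDetPlusMinusOne]

lemma esymmFun_slash (i : ℕ) {h : GL (Fin 2) ℝ} (hh : h ∈ ℋ) :
    esymmFun ℋ f i ∣[k * i] h = esymmFun ℋ f i := by
  classical
  let := Fintype.ofFinite 𝒬
  unfold esymmFun
  rw [SlashAction.sum_slash]
  rw [← sum_powersetCard_univ_map (MulAction.toPerm ((⟨h, hh⟩ : ℋ)⁻¹)) i
    (fun T => ∏ q ∈ T, quotientFunc f q)]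
  refine Finset.sum_congr rfl fun T hT => ?_
  rw [Finset.mem_powersetCard] at hT
  rw [← hT.2, ModularForm.prod_slash, Finset.prod_map]
  simp [quotientFunc_smul f hh, Subgroup.HasDetPlusMinusOne.abs_det hh,
    -Matrix.GeneralLinearGroup.val_det_apply]

end Fun

section CharPoly

variable [SlashInvariantFormClass F 𝒢 k] (ℋ) [𝒢.IsFiniteRelIndex ℋ]

omit [𝒢.IsFiniteRelIndex ℋ] in
lemma quotientFunc_one (τ : ℍ) : quotientFunc f ((1 : ℋ) : 𝒬) τ = f τ := by
  have h := quotientFunc_mk (𝒢 := 𝒢) (ℋ := ℋ) f (1 : ℋ)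
  have h' : quotientFunc f ((1 : ℋ) : 𝒬) = (f : ℍ → ℂ) ∣[k] ((1 : ℋ) : GL (Fin 2) ℝ)⁻¹ := h
  rw [h']
  simp

/-- **Vieta**: the product of the `x - f_q(τ)` over the translates `f_q` of `f`, in terms of the
elementary symmetric functions. -/
theorem prod_sub_quotientFunc (τ : ℍ) (x : ℂ) :
    (letI := Fintype.ofFinite 𝒬; ∏ q : 𝒬, (x - quotientFunc f q τ)) =
      ∑ i ∈ Finset.range (Nat.card 𝒬 + 1),
        (-1) ^ i * (esymmFun ℋ f i τ * x ^ (Nat.card 𝒬 - i)) := by
  let := Fintype.ofFinite 𝒬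
  rw [prod_sub_eq_sum_esymm, Finset.card_univ, Nat.card_eq_fintype_card]
  simp only [esymmFun_apply]

/-- **Characteristic polynomial**: `f` is a root of the monic polynomial whose coefficients are
(up to sign) the elementary symmetric functions of its translates. -/
theorem charpoly_self (τ : ℍ) :
    ∑ i ∈ Finset.range (Nat.card 𝒬 + 1),
      (-1) ^ i * (esymmFun ℋ f i τ * f τ ^ (Nat.card 𝒬 - i)) = 0 := by
  let := Fintype.ofFinite 𝒬
  rw [← prod_sub_quotientFunc]
  exact Finset.prod_eq_zero (Finset.mem_univ ((1 : ℋ) : 𝒬))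
    (by rw [quotientFunc_one, sub_self])

lemma esymmFun_zero (τ : ℍ) : esymmFun ℋ f 0 τ = 1 := by
  simp [esymmFun_apply]

end CharPoly

section Forms

variable (ℋ) [𝒢.IsFiniteRelIndex ℋ] [ℋ.HasDetPlusMinusOne]

/-- The `i`-th elementary symmetric function of the translates of a slash-invariant form, as a
slash-invariant form. -/
def esymmSIF [SlashInvariantFormClass F 𝒢 k] (i : ℕ) : SlashInvariantForm ℋ (k * i) where
  toFun := esymmFun ℋ f i
  slash_action_eq' _ hh := esymmFun_slash ℋ f i hh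

@[simp] lemma coe_esymmSIF [SlashInvariantFormClass F 𝒢 k] (i : ℕ) :
    ⇑(esymmSIF ℋ f i) = esymmFun ℋ f i := rfl

omit [ℋ.HasDetPlusMinusOne] in
lemma slash_prod_isBoundedAtImInfty [ModularFormClass F 𝒢 k] {c : OnePoint ℝ} (hc : IsCusp c ℋ)
    (γ : GL (Fin 2) ℝ) (hγ : γ • OnePoint.infty = c) (T : Finset 𝒬) :
    IsBoundedAtImInfty ((∏ q ∈ T, quotientFunc f q) ∣[k * (T.card : ℤ)] γ) := by
  subst hγ
  rw [IsBoundedAtImInfty, Filter.BoundedAtFilter, ModularForm.prod_slash]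
  apply Asymptotics.IsBigO.const_smul_left
  rw [show (1 : ℍ → ℝ) = (fun x ↦ ∏ _i ∈ T, (1 : ℝ)) by ext; simp, Finset.prod_fn]
  refine .finsetProd (Quotient.forall.mpr fun ⟨r, hr⟩ _ ↦
    (ModularForm.translate f _).bdd_at_cusps' ?_ γ rfl)
  simpa using hc.of_isFiniteRelIndex_conj hr

/-- The `i`-th elementary symmetric function of the translates of a modular form, as a modular
form. -/
def esymmForm [ModularFormClass F 𝒢 k] (i : ℕ) : ModularForm ℋ (k * i) where
  __ := esymmSIF ℋ f i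
  holo' := by
    let := Fintype.ofFinite 𝒬
    exact .sum fun T _ => .prod (Quotient.forall.mpr fun ⟨r, hr⟩ _ ↦
      (ModularForm.translate f r⁻¹).holo')
  bdd_at_cusps' {c} hc γ hγ := by
    let := Fintype.ofFinite 𝒬
    change IsBoundedAtImInfty (esymmFun ℋ f i ∣[k * (i : ℤ)] γ)
    unfold esymmFun
    rw [SlashAction.sum_slash, IsBoundedAtImInfty, Filter.BoundedAtFilter]
    refine Asymptotics.IsBigO.sum fun T hT => ?_
    rw [Finset.mem_powersetCard] at hT
    have := slash_prod_isBoundedAtImInfty ℋ f hc γ hγ T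
    rwa [hT.2] at this

@[simp] lemma coe_esymmForm [ModularFormClass F 𝒢 k] (i : ℕ) :
    ⇑(esymmForm ℋ f i) = esymmFun ℋ f i := rfl

omit [ℋ.HasDetPlusMinusOne] in
lemma slash_prod_isZeroAtImInfty [CuspFormClass F 𝒢 k] {c : OnePoint ℝ} (hc : IsCusp c ℋ)
    (γ : GL (Fin 2) ℝ) (hγ : γ • OnePoint.infty = c) (T : Finset 𝒬) (hT : T.Nonempty) :
    IsZeroAtImInfty ((∏ q ∈ T, quotientFunc f q) ∣[k * (T.card : ℤ)] γ) := by
  subst hγ
  rw [IsZeroAtImInfty, Filter.ZeroAtFilter, ModularForm.prod_slash]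
  have h1 : ∀ q ∈ T, Filter.Tendsto (quotientFunc f q ∣[k] γ) atImInfty (𝓝 0) :=
    Quotient.forall.mpr fun ⟨r, hr⟩ _ ↦
      (CuspForm.translate f _).zero_at_cusps' (by simpa using hc.of_isFiniteRelIndex_conj hr) γ rfl
  have h2 : Filter.Tendsto (fun τ => ∏ q ∈ T, (quotientFunc f q ∣[k] γ) τ) atImInfty
      (𝓝 (∏ _q ∈ T, (0 : ℂ))) := tendsto_finsetProd _ h1
  rw [Finset.prod_const, zero_pow (Finset.card_ne_zero.mpr hT)] at h2
  have h3 := h2.const_smul (|γ.det.val| ^ ((T.card : ℤ) - 1))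
  rw [smul_zero] at h3
  convert h3 using 1
  ext τ
  simp [Finset.prod_apply]

/-- The `i`-th elementary symmetric function (`0 < i`) of the translates of a cusp form, as a
cusp form. -/
def esymmCusp [CuspFormClass F 𝒢 k] (i : ℕ) (hi : 0 < i) : CuspForm ℋ (k * i) where
  __ := esymmForm ℋ f i
  zero_at_cusps' {c} hc γ hγ := by
    let := Fintype.ofFinite 𝒬
    change IsZeroAtImInfty (esymmFun ℋ f i ∣[k * (i : ℤ)] γ)
    unfold esymmFun
    rw [SlashAction.sum_slash, IsZeroAtImInfty, Filter.ZeroAtFilter, Finset.sum_fn]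
    rw [show (0 : ℂ) = ∑ _T ∈ (Finset.univ : Finset 𝒬).powersetCard i, (0 : ℂ) by simp]
    refine tendsto_finsetSum _ fun T hT => ?_
    rw [Finset.mem_powersetCard] at hT
    have hne : T.Nonempty := Finset.card_pos.mp (by omega)
    have := slash_prod_isZeroAtImInfty ℋ f hc γ hγ T hne
    rwa [hT.2] at this

@[simp] lemma coe_esymmCusp [CuspFormClass F 𝒢 k] (i : ℕ) (hi : 0 < i) :
    ⇑(esymmCusp ℋ f i hi) = esymmFun ℋ f i := rfl

end Forms

section Lagrange

variable {K : ℤ} {Θ : Type*} [FunLike Θ ℍ ℂ] (θ : Θ)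

section Fun

variable [SlashInvariantFormClass F 𝒢 k] [SlashInvariantFormClass Θ 𝒢 K]
  (ℋ) [𝒢.IsFiniteRelIndex ℋ]

open Classical in
/-- `f_q * e_r(θ_{q'} : q' ≠ q)`. -/
def lagTerm (r : ℕ) (q : 𝒬) : ℍ → ℂ :=
  let := Fintype.ofFinite 𝒬
  quotientFunc f q *
    ∑ T ∈ ((Finset.univ : Finset 𝒬).erase q).powersetCard r, ∏ q' ∈ T, quotientFunc θ q'

/-- `∑_q f_q * e_r(θ_{q'} : q' ≠ q)`: up to sign, the coefficients of the Lagrange interpolation
numerator. -/
def lagFun (r : ℕ) : ℍ → ℂ :=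
  let := Fintype.ofFinite 𝒬
  ∑ q : 𝒬, lagTerm ℋ f θ r q

variable [ℋ.HasDetPlusMinusOne]

lemma lagTerm_slash (r : ℕ) (q : 𝒬) {h : GL (Fin 2) ℝ} (hh : h ∈ ℋ) :
    lagTerm ℋ f θ r q ∣[k + K * r] h = lagTerm ℋ f θ r ((⟨h, hh⟩ : ℋ)⁻¹ • q) := by
  classical
  let := Fintype.ofFinite 𝒬
  unfold lagTerm
  have hdet : |h.det.val| = 1 := Subgroup.HasDetPlusMinusOne.abs_det hh
  rw [Finset.mul_sum, SlashAction.sum_slash, Finset.mul_sum]
  have hmap : ((Finset.univ : Finset 𝒬).erase q).map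
      (MulAction.toPerm ((⟨h, hh⟩ : ℋ)⁻¹) : Equiv.Perm 𝒬).toEmbedding =
      (Finset.univ : Finset 𝒬).erase ((⟨h, hh⟩ : ℋ)⁻¹ • q) := by
    rw [Finset.map_erase, Finset.map_univ_equiv]
    rfl
  rw [← hmap, ← sum_powersetCard_map]
  refine Finset.sum_congr rfl fun T hT => ?_
  rw [Finset.mem_powersetCard] at hT
  rw [ModularForm.mul_slash, ← hT.2, ModularForm.prod_slash, Finset.prod_map]
  simp [quotientFunc_smul f hh, quotientFunc_smul θ hh, hdet,
    -Matrix.GeneralLinearGroup.val_det_apply]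

lemma lagFun_slash (r : ℕ) {h : GL (Fin 2) ℝ} (hh : h ∈ ℋ) :
    lagFun ℋ f θ r ∣[k + K * r] h = lagFun ℋ f θ r := by
  let := Fintype.ofFinite 𝒬
  unfold lagFun
  rw [SlashAction.sum_slash]
  simp_rw [lagTerm_slash ℋ f θ r _ hh]
  exact Equiv.sum_comp (MulAction.toPerm ((⟨h, hh⟩ : ℋ)⁻¹) : Equiv.Perm 𝒬) _

end Fun

section Forms

variable (ℋ) [𝒢.IsFiniteRelIndex ℋ] [ℋ.HasDetPlusMinusOne]

omit [𝒢.IsFiniteRelIndex ℋ] [ℋ.HasDetPlusMinusOne] in
lemma mdifferentiable_quotientFunc [ModularFormClass F 𝒢 k] (q : 𝒬) :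
    MDiff (quotientFunc f q) :=
  Quotient.inductionOn q fun ⟨r, _⟩ => (ModularForm.translate f r⁻¹).holo'

omit [ℋ.HasDetPlusMinusOne] in
lemma isBoundedAtImInfty_quotientFunc_slash [ModularFormClass F 𝒢 k] {c : OnePoint ℝ}
    (hc : IsCusp c ℋ) (γ : GL (Fin 2) ℝ) (hγ : γ • OnePoint.infty = c) (q : 𝒬) :
    IsBoundedAtImInfty (quotientFunc f q ∣[k] γ) := by
  subst hγ
  revert q
  exact Quotient.forall.mpr fun ⟨r, hr⟩ ↦
    (ModularForm.translate f _).bdd_at_cusps' (by simpa using hc.of_isFiniteRelIndex_conj hr) γ rfl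

omit [ℋ.HasDetPlusMinusOne] in
lemma isZeroAtImInfty_quotientFunc_slash [CuspFormClass F 𝒢 k] {c : OnePoint ℝ}
    (hc : IsCusp c ℋ) (γ : GL (Fin 2) ℝ) (hγ : γ • OnePoint.infty = c) (q : 𝒬) :
    IsZeroAtImInfty (quotientFunc f q ∣[k] γ) := by
  subst hγ
  revert q
  exact Quotient.forall.mpr fun ⟨r, hr⟩ ↦
    (CuspForm.translate f _).zero_at_cusps' (by simpa using hc.of_isFiniteRelIndex_conj hr) γ rfl

omit [ℋ.HasDetPlusMinusOne] in
/-- The slash of a Lagrange term by an arbitrary matrix. -/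
lemma lagTerm_slash_eq [SlashInvariantFormClass F 𝒢 k] [SlashInvariantFormClass Θ 𝒢 K]
    (r : ℕ) (q : 𝒬) (γ : GL (Fin 2) ℝ) :
    lagTerm ℋ f θ r q ∣[k + K * r] γ =
      (letI := Fintype.ofFinite 𝒬
       open Classical in
       ∑ T ∈ ((Finset.univ : Finset 𝒬).erase q).powersetCard r,
        |γ.det.val| • (quotientFunc f q ∣[k] γ *
          (∏ q' ∈ T, quotientFunc θ q') ∣[K * (T.card : ℤ)] γ)) := by
  classical
  let := Fintype.ofFinite 𝒬
  unfold lagTerm
  rw [Finset.mul_sum, SlashAction.sum_slash]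
  refine Finset.sum_congr rfl fun T hT => ?_
  rw [Finset.mem_powersetCard] at hT
  rw [ModularForm.mul_slash, hT.2]

/-- The Lagrange coefficient functions as modular forms. -/
def lagForm [ModularFormClass F 𝒢 k] [ModularFormClass Θ 𝒢 K] (r : ℕ) :
    ModularForm ℋ (k + K * r) where
  toFun := lagFun ℋ f θ r
  slash_action_eq' _ hh := lagFun_slash ℋ f θ r hh
  holo' := by
    classical
    let := Fintype.ofFinite 𝒬
    exact .sum fun q _ => (mdifferentiable_quotientFunc ℋ f q).mul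
      (.sum fun T _ => .prod fun q' _ => mdifferentiable_quotientFunc ℋ θ q')
  bdd_at_cusps' {c} hc γ hγ := by
    classical
    let := Fintype.ofFinite 𝒬
    change IsBoundedAtImInfty (lagFun ℋ f θ r ∣[k + K * (r : ℤ)] γ)
    unfold lagFun
    rw [SlashAction.sum_slash, IsBoundedAtImInfty, Filter.BoundedAtFilter]
    refine Asymptotics.IsBigO.sum fun q _ => ?_
    rw [lagTerm_slash_eq]
    refine Asymptotics.IsBigO.sum fun T _ => ?_
    exact ((isBoundedAtImInfty_quotientFunc_slash ℋ f hc γ hγ q).mul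
      (slash_prod_isBoundedAtImInfty ℋ θ hc γ hγ T)).smul _

@[simp] lemma coe_lagForm [ModularFormClass F 𝒢 k] [ModularFormClass Θ 𝒢 K] (r : ℕ) :
    ⇑(lagForm ℋ f θ r) = lagFun ℋ f θ r := rfl

/-- The Lagrange coefficient functions as cusp forms, when `f` is a cusp form. -/
def lagCusp [CuspFormClass F 𝒢 k] [ModularFormClass Θ 𝒢 K] (r : ℕ) :
    CuspForm ℋ (k + K * r) where
  __ := lagForm ℋ f θ r
  zero_at_cusps' {c} hc γ hγ := by
    classical
    let := Fintype.ofFinite 𝒬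
    change IsZeroAtImInfty (lagFun ℋ f θ r ∣[k + K * (r : ℤ)] γ)
    unfold lagFun
    rw [SlashAction.sum_slash, IsZeroAtImInfty, Filter.ZeroAtFilter, Finset.sum_fn]
    rw [show (0 : ℂ) = ∑ _q : 𝒬, (0 : ℂ) by simp]
    refine tendsto_finsetSum _ fun q _ => ?_
    rw [lagTerm_slash_eq, Finset.sum_fn]
    rw [show (0 : ℂ) = ∑ _T ∈ ((Finset.univ : Finset 𝒬).erase q).powersetCard r, (0 : ℂ) by simp]
    refine tendsto_finsetSum _ fun T _ => ?_
    exact ((isZeroAtImInfty_quotientFunc_slash ℋ f hc γ hγ q).mul_boundedAtFilter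
      (slash_prod_isBoundedAtImInfty ℋ θ hc γ hγ T)).smul _

@[simp] lemma coe_lagCusp [CuspFormClass F 𝒢 k] [ModularFormClass Θ 𝒢 K] (r : ℕ) :
    ⇑(lagCusp ℋ f θ r) = lagFun ℋ f θ r := rfl

end Forms

section Identity

variable [SlashInvariantFormClass F 𝒢 k] [SlashInvariantFormClass Θ 𝒢 K]
  (ℋ) [𝒢.IsFiniteRelIndex ℋ]

open Classical in
/-- The Lagrange denominator `∏_{q ≠ 1} (θ - θ_q)`. -/
def lagDen : ℍ → ℂ :=
  let := Fintype.ofFinite 𝒬
  ∏ q ∈ (Finset.univ : Finset 𝒬).erase ((1 : ℋ) : 𝒬), ((θ : ℍ → ℂ) - quotientFunc θ q)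

open Classical in
lemma lagDen_apply (τ : ℍ) :
    lagDen ℋ θ τ =
      (letI := Fintype.ofFinite 𝒬
       ∏ q ∈ (Finset.univ : Finset 𝒬).erase ((1 : ℋ) : 𝒬), (θ τ - quotientFunc θ q τ)) := by
  simp [lagDen, Finset.prod_apply]

open Classical in
lemma lagFun_apply (r : ℕ) (τ : ℍ) :
    lagFun ℋ f θ r τ =
      (letI := Fintype.ofFinite 𝒬
       ∑ q : 𝒬, quotientFunc f q τ *
        ∑ T ∈ ((Finset.univ : Finset 𝒬).erase q).powersetCard r, ∏ q' ∈ T, quotientFunc θ q' τ) := by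
  simp [lagFun, lagTerm, Finset.sum_apply, Finset.prod_apply]

/-- **Lagrange interpolation**: `(∏_{q ≠ 1} (θ - θ_q)) * f` is a polynomial in `θ` of degree
`< μ` whose coefficients are (up to sign) the functions `lagFun`. -/
theorem lagrange_identity (τ : ℍ) :
    lagDen ℋ θ τ * f τ =
      ∑ j ∈ Finset.range (Nat.card 𝒬),
        (-1) ^ j * lagFun ℋ f θ j τ * θ τ ^ (Nat.card 𝒬 - 1 - j) := by
  classical
  let := Fintype.ofFinite 𝒬
  have h1 := lagrange_eval (Finset.univ : Finset 𝒬) (fun q => quotientFunc f q τ)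
    (fun q => quotientFunc θ q τ) (Finset.mem_univ ((1 : ℋ) : 𝒬))
  have h2 := lagrange_expand (Finset.univ : Finset 𝒬) (fun q => quotientFunc f q τ)
    (fun q => quotientFunc θ q τ) (quotientFunc θ ((1 : ℋ) : 𝒬) τ)
  rw [h1] at h2
  simp only [quotientFunc_one, Finset.card_univ, ← Nat.card_eq_fintype_card] at h2
  rw [lagDen_apply, mul_comm]
  convert h2 using 3 with j _
  rw [lagFun_apply]

/-- The Lagrange denominator is the derivative of the characteristic polynomial of `θ`,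
evaluated at `θ`. -/
theorem lagDen_eq (τ : ℍ) :
    lagDen ℋ θ τ =
      ∑ i ∈ Finset.range (Nat.card 𝒬),
        (-1) ^ i * ((Nat.card 𝒬 - i : ℕ) : ℂ) * esymmFun ℋ θ i τ * θ τ ^ (Nat.card 𝒬 - 1 - i) := by
  classical
  let := Fintype.ofFinite 𝒬
  have h1 := deriv_eval (Finset.univ : Finset 𝒬) (fun q => quotientFunc θ q τ)
    (Finset.mem_univ ((1 : ℋ) : 𝒬))
  simp only [quotientFunc_one, Finset.card_univ, ← Nat.card_eq_fintype_card] at h1
  rw [lagDen_apply]
  convert h1 using 3 with i _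
  rw [esymmFun_apply]

end Identity

section NeZero

variable [ModularFormClass Θ 𝒢 K] (ℋ) [𝒢.IsFiniteRelIndex ℋ]

/-- The Lagrange denominator does not vanish identically if `θ` is different from all its other
translates. -/
theorem lagDen_ne_zero (h : ∀ q : 𝒬, q ≠ ((1 : ℋ) : 𝒬) → quotientFunc θ q ≠ (θ : ℍ → ℂ)) :
    lagDen ℋ θ ≠ 0 := by
  classical
  let := Fintype.ofFinite 𝒬
  unfold lagDen
  rw [Ne, UpperHalfPlane.prod_eq_zero_iff]
  · rintro ⟨q, hq, h0⟩
    exact h q (Finset.ne_of_mem_erase hq) (sub_eq_zero.mp h0).symm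
  · intro q _
    exact (ModularFormClass.holo θ).sub (mdifferentiable_quotientFunc ℋ θ q)

end NeZero

end Lagrange

end Fermat.Agent.S23.SymmForms
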