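import Fermat.Agent.S23.Lagrange
import Fermat.Agent.S23.CharPoly

/-!
# Lagrange interpolation for `Γ₀(N) ⊆ SL(2, ℤ)` (S23, slice (5), final shape)
-/

set_option autoImplicit false
set_option linter.unusedSectionVars false

noncomputable section

namespace Fermat.Agent.S23.Lagrange

open Polynomial Finset UpperHalfPlane SlashInvariantForm CongruenceSubgroup

open scoped ModularForm Manifold MatrixGroups

section General

variable {𝒢 ℋ : Subgroup (GL (Fin 2) ℝ)} {k w : ℤ}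

local notation "𝒬" => ℋ ⧸ (𝒢.subgroupOf ℋ)

variable [𝒢.IsFiniteRelIndex ℋ]

local instance fintypeQ' : Fintype 𝒬 := Fintype.ofFinite 𝒬

local instance decEqQ' : DecidableEq 𝒬 := Classical.decEq _

/-- Bridge to the `CharPoly` slice: the coefficients of the root polynomial are (up to sign) the
elementary symmetric functions. -/
theorem pc_eq_esymmFun (θ : ModularForm 𝒢 w) (i : ℕ) (hi : i ≤ Nat.card 𝒬) (τ : ℍ) :
    pc ℋ θ i τ = (-1) ^ (Nat.card 𝒬 - i) * CharPoly.esymmFun ℋ θ (Nat.card 𝒬 - i) τ := by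
  have h := CharPoly.prod_X_sub_C_quotientFunc ℋ θ τ
  have h2 : pc ℋ θ i τ = (∏ q : 𝒬, (X - C (quotientFunc θ q τ))).coeff i := rfl
  have hC : ∀ a : ℕ, ((-1 : ℂ[X]) ^ a) = C ((-1 : ℂ) ^ a) := fun a => by simp
  rw [h2, h, finsetSum_coeff, Finset.sum_eq_single (Nat.card 𝒬 - i)]
  · rw [Nat.sub_sub_self hi, hC, ← mul_assoc, ← C_mul, coeff_C_mul_X_pow]
    simp
  · intro j hj hne
    have hj' : j ≤ Nat.card 𝒬 := Nat.lt_succ_iff.mp (Finset.mem_range.mp hj)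
    rw [hC, ← mul_assoc, ← C_mul, coeff_C_mul_X_pow, if_neg]
    omega
  · intro hn
    exact absurd (Finset.mem_range.mpr (by omega)) hn

/-- The coefficients of the root polynomial of `θ` are modular forms for `ℋ`. -/
theorem exists_pcForm [ℋ.HasDetPlusMinusOne] (θ : ModularForm 𝒢 w) (i : ℕ)
    (hi : i ≤ Nat.card 𝒬) :
    ∃ c : ModularForm ℋ (w * ((Nat.card 𝒬 - i : ℕ) : ℤ)), ⇑c = pc ℋ θ i := by
  refine ⟨((-1 : ℝ) ^ (Nat.card 𝒬 - i)) • CharPoly.esymmForm ℋ θ (Nat.card 𝒬 - i), ?_⟩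
  ext τ
  rw [pc_eq_esymmFun θ i hi τ]
  simp

/-- **Lagrange interpolation with a primitive element**, general form: if no non-trivial translate
of `θ` equals `θ`, there is a non-zero modular form `D` for `𝒢` which is a polynomial in `θ` with
coefficients modular forms for `ℋ`, such that for every modular form `f` for `𝒢`, `D * f` is a
polynomial in `θ` with coefficients modular forms for `ℋ`. -/
theorem exists_lagrange_general [𝒢.HasDetOne] [ℋ.HasDetPlusMinusOne] (hle : 𝒢 ≤ ℋ)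
    (θ : ModularForm 𝒢 w) (hθ : ∀ q : 𝒬, q ≠ ⟦1⟧ → quotientFunc θ q ≠ ⇑θ) :
    ∃ D : ModularForm 𝒢 (w * ((Nat.card 𝒬 : ℤ) - 1)), D ≠ 0 ∧
      (∃ d : ∀ i : ℕ, ModularForm ℋ (w * ((Nat.card 𝒬 : ℤ) - 1 - i)),
        ∀ τ, D τ = ∑ i ∈ range (Nat.card 𝒬), d i τ * θ τ ^ i) ∧
      ∀ (k : ℤ) (f : ModularForm 𝒢 k),
        ∃ g : ∀ m : ℕ, ModularForm ℋ (k + w * ((Nat.card 𝒬 : ℤ) - 1 - m)),
          ∀ τ, D τ * f τ = ∑ m ∈ range (Nat.card 𝒬), g m τ * θ τ ^ m := by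
  classical
  -- the coefficients of the root polynomial as modular forms
  have hc : ∀ i, i ≤ Nat.card 𝒬 →
      ∃ c : ModularForm ℋ (w * ((Nat.card 𝒬 - i : ℕ) : ℤ)), ⇑c = pc ℋ θ i :=
    fun i hi => exists_pcForm θ i hi
  let c' : ∀ i : ℕ, ModularForm ℋ (w * ((Nat.card 𝒬 - i : ℕ) : ℤ)) := fun i =>
    if h : i ≤ Nat.card 𝒬 then Classical.choose (hc i h) else 0
  have hc' : ∀ i, i ≤ Nat.card 𝒬 → ⇑(c' i) = pc ℋ θ i := by
    intro i hi
    simp only [c', dif_pos hi]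
    exact Classical.choose_spec (hc i hi)
  obtain ⟨D, hD⟩ := exists_derivForm hle θ (Nat.card 𝒬) c'
  have hDfun : ∀ τ, D τ = Dfun ℋ θ τ := by
    intro τ
    rw [hD, Dfun_eq_sum]
    refine Finset.sum_congr rfl fun i hi => ?_
    rw [hc' i (Nat.lt_succ_iff.mp (Finset.mem_range.mp hi))]
  refine ⟨D, ?_, ?_, ?_⟩
  · intro h0
    apply Dfun_ne_zero θ hθ
    ext τ
    rw [← hDfun, h0]
    rfl
  · have hw : ∀ i : ℕ, i + 1 ≤ Nat.card 𝒬 →
        w * ((Nat.card 𝒬 - (i + 1) : ℕ) : ℤ) = w * ((Nat.card 𝒬 : ℤ) - 1 - i) := by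
      intro i hi
      rw [Nat.cast_sub hi]
      push_cast
      ring
    refine ⟨fun i => if h : i + 1 ≤ Nat.card 𝒬 then
      ModularForm.mcast (hw i h) (((i + 1 : ℕ) : ℝ) • c' (i + 1)) else 0, ?_⟩
    intro τ
    rw [hD, Finset.sum_range_succ']
    simp only [Nat.cast_zero, zero_mul, add_zero]
    refine Finset.sum_congr rfl fun i hi => ?_
    have h : i + 1 ≤ Nat.card 𝒬 := Nat.succ_le_of_lt (Finset.mem_range.mp hi)
    rw [dif_pos h, ModularForm.coe_mcast]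
    simp
  · intro k f
    choose g hg using exists_gForm f θ hc
    refine ⟨g, fun τ => ?_⟩
    rw [hDfun, lagrange_identity_fun]
    refine Finset.sum_congr rfl fun m _ => ?_
    rw [hg]

end General

/-! ### The case `Γ₀(N) ⊆ SL(2, ℤ)` -/

section Gamma0

variable {N : ℕ} [NeZero N]

theorem Gamma0_le_SL : (Gamma0 N : Subgroup (GL (Fin 2) ℝ)) ≤ 𝒮ℒ :=
  Subgroup.map_le_range (Matrix.SpecialLinearGroup.mapGL ℝ) (Gamma0 N)

/-- Translate the hypothesis "no `γ ∈ SL(2, ℤ) \ Γ₀(N)` fixes `θ`" to the coset space. -/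
theorem quotientFunc_ne_of_SL {w : ℤ} (θ : ModularForm (Gamma0 N : Subgroup (GL (Fin 2) ℝ)) w)
    (hθ : ∀ γ : SL(2, ℤ), γ ∉ Gamma0 N → (⇑θ) ∣[w] γ ≠ ⇑θ) :
    ∀ q : 𝒮ℒ ⧸ ((Gamma0 N : Subgroup (GL (Fin 2) ℝ)).subgroupOf 𝒮ℒ),
      q ≠ ⟦1⟧ → quotientFunc θ q ≠ ⇑θ := by
  intro q
  induction q using Quotient.inductionOn with
  | h r =>
    intro hq
    obtain ⟨r, γ, rfl⟩ := r
    rw [quotientFunc_mk]
    have hq' : ¬ ((⟨Matrix.SpecialLinearGroup.mapGL ℝ γ, γ, rfl⟩ : 𝒮ℒ) : 𝒮ℒ ⧸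
        ((Gamma0 N : Subgroup (GL (Fin 2) ℝ)).subgroupOf 𝒮ℒ)) = ((1 : 𝒮ℒ) : 𝒮ℒ ⧸ _) := hq
    rw [QuotientGroup.eq, mul_one, Subgroup.mem_subgroupOf] at hq'
    have hγ : γ⁻¹ ∉ Gamma0 N := by
      intro h
      apply hq'
      exact ⟨γ⁻¹, h, by simp⟩
    have := hθ γ⁻¹ hγ
    rwa [ModularForm.SL_slash, map_inv] at this

/-- `F` is a polynomial in `θ` whose `m`-th coefficient is a level one modular form of weight
`K - 12 * m`. -/
def IsLevelOnePoly (θ : ℍ → ℂ) (K : ℤ) (F : ℍ → ℂ) : Prop :=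
  ∃ (n : ℕ) (c : ℕ → ℍ → ℂ), (∀ m < n, ∃ G : ModularForm 𝒮ℒ (K - 12 * m), ⇑G = c m) ∧
    ∀ τ, F τ = ∑ m ∈ Finset.range n, c m τ * θ τ ^ m

/-- **Slice (5)**: Lagrange interpolation with the primitive element `θ` of weight `12`. -/
theorem exists_lagrange (θ : ModularForm (Gamma0 N) 12)
    (hθ : ∀ γ : SL(2, ℤ), γ ∉ Gamma0 N → (⇑θ) ∣[(12 : ℤ)] γ ≠ ⇑θ) :
    ∃ (K : ℤ) (D : ModularForm (Gamma0 N) K), D ≠ 0 ∧ IsLevelOnePoly θ K D ∧
      ∀ (k : ℤ) (f : ModularForm (Gamma0 N) k),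
        IsLevelOnePoly θ (k + K) (fun τ => D τ * f τ) := by
  obtain ⟨D, hD0, ⟨d, hd⟩, hg⟩ := exists_lagrange_general (ℋ := 𝒮ℒ) Gamma0_le_SL θ
    (quotientFunc_ne_of_SL θ hθ)
  refine ⟨_, D, hD0, ?_, ?_⟩
  · refine ⟨_, fun m => ⇑(d m), fun m _ => ?_, hd⟩
    exact ⟨ModularForm.mcast (by ring) (d m), rfl⟩
  · intro k f
    obtain ⟨g, hg⟩ := hg k f
    refine ⟨_, fun m => ⇑(g m), fun m _ => ?_, hg⟩
    exact ⟨ModularForm.mcast (by ring) (g m), rfl⟩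

end Gamma0

end Fermat.Agent.S23.Lagrange
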