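import Mathlib
import Fermat.Prelude.Def_ModularForm_HeckeOperator
import Fermat.Prelude.Thm_CongruenceSubgroup_one_mem_strictPeriods_Gamma0

/-!
# S23, slice (3): the primitive element `θ(z) = N¹¹ Δ(N z)` of level `Γ₀(N)`

We construct `theta N : ModularForm (Gamma0 N) 12` with `theta N τ = N ^ 11 * Δ (N τ)`
(the weight-12 slash of the discriminant by `diag(N, 1)`) and show that its stabiliser in
`SL(2, ℤ)` (for the weight-12 slash action) is exactly `Γ₀(N)`.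
-/

set_option autoImplicit false

open UpperHalfPlane ModularForm CongruenceSubgroup Matrix
open scoped MatrixGroups ModularForm Manifold Pointwise

namespace Fermat.Agent.S23.Theta

/-! ### Hermite normal form of `diag(N, 1) * γ` -/

/-- For `γ ∈ SL(2, ℤ)` the integer matrix `diag(N, 1) * γ` can be written as `γ' * T` with
`γ' ∈ SL(2, ℤ)` and `T = !![g, b; 0, δ]` upper triangular with `g > 0`, `g ∣ γ 1 0`, `g * δ = N`. -/
theorem exists_hermite (N : ℕ) [NeZero N] (γ : SL(2, ℤ)) :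
    ∃ (γ' : SL(2, ℤ)) (g b δ : ℤ), 0 < g ∧ g ∣ γ 1 0 ∧ g * δ = N ∧
      (!![(N : ℤ), 0; 0, 1] * (γ : Matrix (Fin 2) (Fin 2) ℤ) =
        (γ' : Matrix (Fin 2) (Fin 2) ℤ) * !![g, b; 0, δ]) := by
  have hdet : γ 0 0 * γ 1 1 - γ 0 1 * γ 1 0 = 1 := by
    have := γ.det_coe
    rwa [Matrix.det_fin_two] at this
  have hN : (N : ℤ) ≠ 0 := by exact_mod_cast NeZero.ne N
  set a := γ 0 0 with ha
  set b := γ 0 1 with hb
  set c := γ 1 0 with hc
  set d := γ 1 1 with hd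
  -- g = gcd (N a) c
  set g : ℤ := (Int.gcd (N * a) c : ℤ) with hg
  have hg0 : g ≠ 0 := by
    intro h0
    have h0' : Int.gcd (N * a) c = 0 := by
      rw [hg] at h0
      exact_mod_cast h0
    rw [Int.gcd_eq_zero_iff] at h0'
    obtain ⟨h1, h2⟩ := h0'
    have ha0 : a = 0 := by
      rcases mul_eq_zero.1 h1 with h | h
      · exact absurd h hN
      · exact h
    rw [ha0, h2] at hdet
    simp at hdet
  have hgpos : 0 < g := lt_of_le_of_ne (by positivity) (Ne.symm hg0)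
  obtain ⟨A', hA'⟩ : g ∣ N * a := Int.gcd_dvd_left _ _
  obtain ⟨C', hC'⟩ : g ∣ c := Int.gcd_dvd_right _ _
  have hbez : N * a * Int.gcdA (N * a) c + c * Int.gcdB (N * a) c = g := (Int.gcd_eq_gcd_ab _ _).symm
  set x := Int.gcdA (N * a) c with hx
  set y := Int.gcdB (N * a) c with hy
  have hone : A' * x + C' * y = 1 := by
    have : g * (A' * x + C' * y) = g * 1 := by
      rw [mul_one]
      calc g * (A' * x + C' * y) = (g * A') * x + (g * C') * y := by ring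
        _ = N * a * x + c * y := by rw [← hA', ← hC']
        _ = g := hbez
    exact mul_left_cancel₀ hg0 this
  refine ⟨⟨!![A', -y; C', x], ?_⟩, g, x * N * b + y * d, d * A' - N * b * C', hgpos, ⟨C', hC'⟩, ?_, ?_⟩
  · rw [Matrix.det_fin_two_of]
    linear_combination hone
  · calc g * (d * A' - N * b * C') = d * (g * A') - N * b * (g * C') := by ring
      _ = d * (N * a) - N * b * c := by rw [← hA', ← hC']
      _ = N := by linear_combination (N : ℤ) * hdet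
  · ext i j
    fin_cases i <;> fin_cases j
    · simp [Matrix.mul_apply, Fin.sum_univ_two]
      rw [← ha]; linear_combination hA'
    · simp [Matrix.mul_apply, Fin.sum_univ_two]
      rw [← hb]
      linear_combination (-(N : ℤ) * b) * hone
    · simp [Matrix.mul_apply, Fin.sum_univ_two]
      rw [← hc]; linear_combination hC'
    · simp [Matrix.mul_apply, Fin.sum_univ_two]
      rw [← hd]
      linear_combination (-d) * hone

/-! ### The matrices `diag(N, 1)` and upper triangular matrices in `GL(2, ℝ)` -/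

/-- `diag(N, 1)` as an element of `GL(2, ℝ)`. -/
noncomputable def alpha (N : ℕ) : GL (Fin 2) ℝ := ModularForm.heckeDiagMatrix N

theorem val_alpha (N : ℕ) [NeZero N] :
    ((alpha N : GL (Fin 2) ℝ) : Matrix (Fin 2) (Fin 2) ℝ) = !![(N : ℝ), 0; 0, 1] :=
  ModularForm.val_heckeDiagMatrix (NeZero.ne N)

/-- Transport of an integer matrix identity `diag(N,1) * γ = γ' * T` to `GL(2, ℝ)`. -/
theorem alpha_mul_mapGL (N : ℕ) [NeZero N] (γ γ' : SL(2, ℤ)) (g b δ : ℤ)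
    (hgd : (g : ℝ) * (δ : ℝ) ≠ 0)
    (h : !![(N : ℤ), 0; 0, 1] * (γ : Matrix (Fin 2) (Fin 2) ℤ) =
        (γ' : Matrix (Fin 2) (Fin 2) ℤ) * !![g, b; 0, δ]) :
    alpha N * (Matrix.SpecialLinearGroup.mapGL ℝ γ) =
      (Matrix.SpecialLinearGroup.mapGL ℝ γ') * ModularForm.upperTriangularGL g b δ hgd := by
  apply Matrix.GeneralLinearGroup.ext
  intro i j
  have h' := congrArg (fun M : Matrix (Fin 2) (Fin 2) ℤ => ((M i j : ℤ) : ℝ)) h
  simp only [Matrix.mul_apply, Fin.sum_univ_two] at h'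
  rw [Matrix.GeneralLinearGroup.coe_mul, Matrix.GeneralLinearGroup.coe_mul, val_alpha,
    ModularForm.val_upperTriangularGL, Matrix.mul_apply, Matrix.mul_apply, Fin.sum_univ_two,
    Fin.sum_univ_two]
  simp only [Matrix.SpecialLinearGroup.mapGL_coe_matrix, Matrix.SpecialLinearGroup.map_apply_coe,
    RingHom.mapMatrix_apply, Matrix.map_apply, algebraMap_int_eq, Int.coe_castRingHom]
  fin_cases i <;> fin_cases j <;> simp at h' ⊢ <;> exact_mod_cast h'

/-! ### The function `θ` and its invariance under `Γ₀(N)` -/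

local notation "Δ" => ModularForm.discriminant

/-- `θ = Δ ∣[12] diag(N, 1)`, i.e. `θ(τ) = N ^ 11 * Δ(N τ)`. -/
noncomputable def thetaFun (N : ℕ) : ℍ → ℂ := (Δ : ℍ → ℂ) ∣[(12 : ℤ)] alpha N

theorem thetaFun_apply (N : ℕ) [NeZero N] (τ : ℍ) :
    thetaFun N τ = (N : ℂ) ^ (11 : ℤ) * Δ (alpha N • τ) := by
  have h := ModularForm.slash_heckeDiagMatrix_apply 12 (NeZero.ne N) (Δ : ℍ → ℂ) τ
  norm_num at h
  exact h

theorem discriminant_slash_mapGL (γ : SL(2, ℤ)) :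
    (Δ : ℍ → ℂ) ∣[(12 : ℤ)] (Matrix.SpecialLinearGroup.mapGL ℝ γ) = Δ :=
  CuspForm.discriminant.slash_action_eq' _ ⟨γ, rfl⟩

/-- The slash of `θ` by `γ ∈ SL(2, ℤ)` in terms of the Hermite normal form of `diag(N,1) γ`. -/
theorem thetaFun_slash_of_hermite (N : ℕ) [NeZero N] (γ γ' : SL(2, ℤ)) (g b δ : ℤ)
    (hgd : (g : ℝ) * (δ : ℝ) ≠ 0)
    (h : !![(N : ℤ), 0; 0, 1] * (γ : Matrix (Fin 2) (Fin 2) ℤ) =
        (γ' : Matrix (Fin 2) (Fin 2) ℤ) * !![g, b; 0, δ]) :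
    thetaFun N ∣[(12 : ℤ)] (Matrix.SpecialLinearGroup.mapGL ℝ γ) =
      (Δ : ℍ → ℂ) ∣[(12 : ℤ)] ModularForm.upperTriangularGL g b δ hgd := by
  rw [thetaFun, ← SlashAction.slash_mul, alpha_mul_mapGL N γ γ' g b δ hgd h,
    SlashAction.slash_mul, discriminant_slash_mapGL]

theorem upperTriangularGL_eq_alpha (N : ℕ) [NeZero N] (h : ((N : ℤ) : ℝ) * ((1 : ℤ) : ℝ) ≠ 0) :
    ModularForm.upperTriangularGL ((N : ℤ) : ℝ) ((0 : ℤ) : ℝ) ((1 : ℤ) : ℝ) h = alpha N := by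
  apply Matrix.GeneralLinearGroup.ext
  intro i j
  rw [val_alpha, ModularForm.val_upperTriangularGL]
  fin_cases i <;> fin_cases j <;> simp

/-- For `γ ∈ Γ₀(N)` we have `diag(N,1) γ = γ'' diag(N,1)` with `γ'' ∈ SL(2, ℤ)`. -/
theorem exists_conj_of_mem_Gamma0 (N : ℕ) [NeZero N] {γ : SL(2, ℤ)} (hγ : γ ∈ Gamma0 N) :
    ∃ γ'' : SL(2, ℤ), alpha N * Matrix.SpecialLinearGroup.mapGL ℝ γ =
      Matrix.SpecialLinearGroup.mapGL ℝ γ'' * alpha N := by
  rw [Gamma0_mem, ZMod.intCast_zmod_eq_zero_iff_dvd] at hγ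
  obtain ⟨c', hc'⟩ := hγ
  have hdet : γ 0 0 * γ 1 1 - γ 0 1 * γ 1 0 = 1 := by
    have := γ.det_coe
    rwa [Matrix.det_fin_two] at this
  have hne : ((N : ℤ) : ℝ) * ((1 : ℤ) : ℝ) ≠ 0 := by
    have : (N : ℝ) ≠ 0 := by exact_mod_cast NeZero.ne N
    simpa using this
  refine ⟨⟨!![γ 0 0, N * γ 0 1; c', γ 1 1], ?_⟩, ?_⟩
  · rw [Matrix.det_fin_two_of]
    rw [hc'] at hdet
    linear_combination hdet
  · have key := alpha_mul_mapGL N γ ⟨!![γ 0 0, N * γ 0 1; c', γ 1 1], by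
      rw [Matrix.det_fin_two_of]
      rw [hc'] at hdet
      linear_combination hdet⟩ N 0 1 hne
    rw [upperTriangularGL_eq_alpha N hne] at key
    refine key ?_
    ext i j
    fin_cases i <;> fin_cases j <;> simp [Matrix.mul_apply, Fin.sum_univ_two]
    · ring
    · rw [hc']; ring

theorem thetaFun_slash_of_mem_Gamma0 (N : ℕ) [NeZero N] {γ : SL(2, ℤ)} (hγ : γ ∈ Gamma0 N) :
    thetaFun N ∣[(12 : ℤ)] (Matrix.SpecialLinearGroup.mapGL ℝ γ) = thetaFun N := by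
  obtain ⟨γ'', h⟩ := exists_conj_of_mem_Gamma0 N hγ
  rw [thetaFun, ← SlashAction.slash_mul, h, SlashAction.slash_mul, discriminant_slash_mapGL]

open ConjAct in
theorem Gamma0_le_conj (N : ℕ) [NeZero N] :
    ((Gamma0 N : Subgroup SL(2, ℤ)) : Subgroup (GL (Fin 2) ℝ)) ≤
      toConjAct (alpha N)⁻¹ • 𝒮ℒ := by
  rintro x ⟨γ, hγ, rfl⟩
  rw [Subgroup.mem_pointwise_smul_iff_inv_smul_mem]
  obtain ⟨γ'', h⟩ := exists_conj_of_mem_Gamma0 N hγ
  refine ⟨γ'', ?_⟩
  rw [← map_inv, inv_inv, ConjAct.smul_def, ConjAct.ofConjAct_toConjAct, h]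
  group

/-- `θ` as a modular form for the conjugate of `SL(2, ℤ)` by `diag(N, 1)`. -/
noncomputable def thetaAux (N : ℕ) :
    ModularForm (ConjAct.toConjAct (alpha N)⁻¹ • 𝒮ℒ) 12 :=
  ModularForm.translate CuspForm.discriminant (alpha N)

theorem coe_thetaAux (N : ℕ) : (thetaAux N : ℍ → ℂ) = thetaFun N := rfl

/-- The modular form `θ(τ) = N ^ 11 * Δ(N τ)` of weight `12` and level `Γ₀(N)`. -/
noncomputable def theta (N : ℕ) [NeZero N] : ModularForm (Gamma0 N) 12 where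
  toFun := thetaFun N
  slash_action_eq' := by
    rintro x ⟨γ, hγ, rfl⟩
    exact thetaFun_slash_of_mem_Gamma0 N hγ
  holo' := (thetaAux N).holo'
  bdd_at_cusps' hc := (thetaAux N).bdd_at_cusps' (hc.mono (Gamma0_le_conj N))

@[simp] theorem coe_theta (N : ℕ) [NeZero N] : (theta N : ℍ → ℂ) = thetaFun N := rfl

theorem theta_apply (N : ℕ) [NeZero N] (τ : ℍ) :
    theta N τ = (N : ℂ) ^ (11 : ℤ) * Δ (alpha N • τ) :=
  thetaFun_apply N τ

/-! ### Growth comparison -/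

/-- Abstract growth comparison: if `f` is of exact exponential order `exp (-2π im τ)` at `i∞`
and `‖f (φ τ)‖ = K * ‖f (ψ τ)‖` where `φ`, `ψ` scale imaginary parts by `r`, `s > 0`, then
`s ≤ r`. -/
theorem le_of_growth {f : ℍ → ℂ}
    (h1 : (fun τ : ℍ ↦ Real.exp (-2 * Real.pi * τ.im)) =O[atImInfty] f)
    (h2 : f =O[atImInfty] (fun τ : ℍ ↦ Real.exp (-2 * Real.pi * τ.im)))
    {φ ψ : ℍ → ℍ} {r s K : ℝ} (hr : 0 < r) (hs : 0 < s)
    (hφ : ∀ τ : ℍ, (φ τ).im = r * τ.im) (hψ : ∀ τ : ℍ, (ψ τ).im = s * τ.im)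
    (hK : ∀ τ : ℍ, ‖f (φ τ)‖ = K * ‖f (ψ τ)‖) : s ≤ r := by
  obtain ⟨c1, hc1⟩ := h1.bound
  obtain ⟨c2, hc2⟩ := h2.bound
  rw [Filter.Eventually, atImInfty_mem] at hc1 hc2
  obtain ⟨A1, hA1⟩ := hc1
  obtain ⟨A2, hA2⟩ := hc2
  by_contra hlt
  replace hlt : r < s := not_le.1 hlt
  -- for all large y we get exp (2π (s - r) y) ≤ C
  have hK0 : 0 ≤ K := by
    by_contra hneg
    replace hneg : K < 0 := not_le.1 hneg
    -- take a point where f (ψ τ) ≠ 0
    set y0 : ℝ := max (max (A1 / s) 1) 1 with hy0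
    have hy0pos : 0 < y0 := lt_of_lt_of_le one_pos (le_max_right _ _)
    let τ : ℍ := ⟨Complex.I * y0, by simpa using hy0pos⟩
    have him : τ.im = y0 := by simp [τ, UpperHalfPlane.im]
    have hge : A1 ≤ (ψ τ).im := by
      rw [hψ, him]
      have : A1 / s ≤ y0 := le_trans (le_max_left _ _) (le_max_left _ _)
      calc A1 = s * (A1 / s) := by field_simp
        _ ≤ s * y0 := by gcongr
    have hpos := hA1 (ψ τ) hge
    simp only [Set.mem_ofPred_eq, Real.norm_eq_abs, abs_of_pos (Real.exp_pos _)] at hpos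
    have hfpos : 0 < ‖f (ψ τ)‖ := by
      by_contra h0
      have h0' : ‖f (ψ τ)‖ = 0 := le_antisymm (not_lt.1 h0) (norm_nonneg _)
      rw [h0', mul_zero] at hpos
      exact absurd hpos (not_le.2 (Real.exp_pos _))
    have := hK τ
    have hnn : 0 ≤ ‖f (φ τ)‖ := norm_nonneg _
    rw [this] at hnn
    nlinarith
  have hbound : ∀ y : ℝ, max (max (A1 / r) (A2 / s)) 1 ≤ y →
      Real.exp (2 * Real.pi * (s - r) * y) ≤ c1 * K * c2 := by
    intro y hy
    have hypos : 0 < y := lt_of_lt_of_le one_pos (le_trans (le_max_right _ _) hy)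
    let τ : ℍ := ⟨Complex.I * y, by simpa using hypos⟩
    have him : τ.im = y := by simp [τ, UpperHalfPlane.im]
    have hge1 : A1 ≤ (φ τ).im := by
      rw [hφ, him]
      have : A1 / r ≤ y := le_trans (le_trans (le_max_left _ _) (le_max_left _ _)) hy
      calc A1 = r * (A1 / r) := by field_simp
        _ ≤ r * y := by gcongr
    have hge2 : A2 ≤ (ψ τ).im := by
      rw [hψ, him]
      have : A2 / s ≤ y := le_trans (le_trans (le_max_right _ _) (le_max_left _ _)) hy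
      calc A2 = s * (A2 / s) := by field_simp
        _ ≤ s * y := by gcongr
    have e1 := hA1 (φ τ) hge1
    have e2 := hA2 (ψ τ) hge2
    simp only [Set.mem_ofPred_eq, Real.norm_eq_abs, abs_of_pos (Real.exp_pos _)] at e1 e2
    rw [hφ, him] at e1
    rw [hψ, him] at e2
    rw [hK τ] at e1
    have hc1 : 0 ≤ c1 := by
      by_contra hneg
      replace hneg : c1 < 0 := not_le.1 hneg
      have : c1 * (K * ‖f (ψ τ)‖) ≤ 0 :=
        mul_nonpos_of_nonpos_of_nonneg hneg.le (mul_nonneg hK0 (norm_nonneg _))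
      exact absurd (lt_of_lt_of_le (Real.exp_pos _) e1) (not_lt.2 this)
    have e3 : Real.exp (-2 * Real.pi * (r * y)) ≤
        c1 * K * c2 * Real.exp (-2 * Real.pi * (s * y)) := by
      calc Real.exp (-2 * Real.pi * (r * y)) ≤ c1 * (K * ‖f (ψ τ)‖) := e1
        _ ≤ c1 * (K * (c2 * Real.exp (-2 * Real.pi * (s * y)))) := by gcongr
        _ = c1 * K * c2 * Real.exp (-2 * Real.pi * (s * y)) := by ring
    have e4 : Real.exp (2 * Real.pi * (s - r) * y) =
        Real.exp (-2 * Real.pi * (r * y)) * Real.exp (2 * Real.pi * (s * y)) := by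
      rw [← Real.exp_add]; congr 1; ring
    rw [e4]
    calc Real.exp (-2 * Real.pi * (r * y)) * Real.exp (2 * Real.pi * (s * y))
        ≤ (c1 * K * c2 * Real.exp (-2 * Real.pi * (s * y))) * Real.exp (2 * Real.pi * (s * y)) := by
          gcongr
      _ = c1 * K * c2 * (Real.exp (-2 * Real.pi * (s * y)) * Real.exp (2 * Real.pi * (s * y))) := by
          ring
      _ = c1 * K * c2 := by
          rw [← Real.exp_add]
          have : -2 * Real.pi * (s * y) + 2 * Real.pi * (s * y) = 0 := by ring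
          rw [this, Real.exp_zero, mul_one]
  -- contradiction: the exponential is unbounded
  set C := c1 * K * c2 with hC
  set Y := max (max (A1 / r) (A2 / s)) 1 with hY
  have hpos : 0 < 2 * Real.pi * (s - r) := by
    have := Real.pi_pos
    have : 0 < s - r := sub_pos.2 hlt
    positivity
  set y := max Y (|C| / (2 * Real.pi * (s - r)) + 1) with hy
  have h1' := hbound y (le_max_left _ _)
  have h2' : 2 * Real.pi * (s - r) * y + 1 ≤ Real.exp (2 * Real.pi * (s - r) * y) :=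
    Real.add_one_le_exp _
  have h3' : |C| / (2 * Real.pi * (s - r)) + 1 ≤ y := le_max_right _ _
  have h4' : |C| + 2 * Real.pi * (s - r) ≤ 2 * Real.pi * (s - r) * y := by
    calc |C| + 2 * Real.pi * (s - r)
        = 2 * Real.pi * (s - r) * (|C| / (2 * Real.pi * (s - r)) + 1) := by
          rw [mul_add, mul_div_cancel₀ _ hpos.ne', mul_one]
      _ ≤ 2 * Real.pi * (s - r) * y := by gcongr
  have h5' : C ≤ |C| := le_abs_self _
  linarith

/-! ### Slash by upper triangular matrices: norms and imaginary parts -/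

theorem det_upperTriangularGL (a b d : ℝ) (had : a * d ≠ 0) :
    ((ModularForm.upperTriangularGL a b d had).det : ℝ) = a * d := by
  rw [Matrix.GeneralLinearGroup.val_det_apply, ModularForm.val_upperTriangularGL,
    Matrix.det_fin_two_of]
  ring

theorem denom_upperTriangularGL (a b d : ℝ) (had : a * d ≠ 0) (τ : ℍ) :
    UpperHalfPlane.denom (ModularForm.upperTriangularGL a b d had) τ = d := by
  simp [UpperHalfPlane.denom, ModularForm.val_upperTriangularGL]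

theorem norm_slash_upperTriangularGL (k : ℤ) (a b d : ℝ) (had : a * d ≠ 0) (f : ℍ → ℂ)
    (τ : ℍ) :
    ‖(f ∣[k] ModularForm.upperTriangularGL a b d had) τ‖ =
      ‖f (ModularForm.upperTriangularGL a b d had • τ)‖ * (|a * d| ^ (k - 1) * |d| ^ (-k)) := by
  rw [ModularForm.slash_apply, norm_mul, norm_mul, UpperHalfPlane.norm_σ, norm_zpow, norm_zpow,
    det_upperTriangularGL, denom_upperTriangularGL, Complex.norm_real, Complex.norm_real,
    Real.norm_eq_abs, Real.norm_eq_abs, abs_abs, mul_assoc]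

theorem im_upperTriangularGL_smul (a b d : ℝ) (had : a * d ≠ 0) (τ : ℍ) :
    (ModularForm.upperTriangularGL a b d had • τ).im = |a * d| * τ.im / d ^ 2 := by
  rw [UpperHalfPlane.im_smul_eq_div_normSq, det_upperTriangularGL, denom_upperTriangularGL,
    Complex.normSq_ofReal, sq]

/-! ### The stabiliser of `θ` -/

theorem discriminant_isBigO_exp :
    (Δ : ℍ → ℂ) =O[atImInfty] (fun τ : ℍ ↦ Real.exp (-2 * Real.pi * τ.im)) := by
  have h := CuspFormClass.exp_decay_atImInfty (h := 1) CuspForm.discriminant one_pos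
    one_mem_strictPeriods_SL
  simpa using h

/-- If `θ ∣[12] γ = θ` for `γ ∈ SL(2, ℤ)`, then `γ ∈ Γ₀(N)`. -/
theorem mem_Gamma0_of_thetaFun_slash_eq (N : ℕ) [NeZero N] (γ : SL(2, ℤ))
    (h : thetaFun N ∣[(12 : ℤ)] (Matrix.SpecialLinearGroup.mapGL ℝ γ) = thetaFun N) :
    γ ∈ Gamma0 N := by
  obtain ⟨γ', g, b, δ, hg, hgc, hgδ, hmat⟩ := exists_hermite N γ
  have hNpos : (0 : ℤ) < N := by exact_mod_cast Nat.pos_of_ne_zero (NeZero.ne N)
  have hδ : 0 < δ := by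
    by_contra hneg
    have hδ0 : δ ≤ 0 := not_lt.1 hneg
    have : g * δ ≤ 0 := mul_nonpos_of_nonneg_of_nonpos hg.le hδ0
    omega
  have hgR : (0 : ℝ) < g := by exact_mod_cast hg
  have hδR : (0 : ℝ) < δ := by exact_mod_cast hδ
  have hNR : (0 : ℝ) < N := by exact_mod_cast hNpos
  have hgδR : (g : ℝ) * δ = N := by exact_mod_cast hgδ
  have hgd : (g : ℝ) * (δ : ℝ) ≠ 0 := (mul_pos hgR hδR).ne'
  have hne : ((N : ℤ) : ℝ) * ((1 : ℤ) : ℝ) ≠ 0 := by
    have : (N : ℝ) ≠ 0 := hNR.ne'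
    simpa using this
  have e1 := thetaFun_slash_of_hermite N γ γ' g b δ hgd hmat
  rw [h] at e1
  -- `e1 : θ = Δ ∣ T`; rewrite `θ = Δ ∣ A` with `A` upper triangular
  have e2 : thetaFun N = (Δ : ℍ → ℂ) ∣[(12 : ℤ)]
      ModularForm.upperTriangularGL ((N : ℤ) : ℝ) ((0 : ℤ) : ℝ) ((1 : ℤ) : ℝ) hne := by
    rw [upperTriangularGL_eq_alpha N hne, thetaFun]
  rw [e2] at e1
  set T := ModularForm.upperTriangularGL (g : ℝ) (b : ℝ) (δ : ℝ) hgd with hT
  set A := ModularForm.upperTriangularGL ((N : ℤ) : ℝ) ((0 : ℤ) : ℝ) ((1 : ℤ) : ℝ) hne with hA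
  -- norms
  set cT : ℝ := |(g : ℝ) * δ| ^ ((12 : ℤ) - 1) * |(δ : ℝ)| ^ (-(12 : ℤ)) with hcT
  set cA : ℝ := |((N : ℤ) : ℝ) * ((1 : ℤ) : ℝ)| ^ ((12 : ℤ) - 1) * |((1 : ℤ) : ℝ)| ^ (-(12 : ℤ))
    with hcA
  have hcTpos : 0 < cT := by
    have h1 : 0 < |(g : ℝ) * δ| := abs_pos.2 hgd
    have h2 : 0 < |(δ : ℝ)| := abs_pos.2 hδR.ne'
    positivity
  have hnorm : ∀ τ : ℍ, ‖Δ (T • τ)‖ = (cA / cT) * ‖Δ (A • τ)‖ := by
    intro τ
    have h3 : ‖((Δ : ℍ → ℂ) ∣[(12 : ℤ)] A) τ‖ = ‖((Δ : ℍ → ℂ) ∣[(12 : ℤ)] T) τ‖ := by rw [e1]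
    rw [norm_slash_upperTriangularGL, norm_slash_upperTriangularGL] at h3
    rw [div_mul_eq_mul_div, eq_div_iff hcTpos.ne']
    linarith
  have key := le_of_growth exp_isBigO_discriminant discriminant_isBigO_exp
    (φ := fun τ => T • τ) (ψ := fun τ => A • τ) (r := |(g : ℝ) * δ| / (δ : ℝ) ^ 2)
    (s := |((N : ℤ) : ℝ) * ((1 : ℤ) : ℝ)| / (((1 : ℤ) : ℝ)) ^ 2) (K := cA / cT)
    (by
      have h1 : 0 < |(g : ℝ) * δ| := abs_pos.2 hgd
      positivity)
    (by
      have h1 : 0 < |((N : ℤ) : ℝ) * ((1 : ℤ) : ℝ)| := abs_pos.2 hne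
      positivity)
    (fun τ => by
      rw [im_upperTriangularGL_smul]; ring)
    (fun τ => by
      rw [im_upperTriangularGL_smul]; ring)
    hnorm
  -- `key : N ≤ g δ / δ ^ 2`
  have hkey : (N : ℝ) ≤ (N : ℝ) / (δ : ℝ) ^ 2 := by
    have : |((N : ℤ) : ℝ) * ((1 : ℤ) : ℝ)| / (((1 : ℤ) : ℝ)) ^ 2 = (N : ℝ) := by
      simp
    rw [this, hgδR, abs_of_pos hNR] at key
    exact key
  have hδ2 : (δ : ℝ) ^ 2 ≤ 1 := by
    have hδ2pos : (0 : ℝ) < (δ : ℝ) ^ 2 := by positivity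
    rw [le_div_iff₀ hδ2pos] at hkey
    nlinarith
  have hδ1 : δ = 1 := by
    have h1 : (δ : ℝ) ≤ 1 := by nlinarith
    have h2 : δ ≤ 1 := by exact_mod_cast h1
    omega
  rw [hδ1, mul_one] at hgδ
  rw [Gamma0_mem, ZMod.intCast_zmod_eq_zero_iff_dvd, ← hgδ]
  exact hgc

/-- The stabiliser of `θ` in `SL(2, ℤ)` for the weight-12 slash action is exactly `Γ₀(N)`. -/
theorem theta_slash_eq_iff (N : ℕ) [NeZero N] (γ : SL(2, ℤ)) :
    (theta N : ℍ → ℂ) ∣[(12 : ℤ)] γ = theta N ↔ γ ∈ Gamma0 N := by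
  rw [coe_theta, ModularForm.SL_slash]
  exact ⟨mem_Gamma0_of_thetaFun_slash_eq N γ, thetaFun_slash_of_mem_Gamma0 N⟩

theorem theta_slash_ne (N : ℕ) [NeZero N] {γ : SL(2, ℤ)} (hγ : γ ∉ Gamma0 N) :
    (theta N : ℍ → ℂ) ∣[(12 : ℤ)] γ ≠ theta N :=
  fun h => hγ ((theta_slash_eq_iff N γ).1 h)

/-- Two `SL(2, ℤ)`-translates of `θ` coincide iff the elements lie in the same coset of `Γ₀(N)`. -/
theorem theta_slash_eq_slash_iff (N : ℕ) [NeZero N] (γ₁ γ₂ : SL(2, ℤ)) :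
    (theta N : ℍ → ℂ) ∣[(12 : ℤ)] γ₁ = (theta N : ℍ → ℂ) ∣[(12 : ℤ)] γ₂ ↔
      γ₁ * γ₂⁻¹ ∈ Gamma0 N := by
  rw [← theta_slash_eq_iff]
  constructor
  · intro h
    rw [SlashAction.slash_mul, h, ← SlashAction.slash_mul, mul_inv_cancel, SlashAction.slash_one]
  · intro h
    have h2 : ((theta N : ℍ → ℂ) ∣[(12 : ℤ)] (γ₁ * γ₂⁻¹)) ∣[(12 : ℤ)] γ₂ =
        (theta N : ℍ → ℂ) ∣[(12 : ℤ)] γ₂ := by rw [h]
    rwa [← SlashAction.slash_mul, mul_assoc, inv_mul_cancel, mul_one] at h2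

/-- The conjugates `quotientFunc θ q`, `q ∈ SL(2, ℤ) / Γ₀(N)`, of `θ` are pairwise distinct
functions. -/
theorem quotientFunc_theta_injective (N : ℕ) [NeZero N] :
    Function.Injective
      (SlashInvariantForm.quotientFunc
        (𝒢 := ((Gamma0 N : Subgroup SL(2, ℤ)) : Subgroup (GL (Fin 2) ℝ))) (ℋ := 𝒮ℒ)
        (theta N)) := by
  intro q q' h
  induction q using Quotient.inductionOn with
  | h x =>
  induction q' using Quotient.inductionOn with
  | h y =>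
  rw [SlashInvariantForm.quotientFunc_mk, SlashInvariantForm.quotientFunc_mk] at h
  obtain ⟨x, a, rfl⟩ := x
  obtain ⟨y, c, rfl⟩ := y
  have h' : (theta N : ℍ → ℂ) ∣[(12 : ℤ)] a⁻¹ = (theta N : ℍ → ℂ) ∣[(12 : ℤ)] c⁻¹ := by
    change (theta N : ℍ → ℂ) ∣[(12 : ℤ)] (Matrix.SpecialLinearGroup.mapGL ℝ a⁻¹) =
      (theta N : ℍ → ℂ) ∣[(12 : ℤ)] (Matrix.SpecialLinearGroup.mapGL ℝ c⁻¹)
    rw [map_inv, map_inv]
    exact h
  rw [theta_slash_eq_slash_iff, inv_inv] at h'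
  refine QuotientGroup.eq.2 ?_
  rw [Subgroup.mem_subgroupOf]
  exact ⟨a⁻¹ * c, h', by simp⟩

/-! ### The `q`-expansion of `θ` -/

theorem qParam_alpha_smul (N : ℕ) [NeZero N] (τ : ℍ) :
    Function.Periodic.qParam 1 ((alpha N • τ : ℍ) : ℂ) =
      Function.Periodic.qParam 1 (τ : ℂ) ^ N := by
  rw [alpha, ModularForm.coe_heckeDiagMatrix_smul (NeZero.ne N), Function.Periodic.qParam,
    Function.Periodic.qParam, ← Complex.exp_nat_mul]
  congr 1
  push_cast
  ring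

/-- The `q`-expansion coefficients of `θ`: `a_n(θ) = N ^ 11 * a_{n / N}(Δ)` if `N ∣ n`, and `0`
otherwise. -/
theorem theta_qExpansion_coeff (N : ℕ) [NeZero N] (n : ℕ) :
    (qExpansion 1 (theta N)).coeff n =
      if N ∣ n then (N : ℂ) ^ (11 : ℤ) * (qExpansion 1 (Δ : ℍ → ℂ)).coeff (n / N) else 0 := by
  set a : ℕ → ℂ := fun m => (qExpansion 1 (Δ : ℍ → ℂ)).coeff m with ha
  set c : ℕ → ℂ := fun n => if N ∣ n then (N : ℂ) ^ (11 : ℤ) * a (n / N) else 0 with hc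
  have hNpos : 0 < N := Nat.pos_of_ne_zero (NeZero.ne N)
  have hsum : ∀ τ : ℍ,
      HasSum (fun m ↦ c m • Function.Periodic.qParam 1 (τ : ℂ) ^ m) (theta N τ) := by
    intro τ
    have h1 := ModularForm.hasSum_qExpansion (f := CuspForm.discriminant) one_pos
      one_mem_strictPeriods_SL (alpha N • τ)
    rw [qParam_alpha_smul] at h1
    have h2 := h1.mul_left ((N : ℂ) ^ (11 : ℤ))
    rw [theta_apply]
    have hinj : Function.Injective (fun m : ℕ => N * m) :=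
      fun x y hxy => Nat.eq_of_mul_eq_mul_left hNpos hxy
    have hzero : ∀ x ∉ Set.range (fun m : ℕ => N * m),
        c x • Function.Periodic.qParam 1 (τ : ℂ) ^ x = 0 := by
      intro x hx
      have hnd : ¬ N ∣ x := by
        rintro ⟨m, rfl⟩
        exact hx ⟨m, rfl⟩
      simp [hc, hnd]
    have hfun : ((fun m ↦ c m • Function.Periodic.qParam 1 (τ : ℂ) ^ m) ∘ fun m : ℕ => N * m) =
        fun i => (N : ℂ) ^ (11 : ℤ) * ((qExpansion 1 (CuspForm.discriminant : ℍ → ℂ)).coeff i *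
          (Function.Periodic.qParam 1 (τ : ℂ) ^ N) ^ i) := by
      funext m
      simp only [Function.comp_apply, hc, ha, smul_eq_mul]
      rw [if_pos (Dvd.intro m rfl), Nat.mul_div_cancel_left m hNpos, pow_mul,
        CuspForm.coe_discriminant]
      ring
    rw [← hinj.hasSum_iff hzero, hfun]
    exact h2
  have := ModularFormClass.qExpansion_coeff_unique (f := theta N) one_pos
    (CongruenceSubgroup.one_mem_strictPeriods_Gamma0 N) hsum n
  rw [← this]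

/-- If `Δ` has rational `q`-expansion coefficients, so does `θ`. -/
theorem theta_qExpansion_rat (N : ℕ) [NeZero N]
    (hΔ : ∀ n : ℕ, ∃ r : ℚ, (qExpansion 1 (Δ : ℍ → ℂ)).coeff n = (r : ℂ)) (n : ℕ) :
    ∃ r : ℚ, (qExpansion 1 (theta N)).coeff n = (r : ℂ) := by
  rw [theta_qExpansion_coeff]
  split_ifs with h
  · obtain ⟨r, hr⟩ := hΔ (n / N)
    refine ⟨(N : ℚ) ^ 11 * r, ?_⟩
    rw [hr]
    push_cast
    norm_cast
  · exact ⟨0, by simp⟩

end Fermat.Agent.S23.Theta
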