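import Mathlib
import Fermat.Agent.S22
import Fermat.Prelude.Def_CuspForm_IntegralStructure
import Fermat.Prelude.Def_CuspForm_HeckeAlgebra
import Fermat.Prelude.Thm_ModularFormClass_qCoeff_heckeT
import Fermat.Prelude.Thm_ModularFormClass_qCoeff_heckeU
import Fermat.Prelude.Thm_CongruenceSubgroup_one_mem_strictPeriods_Gamma0

/-!
# S23, step (10): bounded denominators

A cusp form of level `Γ₀(N)` and weight `k ≥ 1` with rational `q`-expansion coefficients has
bounded denominators.  This follows from the finite generation of the Hecke algebra over `ℤ`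
(statement S22) and the explicit action of the Hecke operators on `q`-expansions.

Consequently, if the forms with rational `q`-expansion span the space of cusp forms, then so do
the forms with integral `q`-expansion.
-/

set_option autoImplicit false

noncomputable section

namespace Fermat.Agent.S23.BoundedDenom

open CongruenceSubgroup ModularFormClass UpperHalfPlane CuspForm

variable {N : ℕ} {k : ℤ}

theorem analyticAt_cusp (f : CuspForm (Gamma0 N) k) : AnalyticAt ℂ (cuspFunction 1 f) 0 :=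
  ModularFormClass.analyticAt_cuspFunction_zero f one_pos (one_mem_strictPeriods_Gamma0 N)

theorem qCoeff_add (f g : CuspForm (Gamma0 N) k) (n : ℕ) :
    qCoeff (⇑(f + g)) n = qCoeff f n + qCoeff g n := by
  simp only [qCoeff, FunLike.coe_add]
  rw [qExpansion_add (analyticAt_cusp f) (analyticAt_cusp g), map_add]

theorem qCoeff_smul (c : ℂ) (f : CuspForm (Gamma0 N) k) (n : ℕ) :
    qCoeff (⇑(c • f)) n = c * qCoeff f n := by
  simp only [qCoeff, FunLike.coe_smul]
  rw [qExpansion_smul (analyticAt_cusp f), PowerSeries.coeff_smul, smul_eq_mul]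

theorem qCoeff_zero_index (f : CuspForm (Gamma0 N) k) : qCoeff f 0 = 0 :=
  CuspFormClass.qExpansion_coeff_zero f one_pos (one_mem_strictPeriods_Gamma0 N)

/-- The `n`-th `q`-expansion coefficient as a linear functional. -/
def coeffLin (N : ℕ) (k : ℤ) (n : ℕ) : CuspForm (Gamma0 N) k →ₗ[ℂ] ℂ where
  toFun f := qCoeff f n
  map_add' f g := qCoeff_add f g n
  map_smul' c f := by simpa using qCoeff_smul c f n

@[simp] theorem coeffLin_apply (n : ℕ) (f : CuspForm (Gamma0 N) k) :
    coeffLin N k n f = qCoeff f n := rfl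

theorem qCoeff_heckeTLin {p : ℕ} (hp : p.Prime) (hpN : ¬ p ∣ N) (f : CuspForm (Gamma0 N) k)
    (n : ℕ) : qCoeff (⇑(heckeTLin k hp hpN f)) n =
      qCoeff f (n * p) + if p ∣ n then (p : ℂ) ^ (k - 1) * qCoeff f (n / p) else 0 := by
  rw [coe_heckeTLin_apply, ModularFormClass.qCoeff_heckeT f (one_mem_strictPeriods_Gamma0 N)
    hp.ne_zero n]
  rfl

theorem qCoeff_heckeULin [NeZero N] {p : ℕ} (hp : p.Prime) (hpN : p ∣ N)
    (f : CuspForm (Gamma0 N) k) (n : ℕ) :
    qCoeff (⇑(heckeULin k hpN f)) n = qCoeff f (n * p) := by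
  rw [coe_heckeULin_apply, ModularFormClass.qCoeff_heckeU f (one_mem_strictPeriods_Gamma0 N)
    hp.ne_zero n]
  rfl

/-- A cusp form with rational `q`-expansion coefficients. -/
def IsRatForm (f : CuspForm (Gamma0 N) k) : Prop :=
  ∀ n : ℕ, ∃ r : ℚ, qCoeff f n = (r : ℂ)

theorem IsRatForm.add {f g : CuspForm (Gamma0 N) k} (hf : IsRatForm f) (hg : IsRatForm g) :
    IsRatForm (f + g) := fun n => by
  obtain ⟨r, hr⟩ := hf n
  obtain ⟨s, hs⟩ := hg n
  exact ⟨r + s, by rw [qCoeff_add, hr, hs]; push_cast; ring⟩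

theorem IsRatForm.rat_smul {f : CuspForm (Gamma0 N) k} (hf : IsRatForm f) (c : ℚ) :
    IsRatForm ((c : ℂ) • f) := fun n => by
  obtain ⟨r, hr⟩ := hf n
  exact ⟨c * r, by rw [qCoeff_smul, hr]; push_cast; ring⟩

theorem isRatForm_zero : IsRatForm (0 : CuspForm (Gamma0 N) k) := fun n =>
  ⟨0, by
    have := qCoeff_smul (0 : ℂ) (0 : CuspForm (Gamma0 N) k) n
    simpa using this⟩

theorem IsRatForm.heckeT {p : ℕ} (hp : p.Prime) (hpN : ¬ p ∣ N) {f : CuspForm (Gamma0 N) k}
    (hf : IsRatForm f) : IsRatForm (heckeTLin k hp hpN f) := fun n => by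
  rw [qCoeff_heckeTLin hp hpN]
  obtain ⟨r, hr⟩ := hf (n * p)
  obtain ⟨s, hs⟩ := hf (n / p)
  by_cases h : p ∣ n
  · refine ⟨r + (p : ℚ) ^ (k - 1) * s, ?_⟩
    rw [if_pos h, hr, hs]
    push_cast
    ring
  · exact ⟨r, by rw [if_neg h, hr, add_zero]⟩

theorem IsRatForm.heckeU [NeZero N] {p : ℕ} (hp : p.Prime) (hpN : p ∣ N)
    {f : CuspForm (Gamma0 N) k} (hf : IsRatForm f) : IsRatForm (heckeULin k hpN f) := fun n => by
  rw [qCoeff_heckeULin hp hpN]
  exact hf (n * p)

/-- Every element of the Hecke algebra preserves rationality of `q`-expansions. -/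
theorem IsRatForm.heckeAlgebra [NeZero N] {S : Set ℕ}
    {t : Module.End ℂ (CuspForm (Gamma0 N) k)} (ht : t ∈ heckeAlgebra N k S)
    {f : CuspForm (Gamma0 N) k} (hf : IsRatForm f) : IsRatForm (t f) := by
  induction ht using Algebra.adjoin_induction generalizing f with
  | mem t ht =>
    rcases ht with ⟨ℓ, hℓ, hℓN, -, rfl⟩ | ⟨q, hqN, hq, -, rfl⟩
    · exact hf.heckeT hℓ hℓN
    · exact hf.heckeU hq hqN
  | algebraMap m =>
    have : (algebraMap ℤ (Module.End ℂ (CuspForm (Gamma0 N) k)) m) f = ((m : ℚ) : ℂ) • f := by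
      have hcast : ((m : ℚ) : ℂ) = (m : ℂ) := by norm_cast
      rw [Algebra.algebraMap_eq_smul_one, LinearMap.smul_apply, Module.End.one_apply, hcast,
        Int.cast_smul_eq_zsmul]
    rw [this]
    exact hf.rat_smul _
  | add t u _ _ iht ihu => exact (iht hf).add (ihu hf)
  | mul t u _ _ iht ihu => exact iht (ihu hf)

/-- A finitely generated `ℤ`-submodule of `ℂ` consisting of rational numbers has a common
denominator. -/
theorem exists_common_denominator (A : Submodule ℤ ℂ) (hA : A.FG)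
    (hrat : ∀ x ∈ A, ∃ r : ℚ, x = (r : ℂ)) :
    ∃ D : ℕ, 0 < D ∧ ∀ x ∈ A, ∃ m : ℤ, (D : ℂ) * x = (m : ℂ) := by
  classical
  obtain ⟨s, hs⟩ := hA
  have hs' : ∀ x ∈ s, ∃ r : ℚ, x = (r : ℂ) := fun x hx =>
    hrat x (hs ▸ Submodule.subset_span hx)
  choose! r hr using hs'
  refine ⟨∏ x ∈ s, (r x).den, Finset.prod_pos fun x _ => (r x).den_pos, fun x hx => ?_⟩
  rw [← hs] at hx
  induction hx using Submodule.span_induction with
  | mem x hx =>
    obtain ⟨c, hc⟩ := Finset.dvd_prod_of_mem (fun y => (r y).den) hx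
    have hxq := hr x hx
    generalize r x = q at hc hxq
    subst hxq
    refine ⟨c * q.num, ?_⟩
    rw [hc]
    have hden : (q.den : ℂ) ≠ 0 := by exact_mod_cast q.den_ne_zero
    have hq : ((q : ℚ) : ℂ) = (q.num : ℂ) / (q.den : ℂ) := by
      conv_lhs => rw [← Rat.num_div_den q]
      push_cast
      rfl
    rw [hq]
    push_cast
    field_simp
  | zero => exact ⟨0, by simp⟩
  | add x y _ _ hx hy =>
    obtain ⟨a, ha⟩ := hx
    obtain ⟨b, hb⟩ := hy
    exact ⟨a + b, by rw [mul_add, ha, hb]; push_cast; ring⟩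
  | smul c x _ hx =>
    obtain ⟨a, ha⟩ := hx
    refine ⟨c * a, ?_⟩
    rw [zsmul_eq_mul, mul_left_comm, ha]
    push_cast
    ring

variable [NeZero N]

/-- **Bounded denominators**: a cusp form of weight `k ≥ 1` with rational `q`-expansion has a
common denominator for all its coefficients. -/
theorem exists_nat_mul_int (hk : 1 ≤ k) (f : CuspForm (Gamma0 N) k) (hf : IsRatForm f) :
    ∃ D : ℕ, 0 < D ∧ ∀ n : ℕ, ∃ m : ℤ, (D : ℂ) * qCoeff f n = (m : ℂ) := by
  classical
  have : Module.Finite ℤ (heckeAlgebra N k (∅ : Set ℕ)) := Fermat.Agent.S22.result N k ∅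
  -- the orbit map `t ↦ t f`
  let ev : heckeAlgebra N k (∅ : Set ℕ) →ₗ[ℤ] CuspForm (Gamma0 N) k :=
    { toFun := fun t => t.1 f
      map_add' := fun t u => by simp
      map_smul' := fun m t => by simp }
  let a1 : CuspForm (Gamma0 N) k →ₗ[ℤ] ℂ := (coeffLin N k 1).restrictScalars ℤ
  let M : Submodule ℤ (CuspForm (Gamma0 N) k) := LinearMap.range ev
  let A : Submodule ℤ ℂ := M.map a1
  have hMfg : M.FG := by
    show (LinearMap.range ev).FG
    rw [LinearMap.range_eq_map]
    exact (Module.Finite.fg_top).map ev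
  have hAfg : A.FG := hMfg.map a1
  have hMrat : ∀ g ∈ M, IsRatForm g := by
    rintro g ⟨t, rfl⟩
    exact IsRatForm.heckeAlgebra t.2 hf
  have hArat : ∀ x ∈ A, ∃ r : ℚ, x = (r : ℂ) := by
    rintro x ⟨g, hg, rfl⟩
    exact hMrat g hg 1
  obtain ⟨D, hD, hDA⟩ := exists_common_denominator A hAfg hArat
  refine ⟨D, hD, ?_⟩
  have hfM : f ∈ M := ⟨1, by simp [ev]⟩
  -- stability of `M` under the Hecke operators
  have hMT : ∀ {ℓ : ℕ} (hℓ : ℓ.Prime) (hℓN : ¬ ℓ ∣ N), ∀ g ∈ M, heckeTLin k hℓ hℓN g ∈ M := by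
    rintro ℓ hℓ hℓN g ⟨t, rfl⟩
    refine ⟨⟨heckeTLin k hℓ hℓN, heckeTLin_mem_heckeAlgebra hℓ hℓN (Set.notMem_empty ℓ)⟩ * t, ?_⟩
    simp [ev]
  have hMU : ∀ {q : ℕ} (hq : q.Prime) (hqN : q ∣ N), ∀ g ∈ M, heckeULin k hqN g ∈ M := by
    rintro q hq hqN g ⟨t, rfl⟩
    refine ⟨⟨heckeULin k hqN, heckeULin_mem_heckeAlgebra hq hqN (Set.notMem_empty q)⟩ * t, ?_⟩
    simp [ev]
  -- the main induction
  have key : ∀ n : ℕ, ∀ g ∈ M, ∃ m : ℤ, (D : ℂ) * qCoeff g n = (m : ℂ) := by
    intro n
    induction n using Nat.strong_induction_on with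
    | _ n ih =>
      intro g hg
      rcases Nat.lt_or_ge n 2 with hn | hn
      · interval_cases n
        · exact ⟨0, by rw [qCoeff_zero_index]; simp⟩
        · exact hDA _ ⟨g, hg, rfl⟩
      · have hn1 : n ≠ 1 := by omega
        set ℓ := n.minFac with hℓdef
        have hℓ : ℓ.Prime := Nat.minFac_prime hn1
        obtain ⟨m, hm⟩ : ℓ ∣ n := Nat.minFac_dvd n
        have hmn : m < n := by
          have h2 := hℓ.two_le
          have hmpos : 0 < m := by
            rcases Nat.eq_zero_or_pos m with h0 | h0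
            · rw [h0, mul_zero] at hm; omega
            · exact h0
          nlinarith
        have hnm : n = m * ℓ := by rw [hm, mul_comm]
        by_cases hℓN : ℓ ∣ N
        · have := ih m hmn (heckeULin k hℓN g) (hMU hℓ hℓN g hg)
          rw [qCoeff_heckeULin hℓ hℓN, ← hnm] at this
          exact this
        · obtain ⟨c, hc⟩ := ih m hmn (heckeTLin k hℓ hℓN g) (hMT hℓ hℓN g hg)
          rw [qCoeff_heckeTLin hℓ hℓN, ← hnm] at hc
          by_cases hdvd : ℓ ∣ m
          · rw [if_pos hdvd] at hc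
            have hlt : m / ℓ < n := lt_of_le_of_lt (Nat.div_le_self m ℓ) hmn
            obtain ⟨e, he⟩ := ih (m / ℓ) hlt g hg
            have hpow : ((ℓ : ℂ)) ^ (k - 1) = ((ℓ ^ (k - 1).toNat : ℕ) : ℂ) := by
              have : k - 1 = ((k - 1).toNat : ℤ) := by
                rw [Int.toNat_of_nonneg]; omega
              conv_lhs => rw [this]
              rw [zpow_natCast]
              push_cast
              rfl
            refine ⟨c - (ℓ ^ (k - 1).toNat : ℕ) * e, ?_⟩
            rw [hpow] at hc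
            push_cast at hc ⊢
            rw [← hc, ← he]
            ring
          · rw [if_neg hdvd, add_zero] at hc
            exact ⟨c, hc⟩
  exact fun n => key n f hfM

/-- If the cusp forms with rational `q`-expansion span, then the cusp forms with integral
`q`-expansion span. -/
theorem hasIntegralStructure_of_span_rat (hk : 1 ≤ k)
    (h : Submodule.span ℂ {f : CuspForm (Gamma0 N) k | IsRatForm f} = ⊤) :
    CuspForm.HasIntegralStructure N k := by
  rw [CuspForm.HasIntegralStructure, eq_top_iff, ← h]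
  apply Submodule.span_le.mpr
  intro f hf
  obtain ⟨D, hD, hDf⟩ := exists_nat_mul_int hk f hf
  have hDne : (D : ℂ) ≠ 0 := by exact_mod_cast hD.ne'
  have hmem : (D : ℂ) • f ∈ (CuspForm.intLattice N k : Set (CuspForm (Gamma0 N) k)) := by
    apply Submodule.subset_span
    intro n
    obtain ⟨m, hm⟩ := hDf n
    exact ⟨m, by rw [qCoeff_smul, hm]⟩
  have : f = ((D : ℂ)⁻¹) • ((D : ℂ) • f) := by
    rw [smul_smul, inv_mul_cancel₀ hDne, one_smul]
  rw [this]
  exact Submodule.smul_mem _ _ (Submodule.subset_span hmem)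

end Fermat.Agent.S23.BoundedDenom
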