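import Mathlib

/-!
# S23, slice (7): specialisation of finitely generated `ℚ`-subalgebras of `ℂ`

If `A` is a finitely generated `ℚ`-algebra embedded in `ℂ` and `a : A` is not rational, then there
is a `ℚ`-algebra homomorphism `A → ℂ` which moves `a`.
-/

set_option autoImplicit false

namespace Fermat.Agent.S23.Specialize

open Polynomial

/-- An irreducible polynomial over `ℚ` of degree at least two has a complex root different from
any given number. -/
theorem exists_root_ne {P : ℚ[X]} (hP : Irreducible P) (hdeg : 2 ≤ P.natDegree) (t : ℂ) :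
    ∃ t' : ℂ, aeval t' P = 0 ∧ t' ≠ t := by
  classical
  have hsep : P.Separable := hP.separable
  have hsplit : Splits (P.map (algebraMap ℚ ℂ)) := IsAlgClosed.splits _
  have hcard := card_rootSet_eq_natDegree (K := ℂ) hsep hsplit
  have h1 : 1 < Fintype.card (P.rootSet ℂ) := by omega
  obtain ⟨a, b, hab⟩ := Fintype.one_lt_card_iff.mp h1
  have ha : aeval (a : ℂ) P = 0 := (mem_rootSet.mp a.2).2
  have hb : aeval (b : ℂ) P = 0 := (mem_rootSet.mp b.2).2
  by_cases hat : (a : ℂ) = t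
  · refine ⟨b, hb, fun hbt => hab ?_⟩
    exact Subtype.ext (hat.trans hbt.symm)
  · exact ⟨a, ha, hat⟩

/-- Main specialisation lemma, abstract form. -/
theorem exists_algHom_ne_of_injective {A : Type*} [CommRing A] [Algebra ℚ A]
    [Algebra.FiniteType ℚ A] (ι : A →ₐ[ℚ] ℂ) (hι : Function.Injective ι) (a : A)
    (hrat : ∀ q : ℚ, (q : ℂ) ≠ ι a) : ∃ φ : A →ₐ[ℚ] ℂ, φ a ≠ ι a := by
  classical
  have : Nontrivial A := ⟨⟨0, 1, fun h => by simpa using congrArg ι h⟩⟩
  obtain ⟨m, hm⟩ := Ideal.exists_maximal A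
  let _ : Field (A ⧸ m) := Ideal.Quotient.field m
  have : Algebra.FiniteType ℚ (A ⧸ m) :=
    Algebra.FiniteType.of_surjective (Ideal.Quotient.mkₐ ℚ m) (Ideal.Quotient.mkₐ_surjective ℚ m)
  have : Module.Finite ℚ (A ⧸ m) := finite_of_finite_type_of_isJacobsonRing ℚ (A ⧸ m)
  have hint : ∀ x : A ⧸ m, IsIntegral ℚ x := fun x => Algebra.IsIntegral.isIntegral x
  have hK' : ∀ x : A ⧸ m, IsIntegral ℚ x ∧ ((minpoly ℚ x).map (algebraMap ℚ ℂ)).Splits := fun x =>
    ⟨hint x, IsAlgClosed.splits _⟩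
  set abar : A ⧸ m := Ideal.Quotient.mkₐ ℚ m a with habar
  by_cases halg : IsIntegral ℚ (ι a)
  · -- algebraic case
    have hirr : Irreducible (minpoly ℚ (ι a)) := minpoly.irreducible halg
    have hnot : ι a ∉ (algebraMap ℚ ℂ).range := by
      rintro ⟨q, hq⟩
      exact hrat q hq
    have hdeg : 2 ≤ (minpoly ℚ (ι a)).natDegree := (minpoly.two_le_natDegree_iff halg).mpr hnot
    obtain ⟨t', ht', hne⟩ := exists_root_ne hirr hdeg (ι a)
    have hroot : aeval a (minpoly ℚ (ι a)) = 0 := by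
      apply hι
      rw [← Polynomial.aeval_algHom_apply, minpoly.aeval, map_zero]
    have hroot' : aeval abar (minpoly ℚ (ι a)) = 0 := by
      rw [habar, Polynomial.aeval_algHom_apply, hroot, map_zero]
    have hmin : minpoly ℚ (ι a) = minpoly ℚ abar :=
      minpoly.eq_of_irreducible_of_monic hirr hroot' (minpoly.monic halg)
    obtain ⟨ψ, hψ⟩ := IntermediateField.exists_algHom_of_splits_of_aeval hK' (x := abar) (y := t')
      (by rw [← hmin]; exact ht')
    refine ⟨ψ.comp (Ideal.Quotient.mkₐ ℚ m), ?_⟩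
    rw [AlgHom.comp_apply, ← habar, hψ]
    exact hne
  · -- transcendental case
    obtain ⟨ψ⟩ := IntermediateField.nonempty_algHom_of_splits hK'
    refine ⟨ψ.comp (Ideal.Quotient.mkₐ ℚ m), fun h => halg ?_⟩
    rw [← h, AlgHom.comp_apply]
    exact (hint _).map ψ

/-- Specialisation for finitely generated subalgebras of `ℂ`. -/
theorem exists_algHom_ne (s : Finset ℂ) (t : ℂ) (ht : t ∈ Algebra.adjoin ℚ (s : Set ℂ))
    (hrat : ∀ q : ℚ, (q : ℂ) ≠ t) :
    ∃ φ : Algebra.adjoin ℚ (s : Set ℂ) →ₐ[ℚ] ℂ, φ ⟨t, ht⟩ ≠ t := by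
  have : Algebra.FiniteType ℚ (Algebra.adjoin ℚ (s : Set ℂ)) :=
    (Subalgebra.fg_iff_finiteType _).mp (Subalgebra.fg_adjoin_finset s)
  exact exists_algHom_ne_of_injective (Algebra.adjoin ℚ (s : Set ℂ)).val Subtype.val_injective
    ⟨t, ht⟩ hrat

end Fermat.Agent.S23.Specialize
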