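import Mathlib
import Fermat.Prelude.Def_FLTPrelim_Modularity
import Fermat.Prelude.Thm_ModularForm_sturm_bound_Gamma0
import Fermat.Agent.S23.QRing
import Fermat.Agent.S23.Specialize

/-!
# S23, slice (9): descent to rational coefficients

Abstract lemma: a space `V` of "coefficient sequences" (via an injective-on-a-finite-window linear
map `c : V → (ℕ → ℂ)`) which is stable under all coefficientwise conjugations
`φ : ℚ[s] → ℂ` is spanned by its elements with rational coefficients.
Then the instance for cusp forms on `Γ₀(N)` (finite window from the Sturm bound of the prelude).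
-/

set_option autoImplicit false

open Finset

namespace Fermat.Agent.S23.Descent

section Abstract

variable {V : Type*} [AddCommGroup V] [Module ℂ V]

/-- All coefficients rational. -/
def IsRat (c : V →ₗ[ℂ] (ℕ → ℂ)) (f : V) : Prop := ∀ n, ∃ r : ℚ, c f n = (r : ℂ)

/-- Stability under all coefficientwise conjugations. -/
def ConjStable (c : V →ₗ[ℂ] (ℕ → ℂ)) : Prop :=
  ∀ f : V, ∃ (s : Finset ℂ) (hs : ∀ n, c f n ∈ Algebra.adjoin ℚ (s : Set ℂ)),
    ∀ φ : Algebra.adjoin ℚ (s : Set ℂ) →ₐ[ℚ] ℂ, ∃ f' : V, ∀ n, c f' n = φ ⟨c f n, hs n⟩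

variable (c : V →ₗ[ℂ] (ℕ → ℂ)) (n₀ : ℕ)

/-- Support inside the finite window. -/
noncomputable def supp (g : V) : Finset ℕ := by
  classical exact (range n₀).filter (fun m => c g m ≠ 0)

lemma mem_supp {g : V} {m : ℕ} : m ∈ supp c n₀ g ↔ m < n₀ ∧ c g m ≠ 0 := by
  classical
  simp [supp]

/-- Rationality criterion: a normalised element which is minimal for its support. -/
lemma isRat_of_minimal (hconj : ConjStable c) (f : V) (i₀ : ℕ) (hi₀ : c f i₀ = 1)
    (hmin : ∀ h : V, (∀ m < n₀, c f m = 0 → c h m = 0) → c h i₀ = 0 → h = 0) :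
    IsRat c f := by
  obtain ⟨s, hs, H⟩ := hconj f
  intro n
  by_contra hn
  have hrat : ∀ q : ℚ, (q : ℂ) ≠ c f n := fun q hq => hn ⟨q, hq.symm⟩
  obtain ⟨φ, hφ⟩ := Fermat.Agent.S23.Specialize.exists_algHom_ne s (c f n) (hs n) hrat
  obtain ⟨f', hf'⟩ := H φ
  have hzero : f' - f = 0 := by
    apply hmin
    · intro m _ hm
      have h0 : (⟨c f m, hs m⟩ : Algebra.adjoin ℚ (s : Set ℂ)) = 0 := Subtype.ext hm
      rw [map_sub, Pi.sub_apply, hf' m, h0, map_zero, hm, sub_zero]
    · have h1 : (⟨c f i₀, hs i₀⟩ : Algebra.adjoin ℚ (s : Set ℂ)) = 1 := Subtype.ext hi₀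
      rw [map_sub, Pi.sub_apply, hf' i₀, h1, map_one, hi₀, sub_self]
  have hff : f' = f := sub_eq_zero.mp hzero
  apply hφ
  rw [← hf' n, hff]

/-- The abstract descent lemma. -/
theorem span_isRat_eq_top (hinj : ∀ f : V, (∀ m < n₀, c f m = 0) → f = 0)
    (hconj : ConjStable c) :
    Submodule.span ℂ {f : V | IsRat c f} = ⊤ := by
  classical
  rw [eq_top_iff]
  rintro g -
  -- strong induction on the size of the support
  induction hk : (supp c n₀ g).card using Nat.strong_induction_on generalizing g with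
  | _ k IH =>
  by_cases hg : g = 0
  · rw [hg]; exact Submodule.zero_mem _
  -- choose a nonzero element with support inside that of `g`, of minimal support
  have hex : ∃ j : ℕ, ∃ h : V, h ≠ 0 ∧ supp c n₀ h ⊆ supp c n₀ g ∧ (supp c n₀ h).card = j :=
    ⟨_, g, hg, Subset.rfl, rfl⟩
  obtain ⟨h, hh0, hhg, hhj⟩ := Nat.find_spec hex
  have hminj : ∀ h' : V, h' ≠ 0 → supp c n₀ h' ⊆ supp c n₀ g →
      Nat.find hex ≤ (supp c n₀ h').card := fun h' h0 hs =>
    Nat.find_min' hex ⟨h', h0, hs, rfl⟩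
  -- an index in the support of `h`
  have hne : (supp c n₀ h).Nonempty := by
    rw [Finset.nonempty_iff_ne_empty]
    intro hemp
    apply hh0
    apply hinj
    intro m hm
    by_contra hcm
    have : m ∈ supp c n₀ h := (mem_supp c n₀).2 ⟨hm, hcm⟩
    rw [hemp] at this
    exact absurd this (Finset.notMem_empty m)
  obtain ⟨i₀, hi₀⟩ := hne
  obtain ⟨hi₀lt, hi₀ne⟩ := (mem_supp c n₀).1 hi₀
  set f : V := (c h i₀)⁻¹ • h with hf
  have hcf : ∀ m, c f m = (c h i₀)⁻¹ * c h m := by
    intro m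
    rw [hf, map_smul, Pi.smul_apply, smul_eq_mul]
  have hcfi : c f i₀ = 1 := by rw [hcf, inv_mul_cancel₀ hi₀ne]
  have hcf0 : ∀ m, c f m = 0 ↔ c h m = 0 := by
    intro m
    rw [hcf, mul_eq_zero]
    constructor
    · rintro (h1 | h1)
      · exact absurd (inv_eq_zero.mp h1) hi₀ne
      · exact h1
    · exact fun h1 => Or.inr h1
  -- `f` is rational
  have hfrat : IsRat c f := by
    apply isRat_of_minimal c n₀ hconj f i₀ hcfi
    intro h' hsub hi
    by_contra h'0
    have hsupp : supp c n₀ h' ⊆ (supp c n₀ h).erase i₀ := by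
      intro m hm
      obtain ⟨hmlt, hmne⟩ := (mem_supp c n₀).1 hm
      rw [Finset.mem_erase]
      refine ⟨fun hmi => hmne (hmi ▸ hi), (mem_supp c n₀).2 ⟨hmlt, fun hhm => hmne ?_⟩⟩
      exact hsub m hmlt ((hcf0 m).2 hhm)
    have hcard : (supp c n₀ h').card < (supp c n₀ h).card :=
      lt_of_le_of_lt (Finset.card_le_card hsupp) (Finset.card_erase_lt_of_mem hi₀)
    have := hminj h' h'0 (hsupp.trans ((Finset.erase_subset _ _).trans hhg))
    omega
  have hfmem : f ∈ Submodule.span ℂ {f : V | IsRat c f} := Submodule.subset_span hfrat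
  -- subtract off and use the induction hypothesis
  have hi₀g : i₀ ∈ supp c n₀ g := hhg hi₀
  set g' : V := g - (c g i₀) • f with hg'
  have hcg' : ∀ m, c g' m = c g m - c g i₀ * c f m := by
    intro m
    rw [hg', map_sub, map_smul, Pi.sub_apply, Pi.smul_apply, smul_eq_mul]
  have hsupp' : supp c n₀ g' ⊆ (supp c n₀ g).erase i₀ := by
    intro m hm
    obtain ⟨hmlt, hmne⟩ := (mem_supp c n₀).1 hm
    rw [Finset.mem_erase]
    refine ⟨fun hmi => hmne ?_, (mem_supp c n₀).2 ⟨hmlt, fun hgm => hmne ?_⟩⟩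
    · rw [hmi, hcg', hcfi, mul_one, sub_self]
    · have hhm : c h m = 0 := by
        by_contra hhm
        have : m ∈ supp c n₀ g := hhg ((mem_supp c n₀).2 ⟨hmlt, hhm⟩)
        exact ((mem_supp c n₀).1 this).2 hgm
      rw [hcg', hgm, (hcf0 m).2 hhm, mul_zero, sub_zero]
  have hcard' : (supp c n₀ g').card < k := by
    rw [← hk]
    exact lt_of_le_of_lt (Finset.card_le_card hsupp') (Finset.card_erase_lt_of_mem hi₀g)
  have hg'mem : g' ∈ Submodule.span ℂ {f : V | IsRat c f} := IH _ hcard' rfl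
  have : g = g' + (c g i₀) • f := by rw [hg']; abel
  rw [this]
  exact Submodule.add_mem _ hg'mem (Submodule.smul_mem _ _ hfmem)

end Abstract

section CuspForms

open ModularFormClass Fermat.Agent.S23.QRing

variable {N : ℕ} [NeZero N] {k : ℤ}

/-- The `q`-coefficient map on cusp forms of level `Γ₀(N)`, as a linear map. -/
noncomputable def coeffMap (N : ℕ) [NeZero N] (k : ℤ) :
    CuspForm (CongruenceSubgroup.Gamma0 N) k →ₗ[ℂ] (ℕ → ℂ) where
  toFun f n := qCoeff f n
  map_add' f g := by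
    funext n
    have h := qx_add (isQ_of_cuspForm f) (isQ_of_cuspForm g)
    have h2 : (⇑(f + g) : UpperHalfPlane → ℂ) = ⇑f + ⇑g := rfl
    simp only [Pi.add_apply, ← qx_coeff]
    rw [h2, h, map_add]
  map_smul' a f := by
    funext n
    have h := qx_smul a (isQ_of_cuspForm f)
    have h2 : (⇑(a • f) : UpperHalfPlane → ℂ) = a • ⇑f := rfl
    simp only [Pi.smul_apply, RingHom.id_apply, ← qx_coeff]
    rw [h2, h, PowerSeries.coeff_smul, smul_eq_mul]

@[simp] lemma coeffMap_apply (f : CuspForm (CongruenceSubgroup.Gamma0 N) k) (n : ℕ) :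
    coeffMap N k f n = qCoeff f n := rfl

/-- Sturm bound for cusp forms, in the shape used by the descent lemma. -/
lemma eq_zero_of_coeffs (f : CuspForm (CongruenceSubgroup.Gamma0 N) k)
    (h : ∀ m < (k * (CongruenceSubgroup.Gamma0 N).index).toNat / 12 + 1, qCoeff f m = 0) :
    f = 0 := by
  let g : ModularForm (CongruenceSubgroup.Gamma0 N) k :=
    { toSlashInvariantForm := f.toSlashInvariantForm
      holo' := f.holo'
      bdd_at_cusps' := fun {c} hc γ hγ => (f.zero_at_cusps' hc γ hγ).boundedAtFilter }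
  have hg : g = 0 := by
    apply ModularForm.sturm_bound_Gamma0 N g
    intro n hn
    exact h n (Nat.lt_succ_of_le hn)
  ext z
  exact DFunLike.congr_fun hg z

/-- Slice (9): if every cusp form has all its coefficientwise conjugates, the cusp forms with
rational `q`-expansion span. -/
theorem span_rat_eq_top_of_conj
    (hconj : ∀ f : CuspForm (CongruenceSubgroup.Gamma0 N) k,
      ∃ (s : Finset ℂ) (hs : ∀ n, qCoeff f n ∈ Algebra.adjoin ℚ (s : Set ℂ)),
        ∀ φ : Algebra.adjoin ℚ (s : Set ℂ) →ₐ[ℚ] ℂ,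
          ∃ f' : CuspForm (CongruenceSubgroup.Gamma0 N) k,
            ∀ n, qCoeff f' n = φ ⟨qCoeff f n, hs n⟩) :
    Submodule.span ℂ {f : CuspForm (CongruenceSubgroup.Gamma0 N) k |
      ∀ n, ∃ r : ℚ, qCoeff f n = (r : ℂ)} = ⊤ := by
  have key := span_isRat_eq_top (coeffMap N k)
    ((k * (CongruenceSubgroup.Gamma0 N).index).toNat / 12 + 1)
    (fun f hf => eq_zero_of_coeffs f hf) hconj
  exact key

end CuspForms

end Fermat.Agent.S23.Descent
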