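import Fermat.Agent.S23.Wiring
import Fermat.Agent.S23.LagrangeGamma0
import Fermat.Agent.S23.Descent
import Fermat.Agent.S23.BoundedDenom

/-!
# S23: assembly

`BundleHyp` (polynomials in `θ` with level-one coefficients are modular forms of level `Γ₀(N)`),
`LagrangeData` from `LagrangeGamma0.exists_lagrange`, and the final statement: the existence of a
primitive element `θ` of weight `12` with rational `q`-expansion (slice (3)) implies
`CuspForm.HasIntegralStructure N k` for all `k ≥ 1`.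
-/

set_option autoImplicit false

namespace Fermat.Agent.S23.Assembly

open UpperHalfPlane CongruenceSubgroup ModularFormClass Finset
open scoped Manifold ModularForm MatrixGroups
open Fermat.Agent.S23.QRing Fermat.Agent.S23.CoeffRing Fermat.Agent.S23.Main

variable {N : ℕ} [NeZero N]

/-- (B2) A polynomial in `θ` with level-one coefficients of the right weights is a modular form. -/
theorem bundle_aux (θ : ModularForm (Gamma0 N) 12) (K : ℤ) (n : ℕ) (c : ℕ → ℍ → ℂ)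
    (hc : ∀ m < n, IsL1 (K - 12 * m) (c m)) :
    ∃ F' : ModularForm (Gamma0 N) K, ∀ τ, F' τ = ∑ m ∈ range n, c m τ * θ τ ^ m := by
  induction n with
  | zero => exact ⟨0, fun τ => by simp⟩
  | succ n ih =>
    obtain ⟨F₁, hF₁⟩ := ih fun m hm => hc m (Nat.lt_succ_of_lt hm)
    obtain ⟨G, hG⟩ := hc n (Nat.lt_succ_self n)
    have hw : K - 12 * (n : ℤ) + (n : ℤ) * 12 = K := by ring
    refine ⟨F₁ + ModularForm.mcast hw
      ((Lagrange.restrict Lagrange.Gamma0_le_SL G).mul (θ.pow n)), fun τ => ?_⟩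
    rw [Finset.sum_range_succ, ← hF₁ τ, ← hG]
    simp [ModularForm.mcast_apply]

theorem bundleHyp (θ : ModularForm (Gamma0 N) 12) : BundleHyp θ := by
  rintro K F ⟨n, c, hc, hF⟩
  obtain ⟨F', hF'⟩ := bundle_aux θ K n c hc
  exact ⟨F', funext fun τ => (hF' τ).trans (hF τ).symm⟩

/-- The two definitions of `IsLevelOnePoly` agree. -/
theorem isLevelOnePoly_of_lagrange {θ : ℍ → ℂ} {K : ℤ} {F : ℍ → ℂ}
    (h : Lagrange.IsLevelOnePoly θ K F) : IsLevelOnePoly θ K F := by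
  obtain ⟨n, c, hc, hF⟩ := h
  exact ⟨n, c, hc, hF⟩

theorem lagrangeData (θ : ModularForm (Gamma0 N) 12)
    (hθ : ∀ γ : SL(2, ℤ), γ ∉ Gamma0 N → (⇑θ) ∣[(12 : ℤ)] γ ≠ ⇑θ) {k : ℤ}
    (f : CuspForm (Gamma0 N) k) : LagrangeData θ f := by
  obtain ⟨K, D, hD0, hD, hDf⟩ := Lagrange.exists_lagrange θ hθ
  refine ⟨K, D, hD0, isLevelOnePoly_of_lagrange hD, ?_⟩
  exact isLevelOnePoly_of_lagrange (hDf k (CuspForm.toModularFormₗ f))

/-- Slice (8) for a given primitive element `θ`. -/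
theorem exists_conj (θ : ModularForm (Gamma0 N) 12)
    (hrat : ∀ n, ∃ r : ℚ, (qExpansion 1 θ).coeff n = (r : ℂ))
    (hθ : ∀ γ : SL(2, ℤ), γ ∉ Gamma0 N → (⇑θ) ∣[(12 : ℤ)] γ ≠ ⇑θ) {k : ℤ}
    (f : CuspForm (Gamma0 N) k) :
    ∃ (s : Finset ℂ) (hs : ∀ n, qCoeff f n ∈ Algebra.adjoin ℚ (s : Set ℂ)),
      ∀ φ : Algebra.adjoin ℚ (s : Set ℂ) →ₐ[ℚ] ℂ, ∃ f' : CuspForm (Gamma0 N) k,
        ∀ n, qCoeff f' n = φ ⟨qCoeff f n, hs n⟩ :=
  exists_conj_of_hyps θ hrat Wiring.levelOneConj (bundleHyp θ) Wiring.integralHyp f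
    (Wiring.charPolyData f) (lagrangeData θ hθ f)

/-- **S23 modulo slice (3)**: a primitive element `θ` of weight `12` with rational `q`-expansion
gives the integral structure in every weight `k ≥ 1`. -/
theorem hasIntegralStructure_of_theta (θ : ModularForm (Gamma0 N) 12)
    (hrat : ∀ n, ∃ r : ℚ, (qExpansion 1 θ).coeff n = (r : ℂ))
    (hθ : ∀ γ : SL(2, ℤ), γ ∉ Gamma0 N → (⇑θ) ∣[(12 : ℤ)] γ ≠ ⇑θ) {k : ℤ} (hk : 1 ≤ k) :
    CuspForm.HasIntegralStructure N k :=
  BoundedDenom.hasIntegralStructure_of_span_rat hk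
    (Descent.span_rat_eq_top_of_conj fun f => exists_conj θ hrat hθ f)

end Fermat.Agent.S23.Assembly
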