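import Mathlib

/-!
# S23, slice (8a): power series with coefficients in a subalgebra `S ⊆ ℂ` and their conjugates
under a `ℚ`-algebra homomorphism `φ : S → ℂ`

* `HasCoeffs S F` : all coefficients of `F : ℂ⟦X⟧` lie in `S`;
* `conj S φ F` : the series obtained by applying `φ` to all coefficients (junk value `0` if the
  coefficients are not in `S`); it is a ring homomorphism on the series with coefficients in `S`;
* `IsRat F` : all coefficients rational; such series have coefficients in every `S` and are fixed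
  by every `φ`;
* `hasCoeffs_of_mul_eq` : division by a series with invertible (in `S`) leading coefficient.
-/

set_option autoImplicit false

namespace Fermat.Agent.S23.CoeffRing

open PowerSeries

variable (S : Subalgebra ℚ ℂ)

/-- All coefficients of `F` lie in `S`. -/
def HasCoeffs (F : PowerSeries ℂ) : Prop := ∀ n, coeff n F ∈ S

/-- The series over `S` underlying a series with coefficients in `S`. -/
noncomputable def lower (F : PowerSeries ℂ) (h : HasCoeffs S F) : PowerSeries S :=
  PowerSeries.mk fun n => ⟨coeff n F, h n⟩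

variable {S}

@[simp] theorem coeff_lower (F : PowerSeries ℂ) (h : HasCoeffs S F) (n : ℕ) :
    ((coeff n (lower S F h) : S) : ℂ) = coeff n F := by
  simp [lower]

theorem map_val_lower (F : PowerSeries ℂ) (h : HasCoeffs S F) :
    PowerSeries.map (S.val : S →+* ℂ) (lower S F h) = F := by
  ext n
  simp

theorem map_val_injective : Function.Injective (PowerSeries.map (S.val : S →+* ℂ)) := by
  intro F G h
  ext n
  have := congrArg (coeff n) h
  simpa using this

theorem hasCoeffs_map_val (G : PowerSeries S) :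
    HasCoeffs S (PowerSeries.map (S.val : S →+* ℂ) G) := by
  intro n
  simp

theorem hasCoeffs_iff (F : PowerSeries ℂ) :
    HasCoeffs S F ↔ ∃ G : PowerSeries S, PowerSeries.map (S.val : S →+* ℂ) G = F :=
  ⟨fun h => ⟨lower S F h, map_val_lower F h⟩, fun ⟨G, hG⟩ => hG ▸ hasCoeffs_map_val G⟩

theorem lower_eq (F : PowerSeries ℂ) (h : HasCoeffs S F) (G : PowerSeries S)
    (hG : PowerSeries.map (S.val : S →+* ℂ) G = F) : lower S F h = G :=
  map_val_injective ((map_val_lower F h).trans hG.symm)

namespace HasCoeffs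

variable {F G : PowerSeries ℂ}

theorem zero : HasCoeffs S 0 := fun n => by simp

theorem one : HasCoeffs S 1 := (hasCoeffs_iff _).mpr ⟨1, map_one _⟩

theorem add (hF : HasCoeffs S F) (hG : HasCoeffs S G) : HasCoeffs S (F + G) :=
  (hasCoeffs_iff _).mpr ⟨lower S F hF + lower S G hG, by
    rw [map_add, map_val_lower, map_val_lower]⟩

theorem mul (hF : HasCoeffs S F) (hG : HasCoeffs S G) : HasCoeffs S (F * G) :=
  (hasCoeffs_iff _).mpr ⟨lower S F hF * lower S G hG, by
    rw [map_mul, map_val_lower, map_val_lower]⟩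

theorem neg (hF : HasCoeffs S F) : HasCoeffs S (-F) :=
  (hasCoeffs_iff _).mpr ⟨-lower S F hF, by rw [map_neg, map_val_lower]⟩

theorem sub (hF : HasCoeffs S F) (hG : HasCoeffs S G) : HasCoeffs S (F - G) := by
  rw [sub_eq_add_neg]
  exact hF.add hG.neg

theorem pow (hF : HasCoeffs S F) (n : ℕ) : HasCoeffs S (F ^ n) :=
  (hasCoeffs_iff _).mpr ⟨lower S F hF ^ n, by rw [map_pow, map_val_lower]⟩

theorem sum {ι : Type*} (s : Finset ι) {F : ι → PowerSeries ℂ} (h : ∀ i ∈ s, HasCoeffs S (F i)) :
    HasCoeffs S (∑ i ∈ s, F i) := by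
  classical
  induction s using Finset.induction_on with
  | empty => simpa using zero
  | insert a s ha ih =>
    rw [Finset.sum_insert ha]
    exact (h a (Finset.mem_insert_self a s)).add
      (ih fun i hi => h i (Finset.mem_insert_of_mem hi))

theorem prod {ι : Type*} (s : Finset ι) {F : ι → PowerSeries ℂ} (h : ∀ i ∈ s, HasCoeffs S (F i)) :
    HasCoeffs S (∏ i ∈ s, F i) := by
  classical
  induction s using Finset.induction_on with
  | empty => simpa using one
  | insert a s ha ih =>
    rw [Finset.prod_insert ha]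
    exact (h a (Finset.mem_insert_self a s)).mul
      (ih fun i hi => h i (Finset.mem_insert_of_mem hi))

theorem C {c : ℂ} (hc : c ∈ S) : HasCoeffs S (PowerSeries.C c) :=
  (hasCoeffs_iff _).mpr ⟨PowerSeries.C ⟨c, hc⟩, by simp⟩

theorem smul {c : ℂ} (hc : c ∈ S) (hF : HasCoeffs S F) : HasCoeffs S (c • F) := by
  intro n
  rw [PowerSeries.coeff_smul]
  exact S.mul_mem hc (hF n)

theorem mono {S' : Subalgebra ℚ ℂ} (hSS' : S ≤ S') (hF : HasCoeffs S F) : HasCoeffs S' F :=
  fun n => hSS' (hF n)

end HasCoeffs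

variable (S) in
/-- Apply `φ` to all the coefficients (junk value `0` if they are not all in `S`). -/
noncomputable def conj (φ : S →ₐ[ℚ] ℂ) (F : PowerSeries ℂ) : PowerSeries ℂ := by
  classical
  exact if h : HasCoeffs S F then PowerSeries.map (φ : S →+* ℂ) (lower S F h) else 0

section Conj

variable (φ : S →ₐ[ℚ] ℂ) {F G : PowerSeries ℂ}

theorem conj_eq (hF : HasCoeffs S F) :
    conj S φ F = PowerSeries.map (φ : S →+* ℂ) (lower S F hF) := by
  unfold conj
  rw [dif_pos hF]

theorem coeff_conj (hF : HasCoeffs S F) (n : ℕ) :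
    coeff n (conj S φ F) = φ ⟨coeff n F, hF n⟩ := by
  rw [conj_eq φ hF]
  simp [lower]

theorem conj_of_lower (hF : HasCoeffs S F) (G : PowerSeries S)
    (hG : PowerSeries.map (S.val : S →+* ℂ) G = F) :
    conj S φ F = PowerSeries.map (φ : S →+* ℂ) G := by
  rw [conj_eq φ hF, lower_eq F hF G hG]

theorem conj_zero : conj S φ 0 = 0 := by
  rw [conj_of_lower φ HasCoeffs.zero 0 (map_zero _), map_zero]

theorem conj_one : conj S φ 1 = 1 := by
  rw [conj_of_lower φ HasCoeffs.one 1 (map_one _), map_one]

theorem conj_add (hF : HasCoeffs S F) (hG : HasCoeffs S G) :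
    conj S φ (F + G) = conj S φ F + conj S φ G := by
  rw [conj_of_lower φ (hF.add hG) (lower S F hF + lower S G hG)
    (by rw [map_add, map_val_lower, map_val_lower]), map_add, conj_eq φ hF, conj_eq φ hG]

theorem conj_mul (hF : HasCoeffs S F) (hG : HasCoeffs S G) :
    conj S φ (F * G) = conj S φ F * conj S φ G := by
  rw [conj_of_lower φ (hF.mul hG) (lower S F hF * lower S G hG)
    (by rw [map_mul, map_val_lower, map_val_lower]), map_mul, conj_eq φ hF, conj_eq φ hG]

theorem conj_neg (hF : HasCoeffs S F) : conj S φ (-F) = -conj S φ F := by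
  rw [conj_of_lower φ hF.neg (-lower S F hF) (by rw [map_neg, map_val_lower]), map_neg,
    conj_eq φ hF]

theorem conj_sub (hF : HasCoeffs S F) (hG : HasCoeffs S G) :
    conj S φ (F - G) = conj S φ F - conj S φ G := by
  rw [sub_eq_add_neg, conj_add φ hF hG.neg, conj_neg φ hG, sub_eq_add_neg]

theorem conj_pow (hF : HasCoeffs S F) (n : ℕ) : conj S φ (F ^ n) = conj S φ F ^ n := by
  rw [conj_of_lower φ (hF.pow n) (lower S F hF ^ n) (by rw [map_pow, map_val_lower]), map_pow,
    conj_eq φ hF]

theorem conj_sum {ι : Type*} (s : Finset ι) {F : ι → PowerSeries ℂ}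
    (h : ∀ i ∈ s, HasCoeffs S (F i)) :
    conj S φ (∑ i ∈ s, F i) = ∑ i ∈ s, conj S φ (F i) := by
  classical
  induction s using Finset.induction_on with
  | empty => simpa using conj_zero φ
  | insert a s ha ih =>
    have h1 := h a (Finset.mem_insert_self a s)
    have h2 : ∀ i ∈ s, HasCoeffs S (F i) := fun i hi => h i (Finset.mem_insert_of_mem hi)
    rw [Finset.sum_insert ha, Finset.sum_insert ha, conj_add φ h1 (HasCoeffs.sum s h2), ih h2]

theorem conj_C {c : ℂ} (hc : c ∈ S) : conj S φ (PowerSeries.C c) = PowerSeries.C (φ ⟨c, hc⟩) := by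
  rw [conj_of_lower φ (HasCoeffs.C hc) (PowerSeries.C ⟨c, hc⟩) (by simp)]
  simp

theorem conj_smul {c : ℂ} (hc : c ∈ S) (hF : HasCoeffs S F) :
    conj S φ (c • F) = φ ⟨c, hc⟩ • conj S φ F := by
  have h1 : c • F = PowerSeries.C c * F := by
    ext n; simp
  rw [h1, conj_mul φ (HasCoeffs.C hc) hF, conj_C φ hc]
  ext n; simp

theorem hasCoeffs_conj_range (hF : HasCoeffs S F) (n : ℕ) :
    coeff n (conj S φ F) ∈ φ.range := by
  rw [coeff_conj φ hF]
  exact ⟨_, rfl⟩

end Conj

/-- A power series all of whose coefficients are rational. -/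
def IsRat (F : PowerSeries ℂ) : Prop := ∀ n, ∃ r : ℚ, coeff n F = (r : ℂ)

theorem IsRat.hasCoeffs {F : PowerSeries ℂ} (hF : IsRat F) : HasCoeffs S F := by
  intro n
  obtain ⟨r, hr⟩ := hF n
  rw [hr]
  exact S.algebraMap_mem r

theorem IsRat.conj {F : PowerSeries ℂ} (hF : IsRat F) (φ : S →ₐ[ℚ] ℂ) : conj S φ F = F := by
  ext n
  rw [coeff_conj φ hF.hasCoeffs]
  obtain ⟨r, hr⟩ := hF n
  have h1 : (⟨coeff n F, hF.hasCoeffs n⟩ : S) = algebraMap ℚ S r := by
    apply Subtype.ext
    change coeff n F = _
    rw [hr]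
    rfl
  rw [h1, φ.commutes, hr]
  rfl

/-- **Division.** If `A * F = B`, the series `A` and `B` have coefficients in `S`, and the lowest
coefficient of `A` is invertible in `S`, then `F` has coefficients in `S`. -/
theorem hasCoeffs_of_mul_eq {A F B : PowerSeries ℂ} (hA : HasCoeffs S A) (hB : HasCoeffs S B)
    (hAFB : A * F = B) (a : ℕ) (hlow : ∀ i < a, coeff i A = 0) (hc0 : coeff a A ≠ 0)
    (hcinv : (coeff a A)⁻¹ ∈ S) : HasCoeffs S F := by
  intro n
  induction n using Nat.strong_induction_on with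
  | _ n ih =>
    have h1 : coeff (a + n) B = ∑ p ∈ Finset.HasAntidiagonal.antidiagonal (a + n), coeff p.1 A * coeff p.2 F := by
      rw [← hAFB, PowerSeries.coeff_mul]
    -- isolate the term `(a, n)`
    have hmem : (a, n) ∈ Finset.HasAntidiagonal.antidiagonal (a + n) := by simp
    rw [← Finset.add_sum_erase _ _ hmem] at h1
    have hrest : ∑ p ∈ (Finset.HasAntidiagonal.antidiagonal (a + n)).erase (a, n), coeff p.1 A * coeff p.2 F ∈ S := by
      refine Subalgebra.sum_mem _ fun p hp => ?_
      rw [Finset.mem_erase, Finset.HasAntidiagonal.mem_antidiagonal] at hp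
      obtain ⟨hne, hsum⟩ := hp
      by_cases hlt : p.1 < a
      · rw [hlow p.1 hlt, zero_mul]
        exact S.zero_mem
      · have hp2 : p.2 < n := by
          rcases Nat.lt_or_ge p.2 n with h | h
          · exact h
          · exfalso
            apply hne
            have h3 : p.1 = a := by omega
            have h4 : p.2 = n := by omega
            exact Prod.ext h3 h4
        exact S.mul_mem (hA p.1) (ih p.2 hp2)
    have h2 : coeff n F = (coeff a A)⁻¹ * (coeff (a + n) B -
        ∑ p ∈ (Finset.HasAntidiagonal.antidiagonal (a + n)).erase (a, n), coeff p.1 A * coeff p.2 F) := by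
      rw [h1]
      field_simp
      ring
    rw [h2]
    exact S.mul_mem hcinv (S.sub_mem (hB _) hrest)

/-- The conjugate of a series whose lowest coefficient is invertible in `S` is nonzero. -/
theorem conj_ne_zero {A : PowerSeries ℂ} (hA : HasCoeffs S A) (φ : S →ₐ[ℚ] ℂ) (a : ℕ)
    (hc0 : coeff a A ≠ 0) (hcinv : (coeff a A)⁻¹ ∈ S) : conj S φ A ≠ 0 := by
  intro h0
  have h1 : coeff a (conj S φ A) = 0 := by rw [h0]; simp
  rw [coeff_conj φ hA] at h1
  have h2 : (⟨coeff a A, hA a⟩ : S) * ⟨(coeff a A)⁻¹, hcinv⟩ = 1 := by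
    apply Subtype.ext
    show coeff a A * (coeff a A)⁻¹ = 1
    exact mul_inv_cancel₀ hc0
  have h3 := congrArg φ h2
  rw [map_mul, h1, zero_mul, map_one] at h3
  exact zero_ne_one h3

end Fermat.Agent.S23.CoeffRing
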