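import Mathlib

/-!
# Level-one modular forms have a rational structure (S23, Project Q, slice (2))

`M_k(SL₂(ℤ))` is spanned over `ℂ` by forms whose `q`-expansion has rational coefficients,
and consequently for every `ℚ`-subalgebra `S ⊆ ℂ`, every `ℚ`-algebra map `φ : S → ℂ` and every
level-one form `f` with all coefficients in `S` there is a level-one form `f^φ` with
coefficients `φ (a_n f)`.
-/

set_option autoImplicit false

open UpperHalfPlane ModularForm ModularFormClass MatrixGroups EisensteinSeries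

namespace Fermat.Agent.S23.LevelOneRat

/-! ### Rational power series -/

/-- A complex power series all of whose coefficients are rational. -/
def IsRatPS (p : PowerSeries ℂ) : Prop := ∀ n : ℕ, ∃ r : ℚ, p.coeff n = (r : ℂ)

theorem isRatPS_iff_mem_range (p : PowerSeries ℂ) :
    IsRatPS p ↔ p ∈ (PowerSeries.map (algebraMap ℚ ℂ)).range := by
  constructor
  · intro h
    choose r hr using h
    refine ⟨PowerSeries.mk r, ?_⟩
    ext n
    simp [hr n]
  · rintro ⟨P, rfl⟩ n
    exact ⟨P.coeff n, by simp⟩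

theorem IsRatPS.zero : IsRatPS 0 := fun _ => ⟨0, by simp⟩

theorem IsRatPS.one : IsRatPS 1 := by
  rw [isRatPS_iff_mem_range]; exact Subring.one_mem _

theorem IsRatPS.add {p q : PowerSeries ℂ} (hp : IsRatPS p) (hq : IsRatPS q) : IsRatPS (p + q) := by
  rw [isRatPS_iff_mem_range] at *; exact Subring.add_mem _ hp hq

theorem IsRatPS.sub {p q : PowerSeries ℂ} (hp : IsRatPS p) (hq : IsRatPS q) : IsRatPS (p - q) := by
  rw [isRatPS_iff_mem_range] at *; exact Subring.sub_mem _ hp hq

theorem IsRatPS.neg {p : PowerSeries ℂ} (hp : IsRatPS p) : IsRatPS (-p) := by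
  rw [isRatPS_iff_mem_range] at *; exact Subring.neg_mem _ hp

theorem IsRatPS.mul {p q : PowerSeries ℂ} (hp : IsRatPS p) (hq : IsRatPS q) : IsRatPS (p * q) := by
  rw [isRatPS_iff_mem_range] at *; exact Subring.mul_mem _ hp hq

theorem IsRatPS.pow {p : PowerSeries ℂ} (hp : IsRatPS p) (n : ℕ) : IsRatPS (p ^ n) := by
  rw [isRatPS_iff_mem_range] at *; exact Subring.pow_mem _ hp n

theorem IsRatPS.rat_smul {p : PowerSeries ℂ} (hp : IsRatPS p) (r : ℚ) :
    IsRatPS ((r : ℂ) • p) := by
  intro n
  obtain ⟨s, hs⟩ := hp n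
  exact ⟨r * s, by simp [hs]⟩

/-! ### Rational level-one forms -/

/-- A level-one modular form with rational `q`-expansion. -/
def IsRatMF {k : ℤ} (f : ModularForm 𝒮ℒ k) : Prop := IsRatPS (qExpansion 1 f)

theorem isRatMF_iff {k : ℤ} (f : ModularForm 𝒮ℒ k) :
    IsRatMF f ↔ ∀ n : ℕ, ∃ r : ℚ, (qExpansion 1 f).coeff n = (r : ℂ) := Iff.rfl

theorem isRatMF_E {k : ℕ} (hk : 3 ≤ k) (hk2 : Even k) : IsRatMF (E hk) := by
  intro n
  rw [E_qExpansion_coeff hk hk2]
  split_ifs with h
  · exact ⟨1, by simp⟩
  · refine ⟨-(2 * k / bernoulli k) * (ArithmeticFunction.sigma (k - 1) n : ℚ), ?_⟩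
    push_cast
    ring


theorem isRatPS_discriminant : IsRatPS (qExpansion 1 ModularForm.discriminant) := by
  -- 1728 Δ = E₄³ - E₆²
  set G : ModularForm 𝒮ℒ 12 :=
    ModularForm.mcast (by decide) (E₄.pow 3) - ModularForm.mcast (by decide) (E₆.pow 2) with hG
  have hGq : qExpansion 1 G = qExpansion 1 E₄ ^ 3 - qExpansion 1 E₆ ^ 2 := by
    simp only [hG, FunLike.coe_sub, coe_mcast,
      ModularForm.qExpansion_sub one_pos one_mem_strictPeriods_SL,
      ModularForm.qExpansion_pow one_pos one_mem_strictPeriods_SL]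
  have hGΔ : (G : ℍ → ℂ) = ((1728 : ℂ) • CuspForm.discriminant : CuspForm 𝒮ℒ 12) := by
    ext z
    have := discriminant_eq_E₄_cube_sub_E₆_sq z
    simp only [hG, coe_mcast, coe_pow, sub_apply, Pi.pow_apply]
    change _ = (1728 : ℂ) * ModularForm.discriminant z
    rw [this]; ring
  have h2 := ModularForm.qExpansion_smul one_pos one_mem_strictPeriods_SL (1728 : ℂ)
      CuspForm.discriminant
  have h3 : qExpansion 1 ModularForm.discriminant
      = ((1 / 1728 : ℚ) : ℂ) • (qExpansion 1 E₄ ^ 3 - qExpansion 1 E₆ ^ 2) := by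
    rw [← hGq, hGΔ]
    erw [h2]
    rw [CuspForm.coe_discriminant, smul_smul]
    norm_num
  rw [h3]
  exact (((isRatMF_E _ ⟨2, rfl⟩).pow 3).sub ((isRatMF_E _ ⟨3, rfl⟩).pow 2)).rat_smul _

/-- The span of the rational forms. -/
def ratSpan (k : ℤ) : Submodule ℂ (ModularForm 𝒮ℒ k) :=
  Submodule.span ℂ {f : ModularForm 𝒮ℒ k | IsRatMF f}

/-- Multiplication by `Δ` as a linear map `M_(k-12) → M_k`. -/
noncomputable def mulDelta (k : ℤ) : ModularForm 𝒮ℒ (k - 12) →ₗ[ℂ] ModularForm 𝒮ℒ k :=
  (CuspForm.toModularFormₗ (Γ := 𝒮ℒ) (k := k)).comp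
    (CuspForm.discriminantEquiv (k := k)).symm.toLinearMap

theorem mulDelta_apply (k : ℤ) (h : ModularForm 𝒮ℒ (k - 12)) (z : ℍ) :
    mulDelta k h z = ModularForm.discriminant z * h z := rfl

theorem qExpansion_mulDelta (k : ℤ) (h : ModularForm 𝒮ℒ (k - 12)) :
    qExpansion 1 (mulDelta k h) = qExpansion 1 ModularForm.discriminant * qExpansion 1 h := by
  have : (mulDelta k h : ℍ → ℂ) = (CuspForm.discriminant : ℍ → ℂ) * (h : ℍ → ℂ) := by
    ext z; rfl
  rw [this, ModularForm.qExpansion_mul_coe one_pos one_mem_strictPeriods_SL]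
  rfl

theorem mulDelta_mem_ratSpan (k : ℤ) (h : ModularForm 𝒮ℒ (k - 12)) (hh : h ∈ ratSpan (k - 12)) :
    mulDelta k h ∈ ratSpan k := by
  have : ratSpan (k - 12) ≤ (ratSpan k).comap (mulDelta k) := by
    refine Submodule.span_le.mpr fun g hg => ?_
    refine Submodule.subset_span ?_
    show IsRatPS _
    rw [qExpansion_mulDelta]
    exact isRatPS_discriminant.mul hg
  exact this hh

/-- Every form `f` of weight `n + 1 ≥ 3` (even) is `a₀(f) E + Δ h`. -/
theorem exists_eq_smul_E_add_mulDelta {n : ℕ} (h3 : 3 ≤ n + 1) (hev : Even (n + 1))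
    (f : ModularForm 𝒮ℒ ((n + 1 : ℕ) : ℤ)) :
    ∃ h : ModularForm 𝒮ℒ (((n + 1 : ℕ) : ℤ) - 12),
      f = (qExpansion 1 f).coeff 0 • E h3 + mulDelta _ h := by
  set a := (qExpansion 1 f).coeff 0 with ha
  set g : ModularForm 𝒮ℒ ((n + 1 : ℕ) : ℤ) := f - a • E h3 with hg
  have hg0 : (qExpansion 1 g).coeff 0 = 0 := by
    rw [hg, FunLike.coe_sub, ModularForm.qExpansion_sub one_pos one_mem_strictPeriods_SL,
      FunLike.coe_smul, ModularForm.qExpansion_smul one_pos one_mem_strictPeriods_SL, map_sub,
      PowerSeries.coeff_smul, E_qExpansion_coeff_zero h3 hev, smul_eq_mul, mul_one, sub_self]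
  have hfg : f = a • E h3 + g := by rw [hg]; abel
  refine ⟨CuspForm.discriminantEquiv (toCuspForm g hg0), ?_⟩
  have hgm : g = mulDelta _ (CuspForm.discriminantEquiv (toCuspForm g hg0)) := by
    ext z
    rw [mulDelta_apply, discriminant_mul_discriminantEquiv_apply]
    rfl
  rw [← hgm]
  exact hfg

theorem mem_ratSpan_aux (n : ℕ) : ∀ k : ℤ, k ≤ n → ∀ f : ModularForm 𝒮ℒ k, f ∈ ratSpan k := by
  induction n with
  | zero =>
    intro k hk f
    rcases lt_or_eq_of_le hk with hk | hk
    · have : f = 0 :=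
        rank_zero_iff_forall_zero.mp (levelOne_neg_weight_rank_zero (by simpa using hk)) f
      rw [this]; exact Submodule.zero_mem _
    · simp only [Nat.cast_zero] at hk
      subst hk
      obtain ⟨c, hc⟩ := levelOne_weight_zero_const f
      have h1 : f = c • (1 : ModularForm 𝒮ℒ 0) := by
        ext z; simp [hc]
      rw [h1]
      refine Submodule.smul_mem _ _ (Submodule.subset_span ?_)
      show IsRatPS _
      rw [ModularForm.qExpansion_one]
      exact IsRatPS.one
  | succ n ih =>
    intro k hk f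
    rcases lt_or_eq_of_le hk with hk | hk
    · exact ih k (by push_cast at hk; omega) f
    · -- k = n + 1
      rcases Int.even_or_odd k with hev | hodd
      swap
      · rw [levelOne_odd_weight_eq_zero hodd f]; exact Submodule.zero_mem _
      by_cases h3 : n + 1 < 3
      · -- k = 2 (k = 1 is odd)
        have hk2 : k = 2 := by
          rcases hev with ⟨m, hm⟩
          push_cast at hk; omega
        subst hk2
        have : f = 0 := rank_zero_iff_forall_zero.mp levelOne_weight_two_rank_zero f
        rw [this]; exact Submodule.zero_mem _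
      · have h3' : 3 ≤ n + 1 := not_lt.mp h3
        subst hk
        have hev' : Even (n + 1) := by exact_mod_cast hev
        obtain ⟨h, hh⟩ := exists_eq_smul_E_add_mulDelta h3' hev' f
        rw [hh]
        refine Submodule.add_mem _
          (Submodule.smul_mem _ _ (Submodule.subset_span (isRatMF_E h3' hev'))) ?_
        exact mulDelta_mem_ratSpan _ _ (ih _ (by push_cast; omega) _)

/-- **Level-one forms are spanned by forms with rational `q`-expansion.** -/
theorem span_isRat_eq_top (k : ℤ) :
    Submodule.span ℂ {f : ModularForm 𝒮ℒ k | IsRatMF f} = ⊤ := by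
  refine eq_top_iff.mpr fun f _ => ?_
  exact mem_ratSpan_aux k.toNat k (Int.self_le_toNat k) f


theorem exists_rat_basis (k : ℤ) :
    ∃ (n : ℕ) (b : Module.Basis (Fin n) ℂ (ModularForm 𝒮ℒ k)), ∀ i, IsRatMF (b i) := by
  have hs : ⊤ ≤ Submodule.span ℂ {f : ModularForm 𝒮ℒ k | IsRatMF f} :=
    (span_isRat_eq_top k).ge
  let b := Module.Basis.ofSpan hs
  have : Fintype _ := FiniteDimensional.fintypeBasisIndex b
  refine ⟨_, b.reindex (Fintype.equivFin _), fun i => ?_⟩
  have : b.reindex (Fintype.equivFin _) i ∈ Set.range b := by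
    rw [Module.Basis.reindex_apply]; exact Set.mem_range_self _
  exact Module.Basis.ofSpan_subset hs this


theorem IsRatPS.exists_lift {p : PowerSeries ℂ} (hp : IsRatPS p) :
    ∃ P : PowerSeries ℚ, P.map (algebraMap ℚ ℂ) = p :=
  (isRatPS_iff_mem_range p).mp hp

section Conj

variable {S : Type*} [CommRing S] [Algebra ℚ S]

theorem map_map_algebraMap (χ : S →ₐ[ℚ] ℂ) (P : PowerSeries ℚ) :
    (P.map (algebraMap ℚ S)).map (χ : S →+* ℂ) = P.map (algebraMap ℚ ℂ) := by
  ext n
  simp

theorem qExpansion_discriminant_ne_zero : qExpansion 1 ModularForm.discriminant ≠ 0 := by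
  intro h
  have := discriminant_qExpansion_coeff_one
  rw [h] at this
  simp at this

theorem qExpansion_discriminant_coeff_zero :
    (qExpansion 1 ModularForm.discriminant).coeff 0 = 0 :=
  PowerSeries.coeff_of_lt_order 0 (by rw [discriminant_qExpansion_order]; norm_num)

/-- Key division step: if `P' : S⟦X⟧` maps under `ψ` to `qΔ * q`, then `P' = Δ_S * H` with
`H ↦ q`. -/
theorem exists_div_discriminant (ψ : S →ₐ[ℚ] ℂ) (hψ : Function.Injective ψ)
    (P' : PowerSeries S) (q : PowerSeries ℂ)
    (hP' : P'.map (ψ : S →+* ℂ) = qExpansion 1 ModularForm.discriminant * q) :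
    ∃ (D : PowerSeries ℚ) (H : PowerSeries S),
      D.map (algebraMap ℚ ℂ) = qExpansion 1 ModularForm.discriminant ∧
      P' = D.map (algebraMap ℚ S) * H ∧ H.map (ψ : S →+* ℂ) = q := by
  obtain ⟨D, hD⟩ := isRatPS_discriminant.exists_lift
  have hD0 : PowerSeries.constantCoeff D = 0 := by
    have h := congrArg (PowerSeries.coeff 0) hD
    rw [PowerSeries.coeff_map, qExpansion_discriminant_coeff_zero] at h
    simpa using h
  have hD1 : PowerSeries.coeff 1 D = 1 := by
    have h := congrArg (PowerSeries.coeff 1) hD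
    rw [PowerSeries.coeff_map, discriminant_qExpansion_coeff_one] at h
    exact (algebraMap ℚ ℂ).injective (by rw [h, map_one])
  set U : PowerSeries ℚ := PowerSeries.mk fun p => PowerSeries.coeff (p + 1) D with hU
  have hDU : D = PowerSeries.X * U := by
    have := PowerSeries.sub_const_eq_X_mul_shift D
    rw [hD0, map_zero, sub_zero] at this
    exact this
  have hU0 : PowerSeries.constantCoeff U = 1 := by
    rw [hU, ← PowerSeries.coeff_zero_eq_constantCoeff_apply, PowerSeries.coeff_mk]
    simpa using hD1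
  set US : PowerSeries S := U.map (algebraMap ℚ S) with hUS
  have hUS0 : PowerSeries.constantCoeff US = ((1 : Sˣ) : S) := by
    rw [hUS, ← PowerSeries.coeff_zero_eq_constantCoeff_apply, PowerSeries.coeff_map,
      PowerSeries.coeff_zero_eq_constantCoeff_apply, hU0]
    simp
  -- constant coefficient of P'
  have hP0 : PowerSeries.constantCoeff P' = 0 := by
    apply hψ
    have h := congrArg (PowerSeries.coeff 0) hP'
    rw [PowerSeries.coeff_map] at h
    rw [map_zero, ← PowerSeries.coeff_zero_eq_constantCoeff_apply]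
    rw [show (ψ : S →+* ℂ) (PowerSeries.coeff 0 P') = ψ (PowerSeries.coeff 0 P') from rfl] at h
    rw [h, ← hD, hDU]
    simp
  set P'' : PowerSeries S := PowerSeries.mk fun p => PowerSeries.coeff (p + 1) P' with hP''
  have hPX : P' = PowerSeries.X * P'' := by
    have := PowerSeries.sub_const_eq_X_mul_shift P'
    rw [hP0, map_zero, sub_zero] at this
    exact this
  have hDS : D.map (algebraMap ℚ S) = PowerSeries.X * US := by
    rw [hDU, map_mul, PowerSeries.map_X]
  have hinv : US * PowerSeries.invOfUnit US 1 = 1 := PowerSeries.mul_invOfUnit US 1 hUS0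
  have hfac : P' = D.map (algebraMap ℚ S) * (P'' * PowerSeries.invOfUnit US 1) := by
    calc P' = PowerSeries.X * P'' * (US * PowerSeries.invOfUnit US 1) := by
          rw [hinv, mul_one, hPX]
      _ = D.map (algebraMap ℚ S) * (P'' * PowerSeries.invOfUnit US 1) := by
          rw [hDS]; ring
  refine ⟨D, P'' * PowerSeries.invOfUnit US 1, hD, hfac, ?_⟩
  have h1 : qExpansion 1 ModularForm.discriminant *
      (P'' * PowerSeries.invOfUnit US 1).map (ψ : S →+* ℂ) =
      qExpansion 1 ModularForm.discriminant * q := by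
    rw [← hP']
    conv_rhs => rw [hfac]
    rw [map_mul (PowerSeries.map (ψ : S →+* ℂ)) (D.map (algebraMap ℚ S)), map_map_algebraMap, hD]
  exact mul_left_cancel₀ qExpansion_discriminant_ne_zero h1





theorem exists_conj_of_eq_zero (ψ φ : S →ₐ[ℚ] ℂ) (hψ : Function.Injective ψ) {k : ℤ}
    (f : ModularForm 𝒮ℒ k) (hf : f = 0) (P : PowerSeries S)
    (hP : P.map (ψ : S →+* ℂ) = qExpansion 1 f) :
    ∃ g : ModularForm 𝒮ℒ k, qExpansion 1 g = P.map (φ : S →+* ℂ) := by
  refine ⟨0, ?_⟩
  have hP0 : P = 0 := by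
    apply PowerSeries.map_injective (ψ : S →+* ℂ) hψ
    rw [hP, hf, map_zero]
    exact qExpansion_zero 1
  rw [hP0, map_zero]
  exact qExpansion_zero 1

theorem exists_conj_aux (ψ φ : S →ₐ[ℚ] ℂ) (hψ : Function.Injective ψ) (n : ℕ) :
    ∀ k : ℤ, k ≤ n → ∀ (f : ModularForm 𝒮ℒ k) (P : PowerSeries S),
      P.map (ψ : S →+* ℂ) = qExpansion 1 f →
      ∃ g : ModularForm 𝒮ℒ k, qExpansion 1 g = P.map (φ : S →+* ℂ) := by
  induction n with
  | zero =>
    intro k hk f P hP
    rcases lt_or_eq_of_le hk with hk | hk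
    · exact exists_conj_of_eq_zero ψ φ hψ f
        (rank_zero_iff_forall_zero.mp (levelOne_neg_weight_rank_zero (by simpa using hk)) f) P hP
    · simp only [Nat.cast_zero] at hk
      subst hk
      obtain ⟨c, hc⟩ := levelOne_weight_zero_const f
      have h1 : f = c • (1 : ModularForm 𝒮ℒ 0) := by
        ext z; simp [hc]
      have hq : qExpansion 1 f = PowerSeries.C c := by
        rw [h1, FunLike.coe_smul, ModularForm.qExpansion_smul one_pos one_mem_strictPeriods_SL,
          ModularForm.qExpansion_one]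
        ext n; simp [PowerSeries.coeff_C, PowerSeries.coeff_one]
      have hPC : P = PowerSeries.C (PowerSeries.coeff 0 P) := by
        ext m
        rcases Nat.eq_zero_or_pos m with rfl | hm
        · simp
        · rw [PowerSeries.coeff_C, if_neg hm.ne']
          apply hψ
          have h := congrArg (PowerSeries.coeff m) hP
          rw [PowerSeries.coeff_map, hq, PowerSeries.coeff_C, if_neg hm.ne'] at h
          rw [map_zero]; exact h
      refine ⟨φ (PowerSeries.coeff 0 P) • (1 : ModularForm 𝒮ℒ 0), ?_⟩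
      rw [FunLike.coe_smul, ModularForm.qExpansion_smul one_pos one_mem_strictPeriods_SL,
        ModularForm.qExpansion_one]
      conv_rhs => rw [hPC, PowerSeries.map_C]
      ext n; simp [PowerSeries.coeff_C, PowerSeries.coeff_one]
  | succ n ih =>
    intro k hk f P hP
    rcases lt_or_eq_of_le hk with hk | hk
    · exact ih k (by push_cast at hk; omega) f P hP
    · rcases Int.even_or_odd k with hev | hodd
      swap
      · exact exists_conj_of_eq_zero ψ φ hψ f (levelOne_odd_weight_eq_zero hodd f) P hP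
      by_cases h3 : n + 1 < 3
      · have hk2 : k = 2 := by
          rcases hev with ⟨m, hm⟩
          push_cast at hk; omega
        subst hk2
        exact exists_conj_of_eq_zero ψ φ hψ f
          (rank_zero_iff_forall_zero.mp levelOne_weight_two_rank_zero f) P hP
      · have h3' : 3 ≤ n + 1 := not_lt.mp h3
        subst hk
        have hev' : Even (n + 1) := by exact_mod_cast hev
        obtain ⟨h, hh⟩ := exists_eq_smul_E_add_mulDelta h3' hev' f
        obtain ⟨EQ, hEQ⟩ := (isRatMF_E h3' hev').exists_lift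
        set a : S := PowerSeries.coeff 0 P with ha
        have hψa : ψ a = (qExpansion 1 f).coeff 0 := by
          rw [← hP, PowerSeries.coeff_map]; rfl
        set P' : PowerSeries S := P - PowerSeries.C a * EQ.map (algebraMap ℚ S) with hP'def
        have hqf : qExpansion 1 f = (qExpansion 1 f).coeff 0 • qExpansion 1 (E h3') +
            qExpansion 1 ModularForm.discriminant * qExpansion 1 h := by
          conv_lhs => rw [hh]
          rw [FunLike.coe_add, ModularForm.qExpansion_add one_pos one_mem_strictPeriods_SL,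
            FunLike.coe_smul, ModularForm.qExpansion_smul one_pos one_mem_strictPeriods_SL,
            qExpansion_mulDelta]
        have hP'map : P'.map (ψ : S →+* ℂ) =
            qExpansion 1 ModularForm.discriminant * qExpansion 1 h := by
          rw [hP'def, map_sub, hP, map_mul, map_map_algebraMap, hEQ, PowerSeries.map_C]
          rw [show (ψ : S →+* ℂ) a = ψ a from rfl, hψa, ← PowerSeries.smul_eq_C_mul]
          generalize (qExpansion 1 f).coeff 0 = c at hqf ⊢
          rw [hqf]
          abel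
        obtain ⟨D, H, hD, hfac, hH⟩ := exists_div_discriminant ψ hψ P' _ hP'map
        obtain ⟨gh, hgh⟩ := ih _ (by push_cast; omega) h H hH
        refine ⟨φ a • E h3' + mulDelta _ gh, ?_⟩
        rw [FunLike.coe_add, ModularForm.qExpansion_add one_pos one_mem_strictPeriods_SL,
            FunLike.coe_smul, ModularForm.qExpansion_smul one_pos one_mem_strictPeriods_SL,
            qExpansion_mulDelta, hgh]
        have hPeq : P = PowerSeries.C a * EQ.map (algebraMap ℚ S) +
            D.map (algebraMap ℚ S) * H := by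
          rw [← hfac, hP'def]; abel
        conv_rhs => rw [hPeq]
        rw [map_add, map_mul, map_mul, map_map_algebraMap, map_map_algebraMap, hEQ, hD,
          PowerSeries.map_C, ← PowerSeries.smul_eq_C_mul]
        rfl





/-- **Conjugation of level-one forms, power-series version.**  If `ψ : S → ℂ` is an injective
`ℚ`-algebra map, `P : S⟦X⟧` maps under `ψ` to the `q`-expansion of a level-one form `f`, and
`φ : S → ℂ` is any `ℚ`-algebra map, then `φ(P)` is the `q`-expansion of a level-one form. -/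
theorem exists_conj_ps (ψ φ : S →ₐ[ℚ] ℂ) (hψ : Function.Injective ψ) (k : ℤ)
    (f : ModularForm 𝒮ℒ k) (P : PowerSeries S)
    (hP : P.map (ψ : S →+* ℂ) = qExpansion 1 f) :
    ∃ g : ModularForm 𝒮ℒ k, qExpansion 1 g = P.map (φ : S →+* ℂ) :=
  exists_conj_aux ψ φ hψ k.toNat k (Int.self_le_toNat k) f P hP

end Conj

/-- **Conjugation of level-one forms.** -/
theorem exists_conj (k : ℤ) (S : Subalgebra ℚ ℂ) (φ : S →ₐ[ℚ] ℂ) (f : ModularForm 𝒮ℒ k)
    (hf : ∀ n, (qExpansion 1 f).coeff n ∈ S) :
    ∃ g : ModularForm 𝒮ℒ k,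
      ∀ n, (qExpansion 1 g).coeff n = φ ⟨(qExpansion 1 f).coeff n, hf n⟩ := by
  obtain ⟨g, hg⟩ := exists_conj_ps S.val φ Subtype.val_injective k f
    (PowerSeries.mk fun n => ⟨(qExpansion 1 f).coeff n, hf n⟩) (by ext n; simp)
  exact ⟨g, fun n => by rw [hg]; simp⟩

/-- Cusp-form version of `exists_conj`. -/
theorem exists_conj_cusp (k : ℤ) (S : Subalgebra ℚ ℂ) (φ : S →ₐ[ℚ] ℂ) (f : CuspForm 𝒮ℒ k)
    (hf : ∀ n, (qExpansion 1 f).coeff n ∈ S) :
    ∃ g : CuspForm 𝒮ℒ k,
      ∀ n, (qExpansion 1 g).coeff n = φ ⟨(qExpansion 1 f).coeff n, hf n⟩ := by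
  obtain ⟨g, hg⟩ := exists_conj k S φ (CuspForm.toModularFormₗ f) hf
  have h0 : (qExpansion 1 g).coeff 0 = 0 := by
    rw [hg 0]
    have : (⟨(qExpansion 1 (CuspForm.toModularFormₗ f)).coeff 0, hf 0⟩ : S) = 0 := by
      ext
      exact CuspFormClass.qExpansion_coeff_zero f one_pos one_mem_strictPeriods_SL
    rw [this, map_zero]
  exact ⟨toCuspForm g h0, fun n => hg n⟩

/-- Level-one cusp forms are spanned by cusp forms with rational `q`-expansion. -/
theorem cusp_span_isRat_eq_top (k : ℤ) :
    Submodule.span ℂ {f : CuspForm 𝒮ℒ k | IsRatPS (qExpansion 1 f)} = ⊤ := by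
  refine eq_top_iff.mpr fun f _ => ?_
  have hle : ratSpan (k - 12) ≤
      (Submodule.span ℂ {f : CuspForm 𝒮ℒ k | IsRatPS (qExpansion 1 f)}).comap
        (CuspForm.discriminantEquiv (k := k)).symm.toLinearMap := by
    refine Submodule.span_le.mpr fun g hg => Submodule.subset_span ?_
    show IsRatPS _
    have := qExpansion_mulDelta k g
    exact this ▸ isRatPS_discriminant.mul hg
  have := hle (mem_ratSpan_aux _ _ (Int.self_le_toNat _) (CuspForm.discriminantEquiv f))
  simpa using this


/-- Cusp variant of `span_isRat_eq_top`, stated inside `ModularForm 𝒮ℒ k`: a form with vanishing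
constant coefficient lies in the span of the rational forms with vanishing constant coefficient. -/
theorem mem_span_isRat_cusp (k : ℤ) (f : ModularForm 𝒮ℒ k) (hf : (qExpansion 1 f).coeff 0 = 0) :
    f ∈ Submodule.span ℂ
      {g : ModularForm 𝒮ℒ k | IsRatMF g ∧ (qExpansion 1 g).coeff 0 = 0} := by
  have hle : ratSpan (k - 12) ≤
      (Submodule.span ℂ
        {g : ModularForm 𝒮ℒ k | IsRatMF g ∧ (qExpansion 1 g).coeff 0 = 0}).comap
        (mulDelta k) := by
    refine Submodule.span_le.mpr fun g hg => Submodule.subset_span ⟨?_, ?_⟩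
    · show IsRatPS _
      rw [qExpansion_mulDelta]
      exact isRatPS_discriminant.mul hg
    · rw [qExpansion_mulDelta, PowerSeries.coeff_mul]
      simp [qExpansion_discriminant_coeff_zero]
  have hfm : f = mulDelta k (CuspForm.discriminantEquiv (toCuspForm f hf)) := by
    ext z
    rw [mulDelta_apply, discriminant_mul_discriminantEquiv_apply]
    rfl
  rw [hfm]
  exact hle (mem_ratSpan_aux _ _ (Int.self_le_toNat _) _)

end Fermat.Agent.S23.LevelOneRat
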