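import Fermat.Agent.S23.QRing
import Fermat.Agent.S23.CoeffRing

/-!
# S23, slice (8): Galois conjugates of cusp forms (core algebra on `q`-series)

Given
* the rational structure of level-one forms (`LevelOneConj`),
* a characteristic polynomial of `f` over level-one cusp forms (`CharPolyData`),
* a Lagrange representation `D * f = ∑ g_m θ^m`, `D = ∑ d_m θ^m` with level-one coefficients
  (`LagrangeData`),
* bundling of polynomials in `θ` with level-one coefficients into modular forms (`BundleHyp`),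
* integrality implies holomorphy (`IntegralHyp`),

we show that the `q`-expansion of a cusp form `f` of level `Γ₀(N)` has coefficients in a finitely
generated `ℚ`-algebra `S ⊆ ℂ`, and that for every `φ : S →ₐ[ℚ] ℂ` the conjugate series is again
the `q`-expansion of a cusp form of level `Γ₀(N)`.
-/

set_option autoImplicit false

namespace Fermat.Agent.S23.Main

open UpperHalfPlane CongruenceSubgroup ModularFormClass Finset
open scoped Manifold ModularForm MatrixGroups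
open Fermat.Agent.S23.QRing Fermat.Agent.S23.CoeffRing

/-- `F` is (the function underlying) a level-one modular form of weight `j`. -/
def IsL1 (j : ℤ) (F : ℍ → ℂ) : Prop := ∃ G : ModularForm 𝒮ℒ j, ⇑G = F

theorem IsL1.isQ {j : ℤ} {F : ℍ → ℂ} (h : IsL1 j F) : IsQ F := by
  obtain ⟨G, rfl⟩ := h
  exact isQ_of_levelOne G

/-- Level-one forms have coefficients in a finitely generated `ℚ`-algebra and can be conjugated. -/
def LevelOneConj : Prop :=
  ∀ (j : ℤ) (F : ℍ → ℂ), IsL1 j F → ∃ t : Finset ℂ, ∀ S : Subalgebra ℚ ℂ,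
    ((t : Set ℂ) ⊆ (S : Set ℂ)) → HasCoeffs S (qx F) ∧
      ∀ φ : S →ₐ[ℚ] ℂ, ∃ F' : ℍ → ℂ, IsL1 j F' ∧ qx F' = conj S φ (qx F)

/-- `F` is a polynomial in `θ` whose `m`-th coefficient is a level-one form of weight `K - 12 m`. -/
def IsLevelOnePoly (θ : ℍ → ℂ) (K : ℤ) (F : ℍ → ℂ) : Prop :=
  ∃ (n : ℕ) (c : ℕ → ℍ → ℂ), (∀ m < n, IsL1 (K - 12 * m) (c m)) ∧
    ∀ τ, F τ = ∑ m ∈ range n, c m τ * θ τ ^ m

/-- Conjugation of a finite family of level-one forms. -/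
theorem LevelOneConj.family (hc : LevelOneConj) (n : ℕ) (wt : ℕ → ℤ) (c : ℕ → ℍ → ℂ)
    (h : ∀ m < n, IsL1 (wt m) (c m)) :
    ∃ t : Finset ℂ, ∀ S : Subalgebra ℚ ℂ, ((t : Set ℂ) ⊆ (S : Set ℂ)) →
      (∀ m < n, HasCoeffs S (qx (c m))) ∧ ∀ φ : S →ₐ[ℚ] ℂ, ∃ c' : ℕ → ℍ → ℂ,
        ∀ m < n, IsL1 (wt m) (c' m) ∧ qx (c' m) = conj S φ (qx (c m)) := by
  classical
  induction n with
  | zero => exact ⟨∅, fun S _ => ⟨fun m hm => absurd hm (Nat.not_lt_zero m),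
      fun φ => ⟨c, fun m hm => absurd hm (Nat.not_lt_zero m)⟩⟩⟩
  | succ n ih =>
    obtain ⟨t₁, ht₁⟩ := ih fun m hm => h m (Nat.lt_succ_of_lt hm)
    obtain ⟨t₂, ht₂⟩ := hc (wt n) (c n) (h n (Nat.lt_succ_self n))
    refine ⟨t₁ ∪ t₂, fun S hS => ?_⟩
    have hS₁ : (t₁ : Set ℂ) ⊆ (S : Set ℂ) := fun x hx => hS (by simp [hx])
    have hS₂ : (t₂ : Set ℂ) ⊆ (S : Set ℂ) := fun x hx => hS (by simp [hx])
    obtain ⟨h1, h1'⟩ := ht₁ S hS₁
    obtain ⟨h2, h2'⟩ := ht₂ S hS₂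
    refine ⟨fun m hm => ?_, fun φ => ?_⟩
    · rcases Nat.lt_succ_iff_lt_or_eq.mp hm with hm | rfl
      · exact h1 m hm
      · exact h2
    · obtain ⟨c', hc'⟩ := h1' φ
      obtain ⟨F', hF', hF'q⟩ := h2' φ
      refine ⟨fun m => if m = n then F' else c' m, fun m hm => ?_⟩
      rcases Nat.lt_succ_iff_lt_or_eq.mp hm with hm | rfl
      · have hne : m ≠ n := Nat.ne_of_lt hm
        simp only [if_neg hne]
        exact hc' m hm
      · simp only [if_true]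
        exact ⟨hF', hF'q⟩

/-- The `q`-expansion of a polynomial in `θ`. -/
theorem qx_polyTheta {θ : ℍ → ℂ} (hθ : IsQ θ) (n : ℕ) (c : ℕ → ℍ → ℂ)
    (hc : ∀ m < n, IsQ (c m)) (F : ℍ → ℂ)
    (hF : ∀ τ, F τ = ∑ m ∈ range n, c m τ * θ τ ^ m) :
    IsQ F ∧ qx F = ∑ m ∈ range n, qx (c m) * qx θ ^ m := by
  have hF' : F = ∑ m ∈ range n, c m * θ ^ m := by
    funext τ
    rw [hF τ, Finset.sum_apply]
    rfl
  have hQ : ∀ m ∈ range n, IsQ (c m * θ ^ m) := fun m hm =>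
    (hc m (mem_range.mp hm)).mul (hθ.pow m)
  refine ⟨hF' ▸ IsQ.sum _ hQ, ?_⟩
  rw [hF', qx_sum _ hQ]
  refine Finset.sum_congr rfl fun m hm => ?_
  rw [qx_mul (hc m (mem_range.mp hm)) (hθ.pow m), qx_pow hθ]

section Core

variable {N : ℕ} [NeZero N] {k : ℤ}

/-- Bundling hypothesis: polynomials in `θ` with level-one coefficients are modular forms. -/
def BundleHyp (θ : ModularForm (Gamma0 N) 12) : Prop :=
  ∀ (K : ℤ) (F : ℍ → ℂ), IsLevelOnePoly θ K F → ∃ F' : ModularForm (Gamma0 N) K, ⇑F' = F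

/-- Integrality hypothesis (slice (6)): a quotient `w / D` of modular forms which is a root of a
monic polynomial whose coefficients are level-one cusp forms is a cusp form. -/
def IntegralHyp (N : ℕ) (k : ℤ) : Prop :=
  ∀ (K : ℤ) (D : ModularForm (Gamma0 N) K) (w : ModularForm (Gamma0 N) (k + K)) (μ : ℕ)
    (r : ℕ → ℍ → ℂ), D ≠ 0 → r 0 = 1 →
    (∀ i, 1 ≤ i → i ≤ μ → IsL1 (k * i) (r i) ∧ (qx (r i)).coeff 0 = 0) →
    (∀ τ, ∑ i ∈ range (μ + 1), r i τ * D τ ^ i * w τ ^ (μ - i) = 0) →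
    ∃ h : CuspForm (Gamma0 N) k, ∀ τ, D τ * h τ = w τ

/-- Characteristic polynomial data (slice (4)), signs absorbed in the coefficients. -/
def CharPolyData (f : CuspForm (Gamma0 N) k) : Prop :=
  ∃ (μ : ℕ) (e : ℕ → ℍ → ℂ), e 0 = 1 ∧
    (∀ i, 1 ≤ i → i ≤ μ → IsL1 (k * i) (e i) ∧ (qx (e i)).coeff 0 = 0) ∧
    ∀ τ, ∑ i ∈ range (μ + 1), e i τ * f τ ^ (μ - i) = 0

/-- Lagrange data (slices (3)+(5)). -/
def LagrangeData (θ : ModularForm (Gamma0 N) 12) (f : CuspForm (Gamma0 N) k) : Prop :=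
  ∃ (K : ℤ) (D : ModularForm (Gamma0 N) K), D ≠ 0 ∧ IsLevelOnePoly θ K D ∧
    IsLevelOnePoly θ (k + K) (fun τ => D τ * f τ)

theorem isL1_one : IsL1 0 (1 : ℍ → ℂ) := ⟨1, by ext τ; simp⟩

/-- **Main theorem of slice (8).** -/
theorem exists_conj_of_hyps (θ : ModularForm (Gamma0 N) 12) (hθ : IsRat (qx θ))
    (hconj : LevelOneConj) (hbundle : BundleHyp θ) (hint : IntegralHyp N k)
    (f : CuspForm (Gamma0 N) k) (hchar : CharPolyData f) (hlag : LagrangeData θ f) :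
    ∃ (s : Finset ℂ) (hs : ∀ n, qCoeff f n ∈ Algebra.adjoin ℚ (s : Set ℂ)),
      ∀ φ : Algebra.adjoin ℚ (s : Set ℂ) →ₐ[ℚ] ℂ, ∃ f' : CuspForm (Gamma0 N) k,
        ∀ n, qCoeff f' n = φ ⟨qCoeff f n, hs n⟩ := by
  classical
  have hθQ : IsQ θ := isQ_of_modularForm θ
  have hfQ : IsQ f := isQ_of_cuspForm f
  obtain ⟨K, D, hD0, ⟨n₁, d, hd, hDeq⟩, ⟨n₂, g, hg, hDfeq⟩⟩ := hlag
  obtain ⟨μ, e, he0, he, hrel⟩ := hchar
  have hDQ : IsQ D := isQ_of_modularForm D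
  -- all `e i`, `i ≤ μ`, are level one
  have he' : ∀ i < μ + 1, IsL1 (k * i) (e i) := by
    intro i hi
    rcases Nat.eq_zero_or_pos i with rfl | hpos
    · rw [he0]
      simpa using isL1_one
    · exact (he i hpos (Nat.lt_succ_iff.mp hi)).1
  -- finite sets of generators
  obtain ⟨t₁, ht₁⟩ := hconj.family n₁ (fun m => K - 12 * m) d hd
  obtain ⟨t₂, ht₂⟩ := hconj.family n₂ (fun m => k + K - 12 * m) g hg
  obtain ⟨t₃, ht₃⟩ := hconj.family (μ + 1) (fun i => k * i) e he'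
  -- the lowest coefficient of `qx D`
  have hA0 : qx D ≠ 0 := by
    intro h0
    apply hD0
    have := (qx_eq_zero_iff hDQ).mp h0
    ext τ
    exact congrFun this τ
  obtain ⟨a, ha, hamin⟩ : ∃ a, (qx D).coeff a ≠ 0 ∧ ∀ i < a, (qx D).coeff i = 0 := by
    have hex : ∃ a, (qx D).coeff a ≠ 0 := by
      by_contra hne
      exact hA0 (PowerSeries.ext fun n => by
        by_contra hn
        exact hne ⟨n, by simpa using hn⟩)
    refine ⟨Nat.find hex, Nat.find_spec hex, fun i hi => ?_⟩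
    by_contra hne
    exact Nat.find_min hex hi hne
  set s : Finset ℂ := t₁ ∪ t₂ ∪ t₃ ∪ {((qx D).coeff a)⁻¹} with hs_def
  set S : Subalgebra ℚ ℂ := Algebra.adjoin ℚ (s : Set ℂ) with hS_def
  have hsS : (s : Set ℂ) ⊆ (S : Set ℂ) := Algebra.subset_adjoin
  have hS₁ : (t₁ : Set ℂ) ⊆ (S : Set ℂ) := fun x hx => hsS (by simp [hs_def, hx])
  have hS₂ : (t₂ : Set ℂ) ⊆ (S : Set ℂ) := fun x hx => hsS (by simp [hs_def, hx])
  have hS₃ : (t₃ : Set ℂ) ⊆ (S : Set ℂ) := fun x hx => hsS (by simp [hs_def, hx])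
  have hinv : ((qx D).coeff a)⁻¹ ∈ S := hsS (by simp [hs_def])
  obtain ⟨hd1, hd2⟩ := ht₁ S hS₁
  obtain ⟨hg1, hg2⟩ := ht₂ S hS₂
  obtain ⟨he1, he2⟩ := ht₃ S hS₃
  have hθS : HasCoeffs S (qx θ) := hθ.hasCoeffs
  -- `q`-expansions of `D` and `D * f`
  obtain ⟨-, hAeq⟩ := qx_polyTheta hθQ n₁ d (fun m hm => (hd m hm).isQ) D hDeq
  have hDfQ : IsQ (fun τ => D τ * f τ) := hDQ.mul hfQ
  obtain ⟨-, hBeq⟩ := qx_polyTheta hθQ n₂ g (fun m hm => (hg m hm).isQ) _ hDfeq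
  have hAS : HasCoeffs S (qx D) := by
    rw [hAeq]
    exact HasCoeffs.sum _ fun m hm => (hd1 m (mem_range.mp hm)).mul (hθS.pow m)
  have hBS : HasCoeffs S (qx fun τ => D τ * f τ) := by
    rw [hBeq]
    exact HasCoeffs.sum _ fun m hm => (hg1 m (mem_range.mp hm)).mul (hθS.pow m)
  have hAB : qx D * qx f = qx fun τ => D τ * f τ := (qx_mul hDQ hfQ).symm
  have hfS : HasCoeffs S (qx f) := hasCoeffs_of_mul_eq hAS hBS hAB a hamin ha hinv
  refine ⟨s, fun n => hfS n, fun φ => ?_⟩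
  -- conjugate data
  obtain ⟨d', hd'⟩ := hd2 φ
  obtain ⟨g', hg'⟩ := hg2 φ
  obtain ⟨e', he'c⟩ := he2 φ
  -- the conjugates of `D` and `D * f` as modular forms
  obtain ⟨D', hD'⟩ := hbundle K (fun τ => ∑ m ∈ range n₁, d' m τ * θ τ ^ m)
    ⟨n₁, d', fun m hm => (hd' m hm).1, fun τ => rfl⟩
  obtain ⟨w', hw'⟩ := hbundle (k + K) (fun τ => ∑ m ∈ range n₂, g' m τ * θ τ ^ m)
    ⟨n₂, g', fun m hm => (hg' m hm).1, fun τ => rfl⟩
  have hD'Q : IsQ D' := isQ_of_modularForm D'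
  have hw'Q : IsQ w' := isQ_of_modularForm w'
  obtain ⟨-, hA'eq⟩ := qx_polyTheta hθQ n₁ d' (fun m hm => (hd' m hm).1.isQ) D'
    (fun τ => by rw [hD'])
  obtain ⟨-, hB'eq⟩ := qx_polyTheta hθQ n₂ g' (fun m hm => (hg' m hm).1.isQ) w'
    (fun τ => by rw [hw'])
  have hA' : qx D' = conj S φ (qx D) := by
    rw [hA'eq, hAeq, conj_sum φ _ fun m hm => (hd1 m (mem_range.mp hm)).mul (hθS.pow m)]
    refine Finset.sum_congr rfl fun m hm => ?_
    rw [conj_mul φ (hd1 m (mem_range.mp hm)) (hθS.pow m), conj_pow φ hθS, hθ.conj φ,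
      (hd' m (mem_range.mp hm)).2]
  have hB' : qx w' = conj S φ (qx fun τ => D τ * f τ) := by
    rw [hB'eq, hBeq, conj_sum φ _ fun m hm => (hg1 m (mem_range.mp hm)).mul (hθS.pow m)]
    refine Finset.sum_congr rfl fun m hm => ?_
    rw [conj_mul φ (hg1 m (mem_range.mp hm)) (hθS.pow m), conj_pow φ hθS, hθ.conj φ,
      (hg' m (mem_range.mp hm)).2]
  have hD'0 : D' ≠ 0 := by
    intro h0
    have h1 : qx D' = 0 := by rw [h0]; exact (qx_eq_zero_iff IsQ.zero).mpr rfl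
    rw [hA'] at h1
    exact conj_ne_zero hAS φ a ha hinv h1
  -- the relation
  have heQ : ∀ i ∈ range (μ + 1), IsQ (e i) := fun i hi => (he' i (mem_range.mp hi)).isQ
  have he'Q : ∀ i ∈ range (μ + 1), IsQ (e' i) := fun i hi => (he'c i (mem_range.mp hi)).1.isQ
  have hrelq : ∑ i ∈ range (μ + 1), qx (e i) * qx D ^ i * (qx fun τ => D τ * f τ) ^ (μ - i) = 0 := by
    have hfun : (∑ i ∈ range (μ + 1), e i * (D : ℍ → ℂ) ^ i * (fun τ => D τ * f τ) ^ (μ - i)) =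
        0 := by
      funext τ
      rw [Finset.sum_apply]
      have h1 : ∀ i ∈ range (μ + 1),
          (e i * (D : ℍ → ℂ) ^ i * (fun τ => D τ * f τ) ^ (μ - i)) τ =
            D τ ^ μ * (e i τ * f τ ^ (μ - i)) := by
        intro i hi
        have hi' : i ≤ μ := Nat.lt_succ_iff.mp (mem_range.mp hi)
        simp only [Pi.mul_apply, Pi.pow_apply]
        rw [mul_pow, ← Nat.sub_add_cancel hi', pow_add (D τ)]
        simp only [Nat.add_sub_cancel]
        ring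
      rw [Finset.sum_congr rfl h1, ← Finset.mul_sum, hrel τ, mul_zero]
      rfl
    have hQ : ∀ i ∈ range (μ + 1),
        IsQ (e i * (D : ℍ → ℂ) ^ i * (fun τ => D τ * f τ) ^ (μ - i)) := fun i hi =>
      ((heQ i hi).mul (hDQ.pow i)).mul (hDfQ.pow _)
    have := congrArg qx hfun
    rw [qx_sum _ hQ, qx_zero] at this
    rw [← this]
    refine Finset.sum_congr rfl fun i hi => ?_
    rw [qx_mul ((heQ i hi).mul (hDQ.pow i)) (hDfQ.pow _), qx_mul (heQ i hi) (hDQ.pow i),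
      qx_pow hDQ, qx_pow hDfQ]
  have hrelq' : ∑ i ∈ range (μ + 1), qx (e' i) * qx D' ^ i * qx w' ^ (μ - i) = 0 := by
    have hterm : ∀ i ∈ range (μ + 1),
        HasCoeffs S (qx (e i) * qx D ^ i * (qx fun τ => D τ * f τ) ^ (μ - i)) := fun i hi =>
      ((he1 i (mem_range.mp hi)).mul (hAS.pow i)).mul (hBS.pow _)
    have := congrArg (conj S φ) hrelq
    rw [conj_sum φ _ hterm, conj_zero] at this
    rw [← this]
    refine Finset.sum_congr rfl fun i hi => ?_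
    have hi' := mem_range.mp hi
    rw [conj_mul φ ((he1 i hi').mul (hAS.pow i)) (hBS.pow _), conj_mul φ (he1 i hi') (hAS.pow i),
      conj_pow φ hAS, conj_pow φ hBS, ← hA', ← hB', (he'c i hi').2]
  have hrel' : ∀ τ, ∑ i ∈ range (μ + 1), e' i τ * D' τ ^ i * w' τ ^ (μ - i) = 0 := by
    have hQ : ∀ i ∈ range (μ + 1),
        IsQ (e' i * (D' : ℍ → ℂ) ^ i * (w' : ℍ → ℂ) ^ (μ - i)) := fun i hi =>
      ((he'Q i hi).mul (hD'Q.pow i)).mul (hw'Q.pow _)
    have hz : qx (∑ i ∈ range (μ + 1), e' i * (D' : ℍ → ℂ) ^ i * (w' : ℍ → ℂ) ^ (μ - i)) = 0 := by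
      rw [qx_sum _ hQ, ← hrelq']
      refine Finset.sum_congr rfl fun i hi => ?_
      rw [qx_mul ((he'Q i hi).mul (hD'Q.pow i)) (hw'Q.pow _), qx_mul (he'Q i hi) (hD'Q.pow i),
        qx_pow hD'Q, qx_pow hw'Q]
    have h0 := (qx_eq_zero_iff (IsQ.sum _ hQ)).mp hz
    intro τ
    have := congrFun h0 τ
    rw [Finset.sum_apply] at this
    simpa using this
  -- `e' 0 = 1`
  have he'0 : e' 0 = 1 := by
    have h1 : qx (e' 0) = conj S φ (qx (e 0)) := (he'c 0 (Nat.succ_pos μ)).2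
    rw [he0, qx_one, conj_one] at h1
    exact qx_injective (he'Q 0 (mem_range.mpr (Nat.succ_pos μ))) IsQ.one (h1.trans qx_one.symm)
  -- cuspidality of the conjugated coefficients
  have he'cusp : ∀ i, 1 ≤ i → i ≤ μ → IsL1 (k * i) (e' i) ∧ (qx (e' i)).coeff 0 = 0 := by
    intro i h1 hμ
    have hi : i < μ + 1 := Nat.lt_succ_iff.mpr hμ
    refine ⟨(he'c i hi).1, ?_⟩
    rw [(he'c i hi).2, coeff_conj φ (he1 i hi)]
    have h0 : (⟨(qx (e i)).coeff 0, he1 i hi 0⟩ : S) = 0 := Subtype.ext (he i h1 hμ).2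
    rw [h0, map_zero]
  obtain ⟨h, hh⟩ := hint K D' w' μ e' hD'0 he'0 he'cusp hrel'
  refine ⟨h, fun n => ?_⟩
  have hhQ : IsQ h := isQ_of_cuspForm h
  have hmul : qx D' * qx h = qx D' * conj S φ (qx f) := by
    have h1 : ((D' : ℍ → ℂ) * (h : ℍ → ℂ)) = w' := by
      funext τ
      exact hh τ
    rw [← qx_mul hD'Q hhQ, h1, hB', ← hAB, conj_mul φ hAS hfS, hA']
  have hD'q : qx D' ≠ 0 := fun h0 => hD'0 (by
    have := (qx_eq_zero_iff hD'Q).mp h0
    ext τ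
    exact congrFun this τ)
  have hfin : qx h = conj S φ (qx f) := mul_left_cancel₀ hD'q hmul
  have := congrArg (PowerSeries.coeff n) hfin
  rw [coeff_conj φ hfS] at this
  exact this

end Core

end Fermat.Agent.S23.Main
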