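import Mathlib
import Fermat.Agent.S23.QRing
import Fermat.Agent.S23.CoeffRing
import Fermat.Agent.S23.LevelOneRat
import Fermat.Agent.S23.Main

/-!
# S23, slice (8-bridge): bundling lemmas between function-level statements and Mathlib's
bundled modular forms

* (B1) `restrict`, `restrictCusp` : restriction of level `SL(2,ℤ) → Γ₀(N)`;
* (B2) `exists_modularForm_of_poly`, `bundleHyp` : a polynomial in `θ` with level-one coefficients
  of the right weights is a modular form of level `Γ₀(N)` (`Main.BundleHyp θ`);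
* (B3) `exists_cuspForm_of_coeff_zero`, `exists_modularForm_of_cuspForm`, `coeff_zero_cuspForm`;
* (B4) `exists_conj_levelOne`, `exists_conj_levelOne_cusp`, `levelOneConj` : conjugation of
  level-one forms in the `QRing`/`CoeffRing` language (`Main.LevelOneConj`).
-/

set_option autoImplicit false

namespace Fermat.Agent.S23.Bundle

open UpperHalfPlane ModularForm ModularFormClass CongruenceSubgroup
open scoped Manifold MatrixGroups

/-! ### (B1) restriction of level -/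

/-- The image of `Γ₀(N)` in `GL(2,ℝ)` lies in the image of `SL(2,ℤ)`. -/
theorem gamma0_le_SL (N : ℕ) : ((Gamma0 N : Subgroup SL(2, ℤ)) : Subgroup (GL (Fin 2) ℝ)) ≤ 𝒮ℒ :=
  Subgroup.map_le_range _ _

/-- (B1) restriction of level `SL(2,ℤ) → Γ₀(N)` for modular forms. -/
noncomputable def restrict (N : ℕ) [NeZero N] {j : ℤ} (G : ModularForm 𝒮ℒ j) :
    ModularForm (Gamma0 N) j where
  toFun := G
  slash_action_eq' γ hγ := G.slash_action_eq' γ (gamma0_le_SL N hγ)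
  holo' := G.holo'
  bdd_at_cusps' {c} hc := by
    rw [Subgroup.IsArithmetic.isCusp_iff_isCusp_SL2Z] at hc
    exact G.bdd_at_cusps' ((Subgroup.IsArithmetic.isCusp_iff_isCusp_SL2Z 𝒮ℒ).mpr hc)

@[simp] theorem coe_restrict (N : ℕ) [NeZero N] {j : ℤ} (G : ModularForm 𝒮ℒ j) :
    ⇑(restrict N G) = ⇑G := rfl

/-- (B1) restriction of level `SL(2,ℤ) → Γ₀(N)` for cusp forms. -/
noncomputable def restrictCusp (N : ℕ) [NeZero N] {j : ℤ} (G : CuspForm 𝒮ℒ j) :
    CuspForm (Gamma0 N) j where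
  toFun := G
  slash_action_eq' γ hγ := G.slash_action_eq' γ (gamma0_le_SL N hγ)
  holo' := G.holo'
  zero_at_cusps' {c} hc := by
    rw [Subgroup.IsArithmetic.isCusp_iff_isCusp_SL2Z] at hc
    exact G.zero_at_cusps' ((Subgroup.IsArithmetic.isCusp_iff_isCusp_SL2Z 𝒮ℒ).mpr hc)

@[simp] theorem coe_restrictCusp (N : ℕ) [NeZero N] {j : ℤ} (G : CuspForm 𝒮ℒ j) :
    ⇑(restrictCusp N G) = ⇑G := rfl

theorem exists_restrict (N : ℕ) [NeZero N] {j : ℤ} (G : ModularForm 𝒮ℒ j) :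
    ∃ G' : ModularForm (Gamma0 N) j, ⇑G' = ⇑G := ⟨restrict N G, rfl⟩

theorem exists_restrictCusp (N : ℕ) [NeZero N] {j : ℤ} (G : CuspForm 𝒮ℒ j) :
    ∃ G' : CuspForm (Gamma0 N) j, ⇑G' = ⇑G := ⟨restrictCusp N G, rfl⟩

/-! ### (B2) polynomials in `θ` with level-one coefficients are modular forms -/

/-- A finite sum of (functions of) modular forms of the same weight and level is one. -/
theorem exists_modularForm_sum {Γ : Subgroup (GL (Fin 2) ℝ)} {K : ℤ} (n : ℕ) (T : ℕ → ℍ → ℂ)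
    (h : ∀ m < n, ∃ G : ModularForm Γ K, ⇑G = T m) :
    ∃ F' : ModularForm Γ K, ∀ τ, F' τ = ∑ m ∈ Finset.range n, T m τ := by
  induction n with
  | zero => exact ⟨0, fun τ => by simp⟩
  | succ n ih =>
    obtain ⟨F₁, hF₁⟩ := ih fun m hm => h m (Nat.lt_succ_of_lt hm)
    obtain ⟨G, hG⟩ := h n (Nat.lt_succ_self n)
    refine ⟨F₁ + G, fun τ => ?_⟩
    rw [Finset.sum_range_succ, ← hF₁ τ, ← hG]
    rfl

/-- (B2), unfolded shape: `F = ∑_{m<n} c_m θ^m` with `c_m` of level one and weight `K - 12 m`. -/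
theorem exists_modularForm_of_poly {N : ℕ} [NeZero N] (θ : ModularForm (Gamma0 N) 12)
    (K : ℤ) (F : ℍ → ℂ) (n : ℕ) (c : ℕ → ℍ → ℂ)
    (hc : ∀ m < n, ∃ G : ModularForm 𝒮ℒ (K - 12 * m), ⇑G = c m)
    (hF : ∀ τ, F τ = ∑ m ∈ Finset.range n, c m τ * θ τ ^ m) :
    ∃ F' : ModularForm (Gamma0 N) K, ⇑F' = F := by
  have hterm : ∀ m < n, ∃ G : ModularForm (Gamma0 N) K, ⇑G = fun τ => c m τ * θ τ ^ m := by
    intro m hm
    obtain ⟨G, hG⟩ := hc m hm
    refine ⟨ModularForm.mcast (by ring) ((restrict N G).mul (θ.pow m)), ?_⟩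
    ext τ
    simp [← hG]
  obtain ⟨F', hF'⟩ := exists_modularForm_sum n (fun m τ => c m τ * θ τ ^ m) hterm
  exact ⟨F', funext fun τ => (hF' τ).trans (hF τ).symm⟩

/-- (B2) in the exact shape consumed by `Main.exists_conj_of_hyps`. -/
theorem exists_modularForm_of_isLevelOnePoly {N : ℕ} [NeZero N]
    (θ : ModularForm (Gamma0 N) 12) (K : ℤ) (F : ℍ → ℂ) (h : Main.IsLevelOnePoly (⇑θ) K F) :
    ∃ F' : ModularForm (Gamma0 N) K, ⇑F' = F := by
  obtain ⟨n, c, hc, hF⟩ := h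
  exact exists_modularForm_of_poly θ K F n c hc hF

theorem bundleHyp {N : ℕ} [NeZero N] (θ : ModularForm (Gamma0 N) 12) : Main.BundleHyp θ :=
  fun K F h => exists_modularForm_of_isLevelOnePoly θ K F h

/-! ### (B3) level-one forms with vanishing constant term -/

theorem exists_cuspForm_of_coeff_zero {j : ℤ} (G : ModularForm 𝒮ℒ j)
    (h0 : (qExpansion 1 G).coeff 0 = 0) : ∃ G' : CuspForm 𝒮ℒ j, ⇑G' = ⇑G :=
  ⟨ModularForm.toCuspForm G h0, rfl⟩

theorem exists_modularForm_of_cuspForm {j : ℤ} (G' : CuspForm 𝒮ℒ j) :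
    ∃ G : ModularForm 𝒮ℒ j, ⇑G = ⇑G' ∧ (qExpansion 1 G).coeff 0 = 0 :=
  ⟨CuspForm.toModularFormₗ G', rfl,
    (ModularForm.isCuspForm_iff_coeffZero_eq_zero _).mp
      (ModularForm.CuspForm.isCuspForm_toModularFormₗ G')⟩

/-- A level-one form with vanishing constant term vanishes at `i∞`. -/
theorem isZeroAtImInfty_of_coeff_zero {j : ℤ} (G : ModularForm 𝒮ℒ j)
    (h0 : (qExpansion 1 G).coeff 0 = 0) : IsZeroAtImInfty (⇑G) :=
  CuspFormClass.zero_at_infty (ModularForm.toCuspForm G h0)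

/-- The constant term of a cusp form of level `Γ₀(N)` vanishes. -/
theorem coeff_zero_cuspForm {N : ℕ} [NeZero N] {k : ℤ} (f : CuspForm (Gamma0 N) k) :
    (QRing.qx f).coeff 0 = 0 := by
  have hq := QRing.isQ_of_cuspForm f
  show (qExpansion 1 f).coeff 0 = 0
  rw [qExpansion_coeff_zero one_pos hq.analyticAt hq.periodic]
  exact (CuspFormClass.zero_at_infty f).valueAtInfty_eq_zero

/-! ### (B4) conjugation of level-one forms, in the `CoeffRing`/`QRing` language -/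

theorem coe_sum_smul {j : ℤ} {ι : Type*} (s : Finset ι) (c : ι → ℂ)
    (b : ι → ModularForm 𝒮ℒ j) :
    ⇑(∑ i ∈ s, c i • b i) = ∑ i ∈ s, c i • ⇑(b i) := by
  classical
  induction s using Finset.induction_on with
  | empty => simp
  | insert a s ha ih =>
    rw [Finset.sum_insert ha, Finset.sum_insert ha, ← ih]
    rfl

theorem isRat_of_isRatMF {j : ℤ} {f : ModularForm 𝒮ℒ j} (h : LevelOneRat.IsRatMF f) :
    CoeffRing.IsRat (QRing.qx f) := h

/-- The coefficients of the `q`-expansion of a level-one form lie in every subalgebra containing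
the (finitely many) coordinates of the form in a rational basis. -/
theorem exists_finset_hasCoeffs (j : ℤ) (g : ModularForm 𝒮ℒ j) :
    ∃ t : Finset ℂ, ∀ (S : Subalgebra ℚ ℂ), (↑t ⊆ (S : Set ℂ)) →
      CoeffRing.HasCoeffs S (QRing.qx g) := by
  classical
  obtain ⟨n, b, hb⟩ := LevelOneRat.exists_rat_basis j
  refine ⟨Finset.univ.image fun i => b.repr g i, fun S hS => ?_⟩
  have hg : (g : ℍ → ℂ) = ∑ i, (b.repr g i) • ⇑(b i) := by
    rw [← coe_sum_smul, b.sum_repr g]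
  have hq : QRing.qx g = ∑ i, (b.repr g i) • QRing.qx (b i) := by
    rw [hg, QRing.qx_sum _ fun i _ => (QRing.isQ_of_levelOne (b i)).smul _]
    exact Finset.sum_congr rfl fun i _ => QRing.qx_smul _ (QRing.isQ_of_levelOne (b i))
  rw [hq]
  refine CoeffRing.HasCoeffs.sum _ fun i _ => CoeffRing.HasCoeffs.smul (hS ?_)
    (isRat_of_isRatMF (hb i)).hasCoeffs
  simp

/-- (B4) conjugation of level-one modular forms. -/
theorem exists_conj_levelOne (j : ℤ) (g : ModularForm 𝒮ℒ j) :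
    ∃ t : Finset ℂ, ∀ (S : Subalgebra ℚ ℂ), (↑t ⊆ (S : Set ℂ)) →
      CoeffRing.HasCoeffs S (QRing.qx g) ∧
      ∀ φ : S →ₐ[ℚ] ℂ, ∃ g' : ModularForm 𝒮ℒ j,
        QRing.qx g' = CoeffRing.conj S φ (QRing.qx g) := by
  obtain ⟨t, ht⟩ := exists_finset_hasCoeffs j g
  refine ⟨t, fun S hS => ⟨ht S hS, fun φ => ?_⟩⟩
  obtain ⟨g', hg'⟩ := LevelOneRat.exists_conj j S φ g (ht S hS)
  refine ⟨g', ?_⟩
  ext n
  rw [CoeffRing.coeff_conj φ (ht S hS) n]
  exact hg' n

/-- (B4) conjugation of level-one cusp forms. -/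
theorem exists_conj_levelOne_cusp (j : ℤ) (g : CuspForm 𝒮ℒ j) :
    ∃ t : Finset ℂ, ∀ (S : Subalgebra ℚ ℂ), (↑t ⊆ (S : Set ℂ)) →
      CoeffRing.HasCoeffs S (QRing.qx g) ∧
      ∀ φ : S →ₐ[ℚ] ℂ, ∃ g' : CuspForm 𝒮ℒ j,
        QRing.qx g' = CoeffRing.conj S φ (QRing.qx g) := by
  obtain ⟨t, ht⟩ := exists_finset_hasCoeffs j (CuspForm.toModularFormₗ g)
  have ht' : ∀ (S : Subalgebra ℚ ℂ), (↑t ⊆ (S : Set ℂ)) → CoeffRing.HasCoeffs S (QRing.qx g) :=
    ht
  refine ⟨t, fun S hS => ⟨ht' S hS, fun φ => ?_⟩⟩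
  obtain ⟨g', hg'⟩ := LevelOneRat.exists_conj_cusp j S φ g (ht' S hS)
  refine ⟨g', ?_⟩
  ext n
  rw [CoeffRing.coeff_conj φ (ht' S hS) n]
  exact hg' n

/-- (B4) in the exact shape consumed by `Main.exists_conj_of_hyps`. -/
theorem levelOneConj : Main.LevelOneConj := by
  rintro j F ⟨G, rfl⟩
  obtain ⟨t, ht⟩ := exists_conj_levelOne j G
  refine ⟨t, fun S hS => ⟨(ht S hS).1, fun φ => ?_⟩⟩
  obtain ⟨g', hg'⟩ := (ht S hS).2 φ
  exact ⟨g', ⟨g', rfl⟩, hg'⟩

end Fermat.Agent.S23.Bundle
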