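import Mathlib
import Fermat.Agent.S23.CharPoly

/-!
# S23, slice (5): Lagrange interpolation over level one

For a modular form `θ` of level `Γ₀(N)` whose `SL(2, ℤ)`-translates are pairwise distinct, every
modular form `f` of level `Γ₀(N)` satisfies `D * f = ∑ m, g m * θ ^ m` with level one forms `g m`,
where `D = ∏_{q ≠ 1} (θ - θ_q)` is itself a polynomial in `θ` with level one coefficients.
-/

set_option autoImplicit false

namespace Fermat.Agent.S23.Lagrange12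

open Polynomial

section algebra

variable {R : Type*} [CommRing R]

/-- Synthetic division: coefficients of the quotient by `X - C α`. -/
theorem coeff_of_eq_X_sub_C_mul {P Q : R[X]} {α : R} (h : P = (X - C α) * Q) (n m : ℕ) :
    Q.coeff m = ∑ j ∈ Finset.range n, α ^ j * P.coeff (m + 1 + j) + α ^ n * Q.coeff (m + n) := by
  induction n with
  | zero => simp
  | succ n ih =>
    rw [ih, Finset.sum_range_succ, add_assoc]
    congr 1
    have hc : P.coeff (m + 1 + n) = Q.coeff (m + n) - α * Q.coeff (m + n + 1) := by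
      rw [h, sub_mul, coeff_sub, show m + 1 + n = (m + n) + 1 by ring, coeff_X_mul, coeff_C_mul]
    rw [hc, pow_succ, ← add_assoc m n 1]
    ring

variable {ι : Type*} [Fintype ι] [DecidableEq ι] (a b : ι → R)

/-- The Lagrange identity, in pure algebra form. -/
theorem lagrange_algebra [Nontrivial R] (i₀ : ι) :
    (∑ n ∈ Finset.range (Fintype.card ι),
        ((n : R) + 1) * (∏ q, (X - C (a q))).coeff (n + 1) * a i₀ ^ n) * b i₀ =
      ∑ m ∈ Finset.range (Fintype.card ι),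
        (∑ j ∈ Finset.range (Fintype.card ι - m),
          (∏ q, (X - C (a q))).coeff (m + 1 + j) * ∑ q, b q * a q ^ j) * a i₀ ^ m := by
  set μ := Fintype.card ι with hμ
  set P : R[X] := ∏ q, (X - C (a q)) with hP
  let Q : ι → R[X] := fun q => ∏ q' ∈ Finset.univ.erase q, (X - C (a q'))
  have hPQ : ∀ q, P = (X - C (a q)) * Q q := fun q =>
    (Finset.mul_prod_erase Finset.univ (fun q' => X - C (a q')) (Finset.mem_univ q)).symm
  have hQdeg : ∀ q, (Q q).natDegree < μ := by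
    intro q
    have h1 : (Q q).natDegree ≤ (Finset.univ.erase q).card := by
      refine (natDegree_prod_le _ _).trans ?_
      refine (Finset.sum_le_card_nsmul _ _ 1 fun q' _ => natDegree_X_sub_C_le _).trans ?_
      simp
    have h2 : (Finset.univ.erase q).card = μ - 1 := by
      rw [Finset.card_erase_of_mem (Finset.mem_univ q), Finset.card_univ]
    have hpos : 0 < μ := Fintype.card_pos_iff.mpr ⟨q⟩
    omega
  have hQcoeff : ∀ q m, m < μ →
      (Q q).coeff m = ∑ j ∈ Finset.range (μ - m), a q ^ j * P.coeff (m + 1 + j) := by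
    intro q m hm
    have h := coeff_of_eq_X_sub_C_mul (hPQ q) (μ - m) m
    rw [show m + (μ - m) = μ by omega, coeff_eq_zero_of_natDegree_lt (hQdeg q), mul_zero,
      add_zero] at h
    exact h
  have hQeval : ∀ q, (Q q).eval (a i₀) = ∑ m ∈ Finset.range μ, (Q q).coeff m * a i₀ ^ m :=
    fun q => eval_eq_sum_range' (hQdeg q) _
  have hQzero : ∀ q, q ≠ i₀ → (Q q).eval (a i₀) = 0 := by
    intro q hq
    rw [eval_prod]
    exact Finset.prod_eq_zero (Finset.mem_erase.mpr ⟨hq.symm, Finset.mem_univ i₀⟩) (by simp)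
  have hderiv : (Q i₀).eval (a i₀) = (derivative P).eval (a i₀) := by
    rw [hPQ i₀, derivative_mul]
    simp
  have hPdeg : (derivative P).natDegree < μ := by
    have h1 : P.natDegree ≤ μ := by
      refine (natDegree_prod_le _ _).trans ?_
      refine (Finset.sum_le_card_nsmul _ _ 1 fun q' _ => natDegree_X_sub_C_le _).trans ?_
      simp [hμ]
    have hpos : 0 < μ := Fintype.card_pos_iff.mpr ⟨i₀⟩
    rcases Nat.eq_zero_or_pos P.natDegree with h0 | h0
    · have := natDegree_derivative_le P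
      omega
    · have := natDegree_derivative_lt (p := P) (by omega)
      omega
  have hD : (derivative P).eval (a i₀)
      = ∑ n ∈ Finset.range μ, ((n : R) + 1) * P.coeff (n + 1) * a i₀ ^ n := by
    rw [eval_eq_sum_range' hPdeg]
    refine Finset.sum_congr rfl fun n _ => ?_
    rw [coeff_derivative]
    ring
  -- assemble
  rw [← hD, ← hderiv]
  have hsum : ∑ q, b q * (Q q).eval (a i₀) = b i₀ * (Q i₀).eval (a i₀) := by
    rw [Finset.sum_eq_single i₀]
    · intro q _ hq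
      rw [hQzero q hq, mul_zero]
    · intro h
      exact absurd (Finset.mem_univ i₀) h
  rw [mul_comm, ← hsum]
  calc ∑ q, b q * (Q q).eval (a i₀)
      = ∑ q, ∑ m ∈ Finset.range μ, b q * ((Q q).coeff m * a i₀ ^ m) := by
        refine Finset.sum_congr rfl fun q _ => ?_
        rw [hQeval, Finset.mul_sum]
    _ = ∑ m ∈ Finset.range μ, ∑ q, b q * ((Q q).coeff m * a i₀ ^ m) := Finset.sum_comm
    _ = _ := by
        refine Finset.sum_congr rfl fun m hm => ?_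
        have hm' : m < μ := Finset.mem_range.mp hm
        have h1 : ∑ q, b q * (Q q).coeff m
            = ∑ j ∈ Finset.range (μ - m), P.coeff (m + 1 + j) * ∑ q, b q * a q ^ j := by
          calc ∑ q, b q * (Q q).coeff m
              = ∑ q, ∑ j ∈ Finset.range (μ - m), P.coeff (m + 1 + j) * (b q * a q ^ j) := by
                refine Finset.sum_congr rfl fun q _ => ?_
                rw [hQcoeff q m hm', Finset.mul_sum]
                refine Finset.sum_congr rfl fun j _ => ?_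
                ring
            _ = ∑ j ∈ Finset.range (μ - m), ∑ q, P.coeff (m + 1 + j) * (b q * a q ^ j) :=
                Finset.sum_comm
            _ = _ := by
                refine Finset.sum_congr rfl fun j _ => ?_
                rw [Finset.mul_sum]
        rw [← h1, Finset.sum_mul]
        refine Finset.sum_congr rfl fun q _ => ?_
        ring

/-- The Lagrange denominator is the product of the differences. -/
theorem lagrange_den [Nontrivial R] (i₀ : ι) :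
    ∑ n ∈ Finset.range (Fintype.card ι),
        ((n : R) + 1) * (∏ q, (X - C (a q))).coeff (n + 1) * a i₀ ^ n =
      ∏ q ∈ Finset.univ.erase i₀, (a i₀ - a q) := by
  set μ := Fintype.card ι with hμ
  set P : R[X] := ∏ q, (X - C (a q)) with hP
  have hPQ : P = (X - C (a i₀)) * ∏ q' ∈ Finset.univ.erase i₀, (X - C (a q')) :=
    (Finset.mul_prod_erase Finset.univ (fun q' => X - C (a q')) (Finset.mem_univ i₀)).symm
  have hPdeg : (derivative P).natDegree < μ := by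
    have h1 : P.natDegree ≤ μ := by
      refine (natDegree_prod_le _ _).trans ?_
      refine (Finset.sum_le_card_nsmul _ _ 1 fun q' _ => natDegree_X_sub_C_le _).trans ?_
      simp [hμ]
    have hpos : 0 < μ := Fintype.card_pos_iff.mpr ⟨i₀⟩
    rcases Nat.eq_zero_or_pos P.natDegree with h0 | h0
    · have := natDegree_derivative_le P
      omega
    · have := natDegree_derivative_lt (p := P) (by omega)
      omega
  have hD : (derivative P).eval (a i₀)
      = ∑ n ∈ Finset.range μ, ((n : R) + 1) * P.coeff (n + 1) * a i₀ ^ n := by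
    rw [eval_eq_sum_range' hPdeg]
    refine Finset.sum_congr rfl fun n _ => ?_
    rw [coeff_derivative]
    ring
  rw [← hD, hPQ, derivative_mul]
  simp [eval_prod]

end algebra

open UpperHalfPlane SlashInvariantForm
open scoped ModularForm MatrixGroups Manifold

/-- `c` is the underlying function of a modular form of weight `w` for `ℋ`. -/
def IsMF (ℋ : Subgroup (GL (Fin 2) ℝ)) (w : ℤ) (c : ℍ → ℂ) : Prop :=
  ∃ G : ModularForm ℋ w, ⇑G = c

namespace IsMF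

variable {ℋ 𝒢 : Subgroup (GL (Fin 2) ℝ)} {w w₁ w₂ : ℤ} {c c₁ c₂ : ℍ → ℂ}

theorem congr_weight (h : IsMF ℋ w c) {w' : ℤ} (hw : w = w') : IsMF ℋ w' c := hw ▸ h

theorem zero : IsMF ℋ w 0 := ⟨0, rfl⟩

theorem add (h₁ : IsMF ℋ w c₁) (h₂ : IsMF ℋ w c₂) : IsMF ℋ w (c₁ + c₂) := by
  obtain ⟨G₁, rfl⟩ := h₁
  obtain ⟨G₂, rfl⟩ := h₂
  exact ⟨G₁ + G₂, rfl⟩

theorem sum {ι : Type*} (s : Finset ι) (c : ι → ℍ → ℂ) (h : ∀ i ∈ s, IsMF ℋ w (c i)) :
    IsMF ℋ w (∑ i ∈ s, c i) := by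
  classical
  induction s using Finset.induction_on with
  | empty => simpa using zero
  | insert a s ha ih =>
    rw [Finset.sum_insert ha]
    exact (h a (Finset.mem_insert_self a s)).add
      (ih fun i hi => h i (Finset.mem_insert_of_mem hi))

theorem mul [ℋ.HasDetPlusMinusOne] (h₁ : IsMF ℋ w₁ c₁) (h₂ : IsMF ℋ w₂ c₂) :
    IsMF ℋ (w₁ + w₂) (c₁ * c₂) := by
  obtain ⟨G₁, rfl⟩ := h₁
  obtain ⟨G₂, rfl⟩ := h₂
  exact ⟨G₁.mul G₂, rfl⟩

theorem smulSL (a : ℂ) (h : IsMF 𝒮ℒ w c) : IsMF 𝒮ℒ w (a • c) := by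
  obtain ⟨G, rfl⟩ := h
  exact ⟨a • G, rfl⟩

theorem restrict (hle : 𝒢 ≤ ℋ) (h : IsMF ℋ w c) : IsMF 𝒢 w c := by
  obtain ⟨G, rfl⟩ := h
  exact ⟨{ toFun := G
           slash_action_eq' := fun γ hγ => SlashInvariantFormClass.slash_action_eq G γ (hle hγ)
           holo' := G.holo'
           bdd_at_cusps' := fun hc => G.bdd_at_cusps' (hc.mono hle) }, rfl⟩

theorem pow [ℋ.HasDetPlusMinusOne] (h : IsMF ℋ w c) (n : ℕ) : IsMF ℋ (n * w) (c ^ n) := by
  obtain ⟨G, rfl⟩ := h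
  exact ⟨G.pow n, ModularForm.coe_pow G n⟩

end IsMF

section main

variable {𝒢 : Subgroup (GL (Fin 2) ℝ)} {k w : ℤ}

local notation "𝒬" => 𝒮ℒ ⧸ (𝒢.subgroupOf 𝒮ℒ)

theorem slash_pow_of_det {F : ℍ → ℂ} {w : ℤ} {g : GL (Fin 2) ℝ} (hg : |g.det.val| = 1) (j : ℕ) :
    (F ^ j) ∣[(j : ℤ) * w] g = (F ∣[w] g) ^ j := by
  induction j with
  | zero =>
    ext τ
    have hg' : |(g : Matrix (Fin 2) (Fin 2) ℝ).det| = 1 := by
      rw [← Matrix.GeneralLinearGroup.val_det_apply]; exact hg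
    simp [ModularForm.slash_apply, hg']
  | succ j ih =>
    rw [pow_succ, show ((j + 1 : ℕ) : ℤ) * w = (j : ℤ) * w + w by push_cast; ring,
      ModularForm.mul_slash, ih, hg, one_smul, pow_succ]

variable [𝒢.HasDetPlusMinusOne] (f : ModularForm 𝒢 k) (θ : ModularForm 𝒢 w)

theorem quotientFunc_mul_pow (j : ℕ) (q : 𝒬) :
    quotientFunc (f.mul (θ.pow j)) q = quotientFunc f q * quotientFunc θ q ^ j := by
  induction q using Quotient.inductionOn with
  | h r =>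
    have hdet : |((r : GL (Fin 2) ℝ)⁻¹).det.val| = 1 :=
      Subgroup.HasDetPlusMinusOne.abs_det (inv_mem r.2)
    simp only [quotientFunc_mk]
    rw [ModularForm.coe_mul, ModularForm.coe_pow, ModularForm.mul_slash, slash_pow_of_det hdet,
      hdet, one_smul]

variable [𝒢.IsFiniteRelIndex 𝒮ℒ]

/-- Coefficients of the characteristic polynomial of `θ` over level one, as functions. -/
noncomputable def pc (n : ℕ) (τ : ℍ) : ℂ :=
  letI := Fintype.ofFinite 𝒬
  (∏ q : 𝒬, (X - C (quotientFunc θ q τ))).coeff n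

/-- Twisted traces. -/
noncomputable def tr (j : ℕ) (τ : ℍ) : ℂ :=
  letI := Fintype.ofFinite 𝒬
  ∑ q : 𝒬, quotientFunc f q τ * quotientFunc θ q τ ^ j

theorem pc_eq (n : ℕ) (hn : n ≤ Nat.card 𝒬) (τ : ℍ) :
    pc θ n τ = (-1) ^ (Nat.card 𝒬 - n) * CharPoly.esymmFun 𝒮ℒ θ (Nat.card 𝒬 - n) τ := by
  unfold pc
  have hterm : ∀ (i d : ℕ) (e : ℂ), ((-1 : ℂ[X]) ^ i * (C e * X ^ d)).coeff n
      = if n = d then (-1) ^ i * e else 0 := by
    intro i d e
    rw [show ((-1 : ℂ[X]) ^ i) = C ((-1 : ℂ) ^ i) by simp, ← mul_assoc, ← C_mul,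
      coeff_C_mul_X_pow]
  rw [CharPoly.prod_X_sub_C_quotientFunc, finsetSum_coeff,
    Finset.sum_eq_single (Nat.card 𝒬 - n)]
  · rw [hterm, if_pos (by omega)]
  · intro i hi hne
    have : n ≠ Nat.card 𝒬 - i := by
      have := Finset.mem_range.mp hi
      omega
    rw [hterm, if_neg this]
  · intro h
    exact absurd (Finset.mem_range.mpr (by omega)) h

theorem isMF_pc (n : ℕ) (hn : n ≤ Nat.card 𝒬) :
    IsMF 𝒮ℒ (w * ((Nat.card 𝒬 - n : ℕ) : ℤ)) (pc θ n) := by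
  have h : pc θ n = ((-1 : ℂ) ^ (Nat.card 𝒬 - n)) • ⇑(CharPoly.esymmForm 𝒮ℒ θ (Nat.card 𝒬 - n)) := by
    funext τ
    rw [pc_eq θ n hn]
    simp
  rw [h]
  exact IsMF.smulSL _ ⟨_, rfl⟩

theorem isMF_tr (j : ℕ) : IsMF 𝒮ℒ (k + (j : ℤ) * w) (tr f θ j) := by
  refine ⟨ModularForm.trace 𝒮ℒ (f.mul (θ.pow j)), ?_⟩
  funext τ
  simp only [ModularForm.coe_trace, Finset.sum_apply, quotientFunc_mul_pow, tr]
  rfl

theorem quotientFunc_one_eq {F : Type*} [FunLike F ℍ ℂ] {k' : ℤ}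
    [SlashInvariantFormClass F 𝒢 k'] (g : F) (τ : ℍ) :
    quotientFunc g (⟦1⟧ : 𝒬) τ = g τ := by
  rw [quotientFunc_mk]
  simp

/-- The Lagrange denominator as a function. -/
noncomputable def Dfun (τ : ℍ) : ℂ :=
  ∑ n ∈ Finset.range (Nat.card 𝒬), ((n : ℂ) + 1) * pc θ (n + 1) τ * θ τ ^ n

/-- The Lagrange numerator coefficients as functions. -/
noncomputable def gfun (m : ℕ) (τ : ℍ) : ℂ :=
  ∑ j ∈ Finset.range (Nat.card 𝒬 - m), pc θ (m + 1 + j) τ * tr f θ j τ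

theorem lagrange_pointwise (τ : ℍ) :
    Dfun θ τ * f τ = ∑ m ∈ Finset.range (Nat.card 𝒬), gfun f θ m τ * θ τ ^ m := by
  classical
  let _ := Fintype.ofFinite 𝒬
  have h := lagrange_algebra (fun q : 𝒬 => quotientFunc θ q τ) (fun q : 𝒬 => quotientFunc f q τ)
    (⟦1⟧ : 𝒬)
  simp only [quotientFunc_one_eq, ← Nat.card_eq_fintype_card] at h
  exact h

theorem Dfun_eq_prod (τ : ℍ) :
    Dfun θ τ = ∏ q ∈ @Finset.erase 𝒬 (Classical.decEq 𝒬) (@Finset.univ 𝒬 (Fintype.ofFinite 𝒬)) ⟦1⟧,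
      (θ τ - quotientFunc θ q τ) := by
  let _ := Fintype.ofFinite 𝒬
  let _ := Classical.decEq 𝒬
  have h := lagrange_den (fun q : 𝒬 => quotientFunc θ q τ) (⟦1⟧ : 𝒬)
  simp only [quotientFunc_one_eq, ← Nat.card_eq_fintype_card] at h
  rw [← h]
  rfl

theorem isMF_gfun (m : ℕ) (hm : m < Nat.card 𝒬) :
    IsMF 𝒮ℒ (k + w * ((Nat.card 𝒬 : ℤ) - 1) - w * m) (gfun f θ m) := by
  have h : gfun f θ m
      = ∑ j ∈ Finset.range (Nat.card 𝒬 - m), pc θ (m + 1 + j) * tr f θ j := by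
    funext τ
    simp [gfun, Finset.sum_apply]
  rw [h]
  refine IsMF.sum _ _ fun j hj => ?_
  have hj' : m + 1 + j ≤ Nat.card 𝒬 := by
    have := Finset.mem_range.mp hj
    omega
  refine ((isMF_pc θ (m + 1 + j) hj').mul (isMF_tr f θ j)).congr_weight ?_
  rw [Nat.cast_sub hj']
  push_cast
  ring

theorem isMF_Dcoeff (n : ℕ) (hn : n < Nat.card 𝒬) :
    IsMF 𝒮ℒ (w * ((Nat.card 𝒬 : ℤ) - 1) - w * n) (fun τ => ((n : ℂ) + 1) * pc θ (n + 1) τ) := by
  have h : (fun τ => ((n : ℂ) + 1) * pc θ (n + 1) τ) = ((n : ℂ) + 1) • pc θ (n + 1) := by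
    funext τ
    simp
  rw [h]
  refine (IsMF.smulSL _ (isMF_pc θ (n + 1) hn)).congr_weight ?_
  rw [Nat.cast_sub hn]
  push_cast
  ring

theorem isMF_Dfun (hle : 𝒢 ≤ 𝒮ℒ) : IsMF 𝒢 (w * ((Nat.card 𝒬 : ℤ) - 1)) (Dfun θ) := by
  have h : Dfun θ = ∑ n ∈ Finset.range (Nat.card 𝒬),
      (fun τ => ((n : ℂ) + 1) * pc θ (n + 1) τ) * (⇑θ) ^ n := by
    funext τ
    simp [Dfun, Finset.sum_apply]
  rw [h]
  refine IsMF.sum _ _ fun n hn => ?_
  have hn' : n < Nat.card 𝒬 := Finset.mem_range.mp hn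
  have h1 := (isMF_Dcoeff θ n hn').restrict hle
  have h2 : IsMF 𝒢 ((n : ℤ) * w) ((⇑θ) ^ n) := IsMF.pow ⟨θ, rfl⟩ n
  refine (h1.mul h2).congr_weight ?_
  ring

theorem Dfun_ne_zero (hθ : ∀ q : 𝒬, q ≠ ⟦1⟧ → quotientFunc θ q ≠ ⇑θ) : Dfun θ ≠ 0 := by
  let _ := Fintype.ofFinite 𝒬
  let _ := Classical.decEq 𝒬
  intro h0
  have h1 : ∏ q ∈ @Finset.erase 𝒬 (Classical.decEq 𝒬) (@Finset.univ 𝒬 (Fintype.ofFinite 𝒬)) ⟦1⟧,
      (⇑θ - quotientFunc θ q) = 0 := by
    funext τ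
    have := congrFun h0 τ
    rw [Dfun_eq_prod] at this
    simpa [Finset.prod_apply] using this
  rw [UpperHalfPlane.prod_eq_zero_iff] at h1
  · obtain ⟨q, hq, hq0⟩ := h1
    exact hθ q (Finset.ne_of_mem_erase hq) (sub_eq_zero.mp hq0).symm
  · intro q _
    exact θ.holo'.sub (CharPoly.mdifferentiable_quotientFunc 𝒮ℒ θ q)

end main

section Gamma0

open CongruenceSubgroup

/-- `F` is a polynomial in `θ` whose `m`-th coefficient is a level one modular form of weight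
`K - 12 * m`. -/
def IsLevelOnePoly (θ : ℍ → ℂ) (K : ℤ) (F : ℍ → ℂ) : Prop :=
  ∃ (n : ℕ) (c : ℕ → ℍ → ℂ), (∀ m < n, ∃ G : ModularForm 𝒮ℒ (K - 12 * m), ⇑G = c m) ∧
    ∀ τ, F τ = ∑ m ∈ Finset.range n, c m τ * θ τ ^ m

variable {N : ℕ} [NeZero N]

theorem Gamma0_le_SL : (Gamma0 N : Subgroup (GL (Fin 2) ℝ)) ≤ 𝒮ℒ := by
  rintro _ ⟨g, -, rfl⟩
  exact ⟨g, rfl⟩

theorem quotientFunc_ne_of_slash_ne (θ : ModularForm (Gamma0 N) 12)
    (hθ : ∀ γ : SL(2, ℤ), γ ∉ Gamma0 N → (⇑θ) ∣[(12 : ℤ)] γ ≠ ⇑θ)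
    (q : 𝒮ℒ ⧸ ((Gamma0 N : Subgroup (GL (Fin 2) ℝ)).subgroupOf 𝒮ℒ)) (hq : q ≠ ⟦1⟧) :
    quotientFunc θ q ≠ ⇑θ := by
  induction q using Quotient.inductionOn with
  | h r =>
    obtain ⟨γ, hγ⟩ := r.2
    rw [quotientFunc_mk]
    have hr : (r : GL (Fin 2) ℝ)⁻¹ = Matrix.SpecialLinearGroup.mapGL ℝ γ⁻¹ := by
      rw [map_inv, hγ]
    rw [hr]
    refine hθ γ⁻¹ fun hmem => hq ?_
    have hmem' : γ ∈ Gamma0 N := by simpa using inv_mem hmem
    refine QuotientGroup.eq.mpr ?_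
    rw [Subgroup.mem_subgroupOf]
    simp only [mul_one, Subgroup.coe_inv]
    exact inv_mem ⟨γ, hmem', hγ⟩

theorem exists_lagrange (θ : ModularForm (Gamma0 N) 12)
    (hθ : ∀ γ : SL(2, ℤ), γ ∉ Gamma0 N → (⇑θ) ∣[(12 : ℤ)] γ ≠ ⇑θ) :
    ∃ (K : ℤ) (D : ModularForm (Gamma0 N) K), D ≠ 0 ∧ IsLevelOnePoly θ K D ∧
      ∀ (k : ℤ) (f : ModularForm (Gamma0 N) k), IsLevelOnePoly θ (k + K) (fun τ => D τ * f τ) := by
  set μ := Nat.card (𝒮ℒ ⧸ ((Gamma0 N : Subgroup (GL (Fin 2) ℝ)).subgroupOf 𝒮ℒ)) with hμ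
  obtain ⟨D, hD⟩ := isMF_Dfun θ Gamma0_le_SL
  refine ⟨12 * ((μ : ℤ) - 1), D, ?_, ?_, ?_⟩
  · intro h0
    apply Dfun_ne_zero θ (quotientFunc_ne_of_slash_ne θ hθ)
    rw [← hD, h0]
    rfl
  · refine ⟨μ, fun m τ => ((m : ℂ) + 1) * pc θ (m + 1) τ, fun m hm => isMF_Dcoeff θ m hm, ?_⟩
    intro τ
    rw [hD]
    rfl
  · intro k f
    refine ⟨μ, fun m => gfun f θ m, fun m hm => isMF_gfun f θ m hm, ?_⟩
    intro τ
    rw [hD]
    exact lagrange_pointwise f θ τ

end Gamma0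

end Fermat.Agent.S23.Lagrange12
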