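import Fermat.Agent.S23.LevelOneRat

/-!
# Coefficients of a level-one form lie in a finitely generated `ℚ`-algebra (S23, Project Q)
-/

set_option autoImplicit false

open UpperHalfPlane ModularForm ModularFormClass MatrixGroups EisensteinSeries

namespace Fermat.Agent.S23.LevelOneFin

open Fermat.Agent.S23.LevelOneRat

/-- `qExpansion 1` is `ℂ`-linear on level-one forms. -/
noncomputable def qExpₗ (k : ℤ) : ModularForm 𝒮ℒ k →ₗ[ℂ] PowerSeries ℂ where
  toFun f := qExpansion 1 f
  map_add' f g := by
    rw [FunLike.coe_add]; exact ModularForm.qExpansion_add one_pos one_mem_strictPeriods_SL f g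
  map_smul' c f := by
    rw [FunLike.coe_smul]
    exact ModularForm.qExpansion_smul one_pos one_mem_strictPeriods_SL c f

@[simp] theorem qExpₗ_apply (k : ℤ) (f : ModularForm 𝒮ℒ k) : qExpₗ k f = qExpansion 1 f := rfl

/-- The coefficients of a level-one modular form all lie in the `ℚ`-algebra generated by a
finite set of complex numbers. -/
theorem exists_finset_coeffs {k : ℤ} (f : ModularForm 𝒮ℒ k) :
    ∃ s : Finset ℂ, ∀ n, (qExpansion 1 f).coeff n ∈ Algebra.adjoin ℚ (s : Set ℂ) := by
  classical
  obtain ⟨m, b, hb⟩ := exists_rat_basis k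
  refine ⟨Finset.univ.image fun i => b.repr f i, fun n => ?_⟩
  have hf : f = ∑ i, b.repr f i • b i := (b.sum_repr f).symm
  have hq : qExpansion 1 f = ∑ i, b.repr f i • qExpansion 1 (b i) := by
    conv_lhs => rw [hf]
    rw [← qExpₗ_apply, map_sum]
    simp
  rw [hq, map_sum]
  refine Subalgebra.sum_mem _ fun i _ => ?_
  rw [PowerSeries.coeff_smul]
  refine Subalgebra.mul_mem _ (Algebra.subset_adjoin ?_) ?_
  · simp
  · obtain ⟨r, hr⟩ := hb i n
    rw [hr]
    exact Subalgebra.algebraMap_mem _ r

/-- Variant: a finite set works simultaneously for finitely many level-one forms (of possibly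
different weights), given as their `q`-expansions. -/
theorem exists_finset_coeffs_family {ι : Type*} (t : Finset ι) (k : ι → ℤ)
    (f : ∀ i, ModularForm 𝒮ℒ (k i)) :
    ∃ s : Finset ℂ, ∀ i ∈ t, ∀ n, (qExpansion 1 (f i)).coeff n ∈ Algebra.adjoin ℚ (s : Set ℂ) := by
  classical
  choose s hs using fun i => exists_finset_coeffs (f i)
  refine ⟨t.biUnion s, fun i hi n => ?_⟩
  refine Algebra.adjoin_mono ?_ (hs i n)
  intro x hx
  simp only [Finset.coe_biUnion, Set.mem_iUnion]
  exact ⟨i, hi, hx⟩

end Fermat.Agent.S23.LevelOneFin
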