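import Fermat.Agent.S23.Main
import Fermat.Agent.S23.Integral
import Fermat.Agent.S23.CharPoly
import Fermat.Agent.S23.LevelOneFin

/-!
# S23: discharging the hypotheses of `Main.exists_conj_of_hyps` from the landed slices

* `levelOneConj` from `LevelOneRat.exists_conj` + `LevelOneFin.exists_finset_coeffs` (slice (2));
* `integralHyp` from `Integral.exists_form_of_integral` (slice (6));
* `charPolyData` from `CharPoly` (slice (4)).
-/

set_option autoImplicit false

namespace Fermat.Agent.S23.Wiring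

open UpperHalfPlane CongruenceSubgroup ModularFormClass Finset
open scoped Manifold ModularForm MatrixGroups
open Fermat.Agent.S23.QRing Fermat.Agent.S23.CoeffRing Fermat.Agent.S23.Main

/-- A level-one form whose `q`-expansion has vanishing constant term vanishes at `i∞`. -/
theorem isZeroAtImInfty_of_coeff_zero {j : ℤ} {F : ℍ → ℂ} (h : IsL1 j F)
    (h0 : (qx F).coeff 0 = 0) : IsZeroAtImInfty F := by
  obtain ⟨G, rfl⟩ := h
  exact CuspFormClass.zero_at_infty (ModularForm.toCuspForm G h0)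

/-- Slice (2) in the shape consumed by `Main`. -/
theorem levelOneConj : LevelOneConj := by
  intro j F hF
  obtain ⟨G, rfl⟩ := hF
  obtain ⟨t, ht⟩ := LevelOneFin.exists_finset_coeffs G
  refine ⟨t, fun S hS => ?_⟩
  have hle : Algebra.adjoin ℚ (t : Set ℂ) ≤ S := Algebra.adjoin_le hS
  have hGS : HasCoeffs S (qx G) := fun n => hle (ht n)
  refine ⟨hGS, fun φ => ?_⟩
  obtain ⟨G', hG'⟩ := LevelOneRat.exists_conj j S φ G hGS
  refine ⟨G', ⟨G', rfl⟩, ?_⟩
  ext n
  rw [coeff_conj φ hGS]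
  exact hG' n

section Gamma0

variable {N : ℕ} [NeZero N] {k : ℤ}

/-- Slice (6) in the shape consumed by `Main`. -/
theorem integralHyp : IntegralHyp N k := by
  intro K D w μ r hD hr0 hr hrel
  have hrel' : ∀ τ, w τ ^ μ +
      ∑ i ∈ range μ, r (i + 1) τ * D τ ^ (i + 1) * w τ ^ (μ - (i + 1)) = 0 := by
    intro τ
    have := hrel τ
    rw [Finset.sum_range_succ', hr0] at this
    simp only [Pi.one_apply, pow_zero, mul_one, one_mul, Nat.sub_zero] at this
    rw [add_comm]
    exact this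
  obtain ⟨-, hcusp⟩ := Integral.exists_form_of_integral w D hD μ r
    (fun i h1 h2 => (hr i h1 h2).1) hrel'
  obtain ⟨h, hh⟩ := hcusp fun i h1 h2 =>
    isZeroAtImInfty_of_coeff_zero (hr i h1 h2).1 (hr i h1 h2).2
  exact ⟨h, fun τ => by rw [mul_comm]; exact hh τ⟩

/-- Slice (4) in the shape consumed by `Main`. -/
theorem charPolyData (f : CuspForm (Gamma0 N) k) : CharPolyData f := by
  refine ⟨CharPoly.index N, fun i τ => (-1) ^ i * CharPoly.esymmForm 𝒮ℒ f i τ, ?_, ?_, ?_⟩
  · funext τ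
    simp [CharPoly.esymmForm_zero_apply N f τ]
  · intro i h1 _
    have hL1 : IsL1 (k * i) (fun τ => (-1) ^ i * CharPoly.esymmForm 𝒮ℒ f i τ) :=
      ⟨((-1 : ℂ) ^ i) • CharPoly.esymmForm 𝒮ℒ f i, by
        funext τ
        simp⟩
    refine ⟨hL1, ?_⟩
    have hfun : (fun τ => (-1 : ℂ) ^ i * CharPoly.esymmForm 𝒮ℒ f i τ) =
        ((-1 : ℂ) ^ i) • (CharPoly.esymmForm 𝒮ℒ f i : ℍ → ℂ) := by
      funext τ
      simp
    have hQ : IsQ (CharPoly.esymmForm 𝒮ℒ f i : ℍ → ℂ) := isQ_of_levelOne _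
    change (PowerSeries.coeff 0) (qx fun τ => (-1 : ℂ) ^ i * CharPoly.esymmForm 𝒮ℒ f i τ) = 0
    rw [hfun, qx_smul _ hQ, PowerSeries.coeff_smul]
    have h0 : (qx (CharPoly.esymmForm 𝒮ℒ f i : ℍ → ℂ)).coeff 0 = 0 := by
      rw [← CharPoly.coe_esymmCuspForm 𝒮ℒ f i h1]
      exact CuspFormClass.qExpansion_coeff_zero (CharPoly.esymmCuspForm 𝒮ℒ f i h1) one_pos
        one_mem_strictPeriods_SL
    rw [h0, smul_zero]
  · intro τ
    have := CharPoly.charpoly_root_Gamma0 N f τ
    rw [← this]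
    refine Finset.sum_congr rfl fun i _ => ?_
    ring

end Gamma0

end Fermat.Agent.S23.Wiring
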