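import Fermat.Statements.S23
import Fermat.Agent.S23.Main
import Fermat.Agent.S23.Wiring
import Fermat.Agent.S23.Bundle
import Fermat.Agent.S23.Lagrange12
import Fermat.Agent.S23.Descent
import Fermat.Agent.S23.BoundedDenom

set_option autoImplicit false

namespace Fermat.Agent.S23.Assemble

open UpperHalfPlane CongruenceSubgroup ModularFormClass
open scoped Manifold ModularForm MatrixGroups

theorem result_of_theta (N : ℕ) [NeZero N]
    (θ : ModularForm (Gamma0 N) 12) (hrat : CoeffRing.IsRat (QRing.qx θ))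
    (hne : ∀ γ : SL(2, ℤ), γ ∉ Gamma0 N → (⇑θ) ∣[(12 : ℤ)] γ ≠ ⇑θ) :
    CuspForm.HasIntegralStructure N 2 := by
  refine BoundedDenom.hasIntegralStructure_of_span_rat (by norm_num)
    (Descent.span_rat_eq_top_of_conj fun f => ?_)
  obtain ⟨K, D, hD, hDpoly, hlag⟩ := Lagrange12.exists_lagrange θ hne
  exact Main.exists_conj_of_hyps θ hrat Bundle.levelOneConj (Bundle.bundleHyp θ)
    Wiring.integralHyp f (Wiring.charPolyData f)
    ⟨K, D, hD, hDpoly, hlag 2 (CuspForm.toModularFormₗ f)⟩

end Fermat.Agent.S23.Assemble
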