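import Mathlib

/-!
# Lagrange interpolation with a primitive element (S23, slice (5))

Let `𝒢 ≤ ℋ`-ish subgroups of `GL(2, ℝ)` with `𝒢 ⊓ ℋ` of finite index in `ℋ`, `f` and `θ` modular
forms for `𝒢` of weights `k` and `w`.  Writing `f_q`, `θ_q` (`q ∈ 𝒬 = ℋ ⧸ 𝒢 ⊓ ℋ`) for the
translates (`SlashInvariantForm.quotientFunc`), we show

`(∏_{q ≠ 1} (θ - θ_q)) * f = ∑_{m < μ} g_m * θ ^ m`,

where the `g_m` are explicit combinations of the coefficients of `∏_q (X - θ_q)` and of the traces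
of `f * θ ^ j`, hence modular forms for `ℋ`.
-/

set_option autoImplicit false
set_option linter.unusedSectionVars false

noncomputable section

namespace Fermat.Agent.S23.Lagrange

open Polynomial Finset

/-! ### Pure algebra -/

section Algebra

variable {R : Type*} [CommRing R] [Nontrivial R] {ι : Type*} [Fintype ι] [DecidableEq ι]

/-- The polynomial `∏ i, (X - a i)`. -/
def rootPoly (a : ι → R) : R[X] := ∏ i, (X - C (a i))

omit [Nontrivial R] [DecidableEq ι] in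
lemma rootPoly_monic (a : ι → R) : (rootPoly a).Monic :=
  monic_prod_of_monic _ _ fun i _ => monic_X_sub_C (a i)

lemma natDegree_rootPoly (a : ι → R) : (rootPoly a).natDegree = Fintype.card ι := by
  rw [rootPoly, natDegree_finsetProd_X_sub_C_eq_card, Finset.card_univ]

/-- The power-sum-like traces `∑ i, b i * a i ^ j`. -/
def trSum (a b : ι → R) (j : ℕ) : R := ∑ i, b i * a i ^ j

/-- The Lagrange coefficients `g_m = ∑_{i > m} c_i * tr (i - m - 1)`. -/
def lagCoeff (a b : ι → R) (m : ℕ) : R :=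
  ∑ i ∈ Icc (m + 1) (Fintype.card ι), (rootPoly a).coeff i * trSum a b (i - (m + 1))

/-- The Lagrange interpolation polynomial `∑ i, b i * ∏_{j ≠ i} (X - a j)`. -/
def lagPoly (a b : ι → R) : R[X] := ∑ i, C (b i) * ∏ j ∈ univ.erase i, (X - C (a j))

lemma prod_erase_eq_divByMonic (a : ι → R) (i : ι) :
    ∏ j ∈ univ.erase i, (X - C (a j)) = rootPoly a /ₘ (X - C (a i)) := by
  rw [rootPoly, ← Finset.mul_prod_erase univ _ (Finset.mem_univ i),
    mul_divByMonic_cancel_left _ (monic_X_sub_C (a i))]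

lemma coeff_lagPoly (a b : ι → R) (m : ℕ) : (lagPoly a b).coeff m = lagCoeff a b m := by
  simp only [lagPoly, finsetSum_coeff, coeff_C_mul, prod_erase_eq_divByMonic,
    coeff_divByMonic_X_sub_C, natDegree_rootPoly, lagCoeff, trSum]
  simp_rw [Finset.mul_sum]
  rw [Finset.sum_comm]
  refine Finset.sum_congr rfl fun i _ => Finset.sum_congr rfl fun q _ => ?_
  ring

lemma natDegree_lagPoly_lt (a b : ι → R) [Nonempty ι] :
    (lagPoly a b).natDegree < Fintype.card ι := by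
  refine lt_of_le_of_lt (natDegree_sum_le_of_forall_le _ _ (n := Fintype.card ι - 1) ?_) ?_
  · intro i _
    refine (natDegree_C_mul_le _ _).trans ?_
    rw [natDegree_finsetProd_X_sub_C_eq_card, Finset.card_erase_of_mem (Finset.mem_univ i),
      Finset.card_univ]
  · have : 0 < Fintype.card ι := Fintype.card_pos
    omega

lemma lagPoly_eq_sum (a b : ι → R) [Nonempty ι] :
    lagPoly a b = ∑ m ∈ range (Fintype.card ι), C (lagCoeff a b m) * X ^ m := by
  rw [(lagPoly a b).as_sum_range' _ (natDegree_lagPoly_lt a b)]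
  refine Finset.sum_congr rfl fun m _ => ?_
  rw [coeff_lagPoly, C_mul_X_pow_eq_monomial]

lemma eval_lagPoly (a b : ι → R) (i₀ : ι) :
    (lagPoly a b).eval (a i₀) = b i₀ * ∏ j ∈ univ.erase i₀, (a i₀ - a j) := by
  rw [lagPoly, eval_finsetSum, Finset.sum_eq_single i₀]
  · simp [eval_prod]
  · intro i _ hi
    rw [eval_mul, eval_prod, Finset.prod_eq_zero (i := i₀)]
    · simp
    · exact Finset.mem_erase.mpr ⟨fun h => hi h.symm, Finset.mem_univ _⟩
    · simp
  · intro h; exact absurd (Finset.mem_univ _) h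

/-- **Lagrange identity**, pointwise form. -/
theorem lagrange_identity (a b : ι → R) (i₀ : ι) :
    (∏ j ∈ univ.erase i₀, (a i₀ - a j)) * b i₀ =
      ∑ m ∈ range (Fintype.card ι), lagCoeff a b m * a i₀ ^ m := by
  have : Nonempty ι := ⟨i₀⟩
  rw [mul_comm, ← eval_lagPoly, lagPoly_eq_sum, eval_finsetSum]
  refine Finset.sum_congr rfl fun m _ => ?_
  simp

/-- The discriminant-like factor is the derivative of the root polynomial. -/
theorem prod_erase_eq_eval_derivative (a : ι → R) (i₀ : ι) :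
    ∏ j ∈ univ.erase i₀, (a i₀ - a j) = (derivative (rootPoly a)).eval (a i₀) := by
  have h := eval_lagPoly a (fun _ => (1 : R)) i₀
  rw [one_mul] at h
  rw [← h, rootPoly, derivative_prod_finset]
  simp [lagPoly]

theorem prod_erase_eq_sum (a : ι → R) (i₀ : ι) :
    ∏ j ∈ univ.erase i₀, (a i₀ - a j) =
      ∑ i ∈ range (Fintype.card ι + 1), (i : R) * (rootPoly a).coeff i * a i₀ ^ (i - 1) := by
  rw [prod_erase_eq_eval_derivative, derivative_apply, sum_over_range' _ _ (Fintype.card ι + 1)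
    (by rw [natDegree_rootPoly]; omega), eval_finsetSum]
  · refine Finset.sum_congr rfl fun i _ => ?_
    rw [eval_mul, eval_C, eval_pow, eval_X]
    ring
  · intro n; simp

end Algebra

/-! ### Modular forms -/

section Modular

open UpperHalfPlane SlashInvariantForm

open scoped ModularForm Manifold MatrixGroups

variable {𝒢 ℋ : Subgroup (GL (Fin 2) ℝ)} {k w : ℤ}

local notation "𝒬" => ℋ ⧸ (𝒢.subgroupOf ℋ)

/-- Restriction of a modular form to a smaller group. -/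
def restrict {k' : ℤ} (hle : 𝒢 ≤ ℋ) (F : ModularForm ℋ k') : ModularForm 𝒢 k' where
  toFun := F
  slash_action_eq' γ hγ := F.slash_action_eq' γ (hle hγ)
  holo' := F.holo'
  bdd_at_cusps' hc := F.bdd_at_cusps' (hc.mono hle)

@[simp] lemma coe_restrict {k' : ℤ} (hle : 𝒢 ≤ ℋ) (F : ModularForm ℋ k') :
    ⇑(restrict hle F) = ⇑F := rfl

/-- `quotientFunc` only depends on the underlying function and the weight. -/
lemma quotientFunc_congr {k₁ : ℤ} {F₁ F₂ : Type*} [FunLike F₁ ℍ ℂ] [FunLike F₂ ℍ ℂ]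
    [SlashInvariantFormClass F₁ 𝒢 k₁] [SlashInvariantFormClass F₂ 𝒢 k₁] (f₁ : F₁) (f₂ : F₂)
    (h : (f₁ : ℍ → ℂ) = f₂) (q : 𝒬) : quotientFunc f₁ q = quotientFunc f₂ q := by
  induction q using Quotient.inductionOn with
  | h r => simp [h]

lemma quotientFunc_mcast {a b : ℤ} (h : a = b) (F : ModularForm 𝒢 a) (q : 𝒬) :
    quotientFunc (ModularForm.mcast h F : ModularForm 𝒢 b) q = quotientFunc F q := by
  subst h
  exact quotientFunc_congr _ _ rfl q

lemma quotientFunc_mul [𝒢.HasDetPlusMinusOne] [ℋ.HasDetPlusMinusOne] {k₁ k₂ : ℤ}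
    (F₁ : ModularForm 𝒢 k₁) (F₂ : ModularForm 𝒢 k₂) (q : 𝒬) :
    quotientFunc (F₁.mul F₂) q = quotientFunc F₁ q * quotientFunc F₂ q := by
  induction q using Quotient.inductionOn with
  | h r =>
    have hdet : |((r : GL (Fin 2) ℝ)⁻¹.det : ℝ)| = 1 :=
      Subgroup.HasDetPlusMinusOne.abs_det (inv_mem r.2)
    simp only [quotientFunc_mk, ModularForm.coe_mul, ModularForm.mul_slash]
    rw [hdet, one_smul]

/-- The modular form `f * θ ^ j`, of weight `k + j * w`. -/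
def mulPow [𝒢.HasDetPlusMinusOne] (f : ModularForm 𝒢 k) (θ : ModularForm 𝒢 w) :
    (j : ℕ) → ModularForm 𝒢 (k + j * w)
  | 0 => ModularForm.mcast (by simp) f
  | j + 1 => ModularForm.mcast (by push_cast; ring) ((mulPow f θ j).mul θ)

lemma coe_mulPow [𝒢.HasDetPlusMinusOne] (f : ModularForm 𝒢 k) (θ : ModularForm 𝒢 w) (j : ℕ) :
    ⇑(mulPow f θ j) = ⇑f * ⇑θ ^ j := by
  induction j with
  | zero => simp [mulPow]
  | succ j ih =>
    simp only [mulPow, ModularForm.coe_mcast, ModularForm.coe_mul, ih]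
    ring

lemma quotientFunc_mulPow [𝒢.HasDetPlusMinusOne] [ℋ.HasDetPlusMinusOne] (f : ModularForm 𝒢 k)
    (θ : ModularForm 𝒢 w) (j : ℕ) (q : 𝒬) :
    quotientFunc (mulPow f θ j) q = quotientFunc f q * quotientFunc θ q ^ j := by
  induction j with
  | zero => simp [mulPow, quotientFunc_mcast]
  | succ j ih =>
    simp only [mulPow, quotientFunc_mcast, quotientFunc_mul, ih]
    ring

variable [𝒢.IsFiniteRelIndex ℋ]

/-- `Fintype` structure on the coset space. -/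
local instance fintypeQ : Fintype 𝒬 := Fintype.ofFinite 𝒬

local instance decEqQ : DecidableEq 𝒬 := Classical.decEq _

variable (ℋ) in
/-- The values of the translates of `θ` at `τ`. -/
def vals (θ : ModularForm 𝒢 w) (τ : ℍ) : 𝒬 → ℂ := fun q => quotientFunc θ q τ

variable (ℋ) in
/-- The coefficients of `∏ q, (X - θ_q)`, as functions on the upper half plane. -/
def pc (θ : ModularForm 𝒢 w) (i : ℕ) (τ : ℍ) : ℂ := (rootPoly (vals ℋ θ τ)).coeff i

variable (ℋ) in
/-- The traces `∑ q, f_q * θ_q ^ j`, as functions on the upper half plane. -/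
def trFun (f : ModularForm 𝒢 k) (θ : ModularForm 𝒢 w) (j : ℕ) (τ : ℍ) : ℂ :=
  trSum (vals ℋ θ τ) (vals ℋ f τ) j

variable (ℋ) in
/-- The Lagrange coefficients, as functions on the upper half plane. -/
def gFun (f : ModularForm 𝒢 k) (θ : ModularForm 𝒢 w) (m : ℕ) (τ : ℍ) : ℂ :=
  lagCoeff (vals ℋ θ τ) (vals ℋ f τ) m

variable (ℋ) in
/-- The factor `∏_{q ≠ 1} (θ - θ_q)`. -/
def Dfun (θ : ModularForm 𝒢 w) (τ : ℍ) : ℂ :=
  ∏ q ∈ (Finset.univ : Finset 𝒬).erase ⟦1⟧, (θ τ - quotientFunc θ q τ)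

lemma vals_one {k' : ℤ} (F : ModularForm 𝒢 k') (τ : ℍ) : vals ℋ F τ ⟦1⟧ = F τ := by
  simp [vals]

lemma card_Q : Fintype.card 𝒬 = Nat.card 𝒬 := (Nat.card_eq_fintype_card).symm

/-- (L1) **Lagrange identity**. -/
theorem lagrange_identity_fun (f : ModularForm 𝒢 k) (θ : ModularForm 𝒢 w) (τ : ℍ) :
    Dfun ℋ θ τ * f τ = ∑ m ∈ range (Nat.card 𝒬), gFun ℋ f θ m τ * θ τ ^ m := by
  have h := lagrange_identity (vals ℋ θ τ) (vals ℋ f τ) ⟦1⟧
  rw [vals_one, vals_one, card_Q] at h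
  exact h

/-- (L2) The factor `D` in terms of the coefficients of the root polynomial. -/
theorem Dfun_eq_sum (θ : ModularForm 𝒢 w) (τ : ℍ) :
    Dfun ℋ θ τ = ∑ i ∈ range (Nat.card 𝒬 + 1), (i : ℂ) * pc ℋ θ i τ * θ τ ^ (i - 1) := by
  have h := prod_erase_eq_sum (vals ℋ θ τ) ⟦1⟧
  rw [vals_one, card_Q] at h
  exact h

lemma gFun_eq (f : ModularForm 𝒢 k) (θ : ModularForm 𝒢 w) (m : ℕ) (τ : ℍ) :
    gFun ℋ f θ m τ =
      ∑ i ∈ Icc (m + 1) (Nat.card 𝒬), pc ℋ θ i τ * trFun ℋ f θ (i - (m + 1)) τ := by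
  rw [gFun, lagCoeff, card_Q]
  rfl

variable (ℋ) in
/-- The trace of `f * θ ^ j`, a modular form for `ℋ`. -/
def trForm [𝒢.HasDetPlusMinusOne] (f : ModularForm 𝒢 k) (θ : ModularForm 𝒢 w) (j : ℕ) :
    ModularForm ℋ (k + j * w) :=
  ModularForm.trace ℋ (mulPow f θ j)

/-- (L4a) the functions `trFun` are modular forms for `ℋ`. -/
lemma coe_trForm [𝒢.HasDetPlusMinusOne] [ℋ.HasDetPlusMinusOne] (f : ModularForm 𝒢 k)
    (θ : ModularForm 𝒢 w) (j : ℕ) : ⇑(trForm ℋ f θ j) = trFun ℋ f θ j := by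
  ext τ
  rw [trForm, ModularForm.coe_trace, Finset.sum_apply]
  simp only [trFun, trSum, vals, quotientFunc_mulPow, Pi.mul_apply, Pi.pow_apply]

/-- (L4b) Given that the coefficients of the root polynomial of `θ` are modular forms for `ℋ`
(this is the content of the `CharPoly` slice), the Lagrange coefficients are modular forms for
`ℋ`. -/
theorem exists_gForm [𝒢.HasDetPlusMinusOne] [ℋ.HasDetPlusMinusOne] (f : ModularForm 𝒢 k)
    (θ : ModularForm 𝒢 w)
    (hc : ∀ i, i ≤ Nat.card 𝒬 →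
      ∃ c : ModularForm ℋ (w * ((Nat.card 𝒬 - i : ℕ) : ℤ)), ⇑c = pc ℋ θ i)
    (m : ℕ) :
    ∃ G : ModularForm ℋ (k + w * ((Nat.card 𝒬 : ℤ) - 1 - m)), ⇑G = gFun ℋ f θ m := by
  choose c hc' using hc
  have hw : ∀ i : {i // i ∈ Icc (m + 1) (Nat.card 𝒬)},
      w * ((Nat.card 𝒬 - i.1 : ℕ) : ℤ) + (k + ((i.1 - (m + 1) : ℕ) : ℤ) * w) =
        k + w * ((Nat.card 𝒬 : ℤ) - 1 - m) := by
    intro i
    have h1 := (mem_Icc.mp i.2).1
    have h2 := (mem_Icc.mp i.2).2
    rw [Nat.cast_sub h2, Nat.cast_sub h1]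
    push_cast
    ring
  refine ⟨∑ i ∈ (Icc (m + 1) (Nat.card 𝒬)).attach, ModularForm.mcast (hw i)
    ((c i.1 (mem_Icc.mp i.2).2).mul (trForm ℋ f θ (i.1 - (m + 1)))), ?_⟩
  rw [FunLike.coe_sum]
  ext τ
  rw [Finset.sum_apply, gFun_eq, ← Finset.sum_attach (Icc (m + 1) (Nat.card 𝒬))]
  refine Finset.sum_congr rfl fun i _ => ?_
  rw [ModularForm.coe_mcast, ModularForm.coe_mul, Pi.mul_apply, hc', coe_trForm]

/-- For any family `G' m` of modular forms for `ℋ` of the right weights, `∑ m, G' m * θ ^ m` is a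
modular form for `𝒢`. -/
theorem exists_numForm [𝒢.HasDetPlusMinusOne] [ℋ.HasDetPlusMinusOne] (hle : 𝒢 ≤ ℋ)
    (θ : ModularForm 𝒢 w) (μ : ℕ)
    (G' : ∀ m : ℕ, ModularForm ℋ (k + w * ((μ : ℤ) - 1 - m))) :
    ∃ W : ModularForm 𝒢 (k + w * ((μ : ℤ) - 1)),
      ∀ τ, W τ = ∑ m ∈ range μ, G' m τ * θ τ ^ m := by
  have hw : ∀ m : ℕ, k + w * ((μ : ℤ) - 1 - m) + (m : ℤ) * w = k + w * ((μ : ℤ) - 1) := by
    intro m; ring
  refine ⟨∑ m ∈ range μ, ModularForm.mcast (hw m) (mulPow (restrict hle (G' m)) θ m), ?_⟩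
  intro τ
  rw [FunLike.coe_sum, Finset.sum_apply]
  refine Finset.sum_congr rfl fun m _ => ?_
  rw [ModularForm.coe_mcast, coe_mulPow]
  simp

/-- For any family `c' i` of modular forms for `ℋ` of the right weights,
`∑ i, i * c' i * θ ^ (i - 1)` is a modular form for `𝒢`. -/
theorem exists_derivForm [𝒢.HasDetOne] [ℋ.HasDetPlusMinusOne] (hle : 𝒢 ≤ ℋ)
    (θ : ModularForm 𝒢 w) (μ : ℕ)
    (c' : ∀ i : ℕ, ModularForm ℋ (w * ((μ - i : ℕ) : ℤ))) :
    ∃ D : ModularForm 𝒢 (w * ((μ : ℤ) - 1)),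
      ∀ τ, D τ = ∑ i ∈ range (μ + 1), (i : ℂ) * c' i τ * θ τ ^ (i - 1) := by
  have hw : ∀ i : ℕ, i + 1 ≤ μ →
      w * ((μ - (i + 1) : ℕ) : ℤ) + (i : ℤ) * w = w * ((μ : ℤ) - 1) := by
    intro i hi
    rw [Nat.cast_sub hi]
    push_cast
    ring
  refine ⟨∑ i ∈ range μ, if h : i + 1 ≤ μ then
    (((i + 1 : ℕ) : ℂ) • ModularForm.mcast (hw i h) (mulPow (restrict hle (c' (i + 1))) θ i))
    else 0, ?_⟩
  intro τ
  rw [FunLike.coe_sum, Finset.sum_apply, Finset.sum_range_succ']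
  simp only [Nat.cast_zero, zero_mul, add_zero]
  refine Finset.sum_congr rfl fun i hi => ?_
  have h : i + 1 ≤ μ := Nat.succ_le_of_lt (Finset.mem_range.mp hi)
  rw [dif_pos h, FunLike.coe_smul, Pi.smul_apply, ModularForm.coe_mcast, coe_mulPow]
  simp
  ring

/-- (L3) The factor `D` does not vanish identically if the translates of `θ` are distinct from
`θ`. -/
theorem Dfun_ne_zero (θ : ModularForm 𝒢 w)
    (hθ : ∀ q : 𝒬, q ≠ ⟦1⟧ → quotientFunc θ q ≠ ⇑θ) : Dfun ℋ θ ≠ 0 := by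
  have h1 : Dfun ℋ θ = ∏ q ∈ (Finset.univ : Finset 𝒬).erase ⟦1⟧, (⇑θ - quotientFunc θ q) := by
    ext τ
    simp [Dfun, Finset.prod_apply]
  rw [h1, Ne, UpperHalfPlane.prod_eq_zero_iff]
  · rintro ⟨q, hq, h0⟩
    exact hθ q (Finset.ne_of_mem_erase hq) (sub_eq_zero.mp h0).symm
  · intro q _
    refine θ.holo'.sub ?_
    induction q using Quotient.inductionOn with
    | h r => exact (ModularForm.translate θ r.val⁻¹).holo'

end Modular

end Fermat.Agent.S23.Lagrange
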