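import Fermat.Agent.S23.Main
import Fermat.Agent.S23.LagrangeGamma0

/-!
# S23: discharging `Main.BundleHyp` and `Main.LagrangeData` from the Lagrange slice (5)
-/

set_option autoImplicit false

namespace Fermat.Agent.S23.LagrangeWiring

open UpperHalfPlane CongruenceSubgroup Finset
open scoped Manifold ModularForm MatrixGroups
open Fermat.Agent.S23.Main

variable {N : ℕ} [NeZero N] {k : ℤ}

/-- The two definitions of `IsLevelOnePoly` agree. -/
theorem isLevelOnePoly_iff (θ : ℍ → ℂ) (K : ℤ) (F : ℍ → ℂ) :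
    Lagrange.IsLevelOnePoly θ K F ↔ Main.IsLevelOnePoly θ K F := Iff.rfl

/-- Polynomials in `θ` with level-one coefficients are modular forms for `Γ₀(N)`. -/
theorem bundleHyp (θ : ModularForm (Gamma0 N) 12) : BundleHyp θ := by
  classical
  intro K F ⟨n, c, hc, hF⟩
  -- choose bundled level-one coefficients
  let G' : ∀ m : ℕ, ModularForm 𝒮ℒ ((K - 12 * ((n : ℤ) - 1)) + 12 * ((n : ℤ) - 1 - m)) := fun m =>
    if h : m < n then ModularForm.mcast (by ring) (Classical.choose (hc m h)) else 0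
  have hG' : ∀ m < n, ⇑(G' m) = c m := by
    intro m hm
    simp only [G', dif_pos hm, ModularForm.coe_mcast]
    exact Classical.choose_spec (hc m hm)
  obtain ⟨W, hW⟩ := Lagrange.exists_numForm (ℋ := 𝒮ℒ) Lagrange.Gamma0_le_SL θ n G'
  refine ⟨ModularForm.mcast (by ring) W, ?_⟩
  ext τ
  rw [ModularForm.coe_mcast, hW, hF]
  refine Finset.sum_congr rfl fun m hm => ?_
  rw [hG' m (Finset.mem_range.mp hm)]

/-- Slices (3)+(5) in the shape consumed by `Main`. -/
theorem lagrangeData (θ : ModularForm (Gamma0 N) 12)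
    (hθ : ∀ γ : SL(2, ℤ), γ ∉ Gamma0 N → (⇑θ) ∣[(12 : ℤ)] γ ≠ ⇑θ)
    (f : CuspForm (Gamma0 N) k) : LagrangeData θ f := by
  obtain ⟨K, D, hD0, hD, hf⟩ := Lagrange.exists_lagrange θ hθ
  exact ⟨K, D, hD0, hD, hf k (CuspForm.toModularFormₗ f)⟩

end Fermat.Agent.S23.LagrangeWiring
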