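import Mathlib

/-!
# S23 (PROJECT Q), slice (8): conjugating cusp forms by field homomorphisms, abstract form

We work with graded families of `ℂ`-subspaces of `ℂ⟦X⟧` (to be instantiated with the images under
`qExpansion` of level-one and level-`N` modular / cusp forms).  From
* conjugation-stability and finite generation of coefficients of level-one forms (slice 2),
* a rational primitive element `θ` (slice 3),
* the characteristic polynomial of a cusp form over level-one cusp forms (slice 4),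
* Lagrange interpolation `D * f = ∑ g m * θ ^ m` (slice 5),
* integrality implies modularity (slice 6),
we deduce: every level-`N` cusp form `f` has coefficients in a finitely generated `ℚ`-subalgebra
`S ≤ ℂ` such that for every `φ : S →ₐ[ℚ] ℂ` the coefficientwise conjugate `φ(f)` is again a
level-`N` cusp form.
-/

set_option autoImplicit false

namespace Fermat.Agent.S23.MainAbstract

open PowerSeries

/-- All coefficients of `f` lie in the subalgebra `S`. -/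
def CoeffsIn (S : Subalgebra ℚ ℂ) (f : ℂ⟦X⟧) : Prop := ∀ n, coeff n f ∈ S

/-- The inclusion `S⟦X⟧ → ℂ⟦X⟧`. -/
noncomputable def incl (S : Subalgebra ℚ ℂ) : S⟦X⟧ →+* ℂ⟦X⟧ := map S.val.toRingHom

/-- Coefficientwise application of `φ`. -/
noncomputable def app {S : Subalgebra ℚ ℂ} (φ : S →ₐ[ℚ] ℂ) : S⟦X⟧ →+* ℂ⟦X⟧ := map φ.toRingHom

theorem incl_injective (S : Subalgebra ℚ ℂ) : Function.Injective (incl S) :=
  PowerSeries.map_injective _ Subtype.val_injective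

@[simp] theorem coeff_incl (S : Subalgebra ℚ ℂ) (n : ℕ) (f : S⟦X⟧) :
    coeff n (incl S f) = ((coeff n f : S) : ℂ) := by
  simp [incl]

@[simp] theorem coeff_app {S : Subalgebra ℚ ℂ} (φ : S →ₐ[ℚ] ℂ) (n : ℕ) (f : S⟦X⟧) :
    coeff n (app φ f) = φ (coeff n f) := by
  simp [app]

theorem coeffsIn_iff {S : Subalgebra ℚ ℂ} {f : ℂ⟦X⟧} :
    CoeffsIn S f ↔ ∃ fS : S⟦X⟧, incl S fS = f := by
  constructor
  · intro h
    refine ⟨PowerSeries.mk fun n => ⟨coeff n f, h n⟩, ?_⟩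
    ext n
    simp
  · rintro ⟨fS, rfl⟩ n
    rw [coeff_incl]
    exact (coeff n fS).2

theorem CoeffsIn.mono {S S' : Subalgebra ℚ ℂ} (h : S ≤ S') {f : ℂ⟦X⟧} (hf : CoeffsIn S f) :
    CoeffsIn S' f := fun n => h (hf n)

theorem coeffsIn_of_rat (S : Subalgebra ℚ ℂ) {f : ℂ⟦X⟧} (hf : ∀ n, ∃ r : ℚ, coeff n f = (r : ℂ)) :
    CoeffsIn S f := by
  intro n
  obtain ⟨r, hr⟩ := hf n
  rw [hr]
  exact S.algebraMap_mem r

/-- A rational power series is fixed by coefficientwise conjugation. -/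
theorem app_eq_incl_of_rat {S : Subalgebra ℚ ℂ} (φ : S →ₐ[ℚ] ℂ) (fS : S⟦X⟧)
    (hf : ∀ n, ∃ r : ℚ, coeff n (incl S fS) = (r : ℂ)) : app φ fS = incl S fS := by
  ext n
  obtain ⟨r, hr⟩ := hf n
  rw [coeff_app, hr]
  rw [coeff_incl] at hr
  have : coeff n fS = algebraMap ℚ S r := Subtype.ext (by rw [hr]; rfl)
  rw [this, AlgHom.commutes]
  rfl

theorem exists_finset_forall {ι : Type*} (t : Finset ι) (F : ι → ℂ⟦X⟧)
    (h : ∀ i ∈ t, ∃ s : Finset ℂ, CoeffsIn (Algebra.adjoin ℚ (s : Set ℂ)) (F i)) :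
    ∃ s : Finset ℂ, ∀ i ∈ t, CoeffsIn (Algebra.adjoin ℚ (s : Set ℂ)) (F i) := by
  classical
  choose! s hs using h
  refine ⟨t.biUnion s, fun i hi => (hs i hi).mono (Algebra.adjoin_mono ?_)⟩
  intro x hx
  exact Finset.mem_biUnion.mpr ⟨i, hi, hx⟩

/-- Division of power series: if the first nonzero coefficient of `D` is a unit of `S`, and `D`
and `D * f` have coefficients in `S`, so does `f`. -/
theorem coeffsIn_of_mul {S : Subalgebra ℚ ℂ} {D f : ℂ⟦X⟧} (n₀ : ℕ)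
    (hlow : ∀ i < n₀, coeff i D = 0) (hinv : (coeff n₀ D)⁻¹ ∈ S) (hne : coeff n₀ D ≠ 0)
    (hD : CoeffsIn S D) (hW : CoeffsIn S (D * f)) : CoeffsIn S f := by
  intro n
  induction n using Nat.strong_induction_on with
  | _ n ih =>
    have h1 := hW (n₀ + n)
    rw [coeff_mul, Finset.Nat.sum_antidiagonal_eq_sum_range_succ
      (fun i j => coeff i D * coeff j f)] at h1
    -- split the sum at i = n₀
    have hsplit : ∑ i ∈ Finset.range (n₀ + n + 1), coeff i D * coeff (n₀ + n - i) f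
        = coeff n₀ D * coeff n f
          + ∑ i ∈ Finset.Ico (n₀ + 1) (n₀ + n + 1), coeff i D * coeff (n₀ + n - i) f := by
      rw [Finset.range_eq_Ico, ← Finset.sum_Ico_consecutive _ (Nat.zero_le n₀) (by omega),
        ← Finset.sum_Ico_consecutive _ (Nat.le_succ n₀) (by omega : n₀ + 1 ≤ n₀ + n + 1)]
      have hz : ∑ i ∈ Finset.Ico 0 n₀, coeff i D * coeff (n₀ + n - i) f = 0 :=
        Finset.sum_eq_zero fun i hi => by
          rw [hlow i (Finset.mem_Ico.mp hi).2, zero_mul]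
      rw [hz, zero_add, Nat.Ico_succ_singleton, Finset.sum_singleton]
      have : n₀ + n - n₀ = n := by omega
      rw [this]
    rw [hsplit] at h1
    have h2 : ∑ i ∈ Finset.Ico (n₀ + 1) (n₀ + n + 1), coeff i D * coeff (n₀ + n - i) f ∈ S := by
      refine Subalgebra.sum_mem _ fun i hi => ?_
      have hi' := Finset.mem_Ico.mp hi
      exact S.mul_mem (hD i) (ih _ (by omega))
    have h3 : coeff n₀ D * coeff n f ∈ S := by
      have := S.sub_mem h1 h2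
      simpa using this
    have h4 : coeff n f = (coeff n₀ D)⁻¹ * (coeff n₀ D * coeff n f) := by
      field_simp
    rw [h4]
    exact S.mul_mem hinv h3

section main

variable (M Sc Nm Nc : ℤ → Submodule ℂ ℂ⟦X⟧) (w : ℤ) (θ : ℂ⟦X⟧)

/-- The static hypotheses on the graded families `M` (level one), `Sc` (level one, cuspidal),
`Nm` (level `N`) of subspaces of `ℂ⟦X⟧` and on the primitive element `θ`. -/
structure Hyp : Prop where
  θ_mem : θ ∈ Nm w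
  θ_rat : ∀ n, ∃ r : ℚ, coeff n θ = (r : ℂ)
  Sc_le_M : ∀ j, Sc j ≤ M j
  M_le_Nm : ∀ j, M j ≤ Nm j
  one_mem : (1 : ℂ⟦X⟧) ∈ Nm 0
  mul_mem : ∀ (i j : ℤ) (a b : ℂ⟦X⟧), a ∈ Nm i → b ∈ Nm j → a * b ∈ Nm (i + j)
  fin : ∀ (j : ℤ), ∀ g ∈ M j, ∃ s : Finset ℂ, CoeffsIn (Algebra.adjoin ℚ (s : Set ℂ)) g
  conjM : ∀ (S : Subalgebra ℚ ℂ) (φ : S →ₐ[ℚ] ℂ) (j : ℤ) (gS : S⟦X⟧),
    incl S gS ∈ M j → app φ gS ∈ M j
  conjSc : ∀ (S : Subalgebra ℚ ℂ) (φ : S →ₐ[ℚ] ℂ) (j : ℤ) (gS : S⟦X⟧),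
    incl S gS ∈ Sc j → app φ gS ∈ Sc j

variable {M Sc Nm Nc w θ}

theorem Hyp.pow_mem (H : Hyp M Sc Nm w θ) (i : ℕ) : θ ^ i ∈ Nm (w * i) := by
  induction i with
  | zero => simpa using H.one_mem
  | succ i ih =>
    have := H.mul_mem _ _ _ _ ih H.θ_mem
    rw [pow_succ]
    convert this using 2
    push_cast
    ring

theorem Hyp.sum_mem (H : Hyp M Sc Nm w θ) {μ : ℕ} {K : ℤ} (g : ℕ → ℂ⟦X⟧)
    (hg : ∀ m ∈ Finset.range μ, g m ∈ M (K + w * ((μ : ℤ) - 1 - m))) :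
    ∑ m ∈ Finset.range μ, g m * θ ^ m ∈ Nm (K + w * ((μ : ℤ) - 1)) := by
  refine Submodule.sum_mem _ fun m hm => ?_
  have := H.mul_mem _ _ _ _ (H.M_le_Nm _ (hg m hm)) (H.pow_mem m)
  convert this using 2
  ring

/-- **Slice (8), abstract form.** -/
theorem main (H : Hyp M Sc Nm w θ) (k : ℤ) (μ : ℕ)
    (hchar : ∀ f ∈ Nc k, ∃ c : ℕ → ℂ⟦X⟧, (∀ i ∈ Finset.Icc 1 μ, c i ∈ Sc (i * k)) ∧
      f ^ μ + ∑ i ∈ Finset.Icc 1 μ, c i * f ^ (μ - i) = 0)
    (hlag : ∀ f ∈ Nc k, ∃ d g : ℕ → ℂ⟦X⟧,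
      (∀ i ∈ Finset.range μ, d i ∈ M (0 + w * ((μ : ℤ) - 1 - i))) ∧
      (∀ m ∈ Finset.range μ, g m ∈ M (k + w * ((μ : ℤ) - 1 - m))) ∧
      (∑ i ∈ Finset.range μ, d i * θ ^ i) ≠ 0 ∧
      (∑ i ∈ Finset.range μ, d i * θ ^ i) * f = ∑ m ∈ Finset.range μ, g m * θ ^ m)
    (hint : ∀ (W D : ℂ⟦X⟧) (c : ℕ → ℂ⟦X⟧), W ∈ Nm (k + w * ((μ : ℤ) - 1)) →
      D ∈ Nm (0 + w * ((μ : ℤ) - 1)) → D ≠ 0 → (∀ i ∈ Finset.Icc 1 μ, c i ∈ Sc (i * k)) →
      W ^ μ + ∑ i ∈ Finset.Icc 1 μ, c i * W ^ (μ - i) * D ^ i = 0 → ∃ h ∈ Nc k, D * h = W)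
    (f : ℂ⟦X⟧) (hf : f ∈ Nc k) :
    ∃ (s : Finset ℂ) (fS : (Algebra.adjoin ℚ (s : Set ℂ))⟦X⟧), incl _ fS = f ∧
      ∀ φ : Algebra.adjoin ℚ (s : Set ℂ) →ₐ[ℚ] ℂ, app φ fS ∈ Nc k := by
  classical
  obtain ⟨c, hc, hcharf⟩ := hchar f hf
  obtain ⟨d, g, hd, hg, hD0, hDf⟩ := hlag f hf
  set D : ℂ⟦X⟧ := ∑ i ∈ Finset.range μ, d i * θ ^ i with hDdef
  -- leading coefficient of D
  have hex : ∃ n, coeff n D ≠ 0 := exists_coeff_ne_zero_iff_ne_zero.mpr hD0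
  set n₀ := Nat.find hex with hn₀def
  have hn₀ : coeff n₀ D ≠ 0 := Nat.find_spec hex
  have hmin : ∀ i < n₀, coeff i D = 0 := fun i hi => by
    by_contra h
    exact Nat.find_min hex hi h
  -- the finite set
  obtain ⟨sd, hsd⟩ := exists_finset_forall (Finset.range μ) d fun i hi => H.fin _ _ (hd i hi)
  obtain ⟨sg, hsg⟩ := exists_finset_forall (Finset.range μ) g fun i hi => H.fin _ _ (hg i hi)
  obtain ⟨sc, hsc⟩ := exists_finset_forall (Finset.Icc 1 μ) c fun i hi =>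
    H.fin _ _ (H.Sc_le_M _ (hc i hi))
  set s : Finset ℂ := sd ∪ sg ∪ sc ∪ {(coeff n₀ D)⁻¹} with hs
  set S : Subalgebra ℚ ℂ := Algebra.adjoin ℚ (s : Set ℂ) with hS
  have hsdS : Algebra.adjoin ℚ (sd : Set ℂ) ≤ S := Algebra.adjoin_mono (by
    intro x hx; simp only [hs, Finset.coe_union, Set.mem_union, Finset.mem_coe] at hx ⊢; tauto)
  have hsgS : Algebra.adjoin ℚ (sg : Set ℂ) ≤ S := Algebra.adjoin_mono (by
    intro x hx; simp only [hs, Finset.coe_union, Set.mem_union, Finset.mem_coe] at hx ⊢; tauto)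
  have hscS : Algebra.adjoin ℚ (sc : Set ℂ) ≤ S := Algebra.adjoin_mono (by
    intro x hx; simp only [hs, Finset.coe_union, Set.mem_union, Finset.mem_coe] at hx ⊢; tauto)
  have hinvS : (coeff n₀ D)⁻¹ ∈ S := Algebra.subset_adjoin (by simp [hs])
  -- lifts to `S⟦X⟧`
  have hdl : ∀ i, ∃ x : S⟦X⟧, i ∈ Finset.range μ → incl S x = d i := fun i => by
    by_cases hi : i ∈ Finset.range μ
    · obtain ⟨x, hx⟩ := coeffsIn_iff.mp ((hsd i hi).mono hsdS)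
      exact ⟨x, fun _ => hx⟩
    · exact ⟨0, fun h => absurd h hi⟩
  have hgl : ∀ i, ∃ x : S⟦X⟧, i ∈ Finset.range μ → incl S x = g i := fun i => by
    by_cases hi : i ∈ Finset.range μ
    · obtain ⟨x, hx⟩ := coeffsIn_iff.mp ((hsg i hi).mono hsgS)
      exact ⟨x, fun _ => hx⟩
    · exact ⟨0, fun h => absurd h hi⟩
  have hcl : ∀ i, ∃ x : S⟦X⟧, i ∈ Finset.Icc 1 μ → incl S x = c i := fun i => by
    by_cases hi : i ∈ Finset.Icc 1 μ
    · obtain ⟨x, hx⟩ := coeffsIn_iff.mp ((hsc i hi).mono hscS)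
      exact ⟨x, fun _ => hx⟩
    · exact ⟨0, fun h => absurd h hi⟩
  choose dS hdS using hdl
  choose gS hgS using hgl
  choose cS hcS using hcl
  obtain ⟨θS, hθS⟩ := coeffsIn_iff.mp (coeffsIn_of_rat S H.θ_rat)
  set DS : S⟦X⟧ := ∑ i ∈ Finset.range μ, dS i * θS ^ i with hDSdef
  set WS : S⟦X⟧ := ∑ m ∈ Finset.range μ, gS m * θS ^ m with hWSdef
  have hDS : incl S DS = D := by
    rw [hDSdef, hDdef, map_sum]
    refine Finset.sum_congr rfl fun i hi => ?_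
    rw [map_mul, map_pow, hdS i hi, hθS]
  have hWS : incl S WS = D * f := by
    rw [hDf, hWSdef, map_sum]
    refine Finset.sum_congr rfl fun i hi => ?_
    rw [map_mul, map_pow, hgS i hi, hθS]
  -- `f` has coefficients in `S`
  have hfS : CoeffsIn S f :=
    coeffsIn_of_mul n₀ hmin hinvS hn₀ (coeffsIn_iff.mpr ⟨DS, hDS⟩) (coeffsIn_iff.mpr ⟨WS, hWS⟩)
  obtain ⟨fS, hfS'⟩ := coeffsIn_iff.mp hfS
  refine ⟨s, fS, hfS', fun φ => ?_⟩
  -- identities in `S⟦X⟧`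
  have hmulS : DS * fS = WS := incl_injective S (by rw [map_mul, hDS, hfS', hWS])
  have hcharS : fS ^ μ + ∑ i ∈ Finset.Icc 1 μ, cS i * fS ^ (μ - i) = 0 := by
    apply incl_injective S
    rw [map_add, map_pow, map_sum, map_zero, hfS', ← hcharf]
    congr 1
    refine Finset.sum_congr rfl fun i hi => ?_
    rw [map_mul, map_pow, hcS i hi, hfS']
  have hrelS : WS ^ μ + ∑ i ∈ Finset.Icc 1 μ, cS i * WS ^ (μ - i) * DS ^ i = 0 := by
    have h1 : WS ^ μ + ∑ i ∈ Finset.Icc 1 μ, cS i * WS ^ (μ - i) * DS ^ i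
        = DS ^ μ * (fS ^ μ + ∑ i ∈ Finset.Icc 1 μ, cS i * fS ^ (μ - i)) := by
      rw [mul_add, Finset.mul_sum, ← hmulS, mul_pow]
      congr 1
      refine Finset.sum_congr rfl fun i hi => ?_
      have hi' := Finset.mem_Icc.mp hi
      have : DS ^ μ = DS ^ (μ - i) * DS ^ i := by
        rw [← pow_add]; congr 1; omega
      rw [this, mul_pow]
      ring
    rw [h1, hcharS, mul_zero]
  -- push forward along `φ`
  have hθφ : app φ θS = θ := by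
    rw [app_eq_incl_of_rat φ θS (by rw [hθS]; exact H.θ_rat), hθS]
  have hrelφ : (app φ WS) ^ μ + ∑ i ∈ Finset.Icc 1 μ,
      (fun i => app φ (cS i)) i * (app φ WS) ^ (μ - i) * (app φ DS) ^ i = 0 := by
    have := congrArg (app φ) hrelS
    simpa only [map_add, map_pow, map_sum, map_mul, map_zero] using this
  have hWφ : app φ WS ∈ Nm (k + w * ((μ : ℤ) - 1)) := by
    rw [hWSdef, map_sum]
    have := H.sum_mem (μ := μ) (K := k) (fun m => app φ (gS m)) fun m hm =>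
      H.conjM S φ _ (gS m) (by rw [hgS m hm]; exact hg m hm)
    simpa only [map_mul, map_pow, hθφ] using this
  have hDφ : app φ DS ∈ Nm (0 + w * ((μ : ℤ) - 1)) := by
    rw [hDSdef, map_sum]
    have := H.sum_mem (μ := μ) (K := 0) (fun m => app φ (dS m)) fun m hm =>
      H.conjM S φ _ (dS m) (by rw [hdS m hm]; exact hd m hm)
    simpa only [map_mul, map_pow, hθφ] using this
  have hDφ0 : app φ DS ≠ 0 := by
    intro h0
    have h1 : coeff n₀ (app φ DS) = 0 := by rw [h0]; simp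
    rw [coeff_app] at h1
    have h2 : ((coeff n₀ DS : S) : ℂ) = coeff n₀ D := by rw [← coeff_incl, hDS]
    have h3 : coeff n₀ DS * ⟨(coeff n₀ D)⁻¹, hinvS⟩ = 1 := by
      apply Subtype.ext
      rw [Subalgebra.coe_mul, h2]
      exact mul_inv_cancel₀ hn₀
    have h4 := congrArg φ h3
    rw [map_mul, h1, zero_mul, map_one] at h4
    exact zero_ne_one h4
  have hcφ : ∀ i ∈ Finset.Icc 1 μ, (fun i => app φ (cS i)) i ∈ Sc (i * k) := fun i hi =>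
    H.conjSc S φ _ (cS i) (by rw [hcS i hi]; exact hc i hi)
  obtain ⟨h, hh, hDh⟩ := hint _ _ _ hWφ hDφ hDφ0 hcφ hrelφ
  have heq : h = app φ fS := by
    apply mul_left_cancel₀ hDφ0
    rw [hDh, ← map_mul, hmulS]
  rw [← heq]
  exact hh

/-- `main` in coefficient form (the shape consumed by the descent step (9)). -/
theorem main' (H : Hyp M Sc Nm w θ) (k : ℤ) (μ : ℕ)
    (hchar : ∀ f ∈ Nc k, ∃ c : ℕ → ℂ⟦X⟧, (∀ i ∈ Finset.Icc 1 μ, c i ∈ Sc (i * k)) ∧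
      f ^ μ + ∑ i ∈ Finset.Icc 1 μ, c i * f ^ (μ - i) = 0)
    (hlag : ∀ f ∈ Nc k, ∃ d g : ℕ → ℂ⟦X⟧,
      (∀ i ∈ Finset.range μ, d i ∈ M (0 + w * ((μ : ℤ) - 1 - i))) ∧
      (∀ m ∈ Finset.range μ, g m ∈ M (k + w * ((μ : ℤ) - 1 - m))) ∧
      (∑ i ∈ Finset.range μ, d i * θ ^ i) ≠ 0 ∧
      (∑ i ∈ Finset.range μ, d i * θ ^ i) * f = ∑ m ∈ Finset.range μ, g m * θ ^ m)
    (hint : ∀ (W D : ℂ⟦X⟧) (c : ℕ → ℂ⟦X⟧), W ∈ Nm (k + w * ((μ : ℤ) - 1)) →
      D ∈ Nm (0 + w * ((μ : ℤ) - 1)) → D ≠ 0 → (∀ i ∈ Finset.Icc 1 μ, c i ∈ Sc (i * k)) →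
      W ^ μ + ∑ i ∈ Finset.Icc 1 μ, c i * W ^ (μ - i) * D ^ i = 0 → ∃ h ∈ Nc k, D * h = W)
    (f : ℂ⟦X⟧) (hf : f ∈ Nc k) :
    ∃ (s : Finset ℂ) (hfs : CoeffsIn (Algebra.adjoin ℚ (s : Set ℂ)) f),
      ∀ φ : Algebra.adjoin ℚ (s : Set ℂ) →ₐ[ℚ] ℂ,
        ∃ f' ∈ Nc k, ∀ n, coeff n f' = φ ⟨coeff n f, hfs n⟩ := by
  obtain ⟨s, fS, hfS, hφ⟩ := main H k μ hchar hlag hint f hf
  refine ⟨s, coeffsIn_iff.mpr ⟨fS, hfS⟩, fun φ => ⟨app φ fS, hφ φ, fun n => ?_⟩⟩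
  rw [coeff_app]
  congr 1
  apply Subtype.ext
  rw [← coeff_incl, hfS]

end main

end Fermat.Agent.S23.MainAbstract
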